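import Fermat.Agent.EC.TateFlat
import Fermat.Agent.ECFrob.Odd
import Fermat.Agent.HeckeRep.AbsIrr
import Fermat.Prelude.Def_FLTPrelim_ModularRep

/-!
# The residual representation of `T_p E`: odd, absolutely irreducible; semistable curves
-/

set_option autoImplicit false

noncomputable section

open WeierstrassCurve WeierstrassCurve.Affine FermatAgent.ECVal Fermat.Agent.ECRed
open Fermat.Agent.FlatGS
open scoped WeierstrassCurve.Affine TensorProduct

namespace Fermat.Agent.Tate

variable {W : WeierstrassCurve ℤ} (hΔ : (W.map (Int.castRingHom ℚ)).Δ ≠ 0)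
  (p : ℕ) [hp : Fact p.Prime]

/-- the cyclotomic character of an involution. -/
theorem cyc_involution (hp2 : p ≠ 2) {c : AlgebraicClosure ℚ ≃ₐ[ℚ] AlgebraicClosure ℚ}
    (hc : c * c = 1) (hc1 : c ≠ 1) : ((Fermat.Agent.S30aux.cyc p c : ℤ_[p]ˣ) : ℤ_[p]) = -1 := by
  have hsq : ((Fermat.Agent.S30aux.cyc p c : ℤ_[p]ˣ) : ℤ_[p]) *
      ((Fermat.Agent.S30aux.cyc p c : ℤ_[p]ˣ) : ℤ_[p]) = 1 := by
    rw [← Units.val_mul, ← map_mul, hc, map_one, Units.val_one]
  rcases mul_self_eq_one_iff.mp hsq with h | h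
  · exfalso
    obtain ⟨ζ, hζ⟩ := Fermat.Agent.ECFrob.exists_primitiveRoot p
    have hcc : ∀ x, c (c x) = x := fun x => by
      have := congrArg (fun f : AlgebraicClosure ℚ ≃ₐ[ℚ] AlgebraicClosure ℚ => f x) hc
      exact this
    obtain ⟨x₀, hx₀⟩ : ∃ x, c x ≠ x := by
      by_contra hne
      push Not at hne
      exact hc1 (AlgEquiv.ext hne)
    have h1 := Fermat.Agent.ECFrob.involution_root
      (c := (c : AlgebraicClosure ℚ →+* AlgebraicClosure ℚ)) hcc two_ne_zero hx₀ hp.out hp2 hζ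
    apply h1
    have h2 := Fermat.Agent.S30aux.cn_spec p 1 c ζ (by rw [pow_one]; exact hζ.pow_eq_one)
    have h3 : Fermat.Agent.S30aux.cn p 1 c = 1 := by
      have : Fact (1 < p ^ 1) := ⟨by rw [pow_one]; exact hp.out.one_lt⟩
      rw [Fermat.Agent.S30aux.cn, h, map_one, ZMod.val_one]
    rw [h3, pow_one] at h2
    exact h2
  · exact h

theorem det_residual (σ : AlgebraicClosure ℚ ≃ₐ[ℚ] AlgebraicClosure ℚ) :
    LinearMap.det ((tateRep (W.map (Int.castRingHom ℚ)) hΔ p).residual.ρ σ) =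
      IsLocalRing.residue ℤ_[p] ((Fermat.Agent.S30aux.cyc p σ : ℤ_[p]ˣ) : ℤ_[p]) := by
  rw [← det_tateRep hΔ p σ]
  exact LinearMap.det_baseChange _

/-- **The residual representation is odd.** -/
theorem tateRep_residual_isOdd (hp2 : p ≠ 2) :
    (tateRep (W.map (Int.castRingHom ℚ)) hΔ p).residual.IsOdd := by
  intro c hc hc1
  rw [det_residual, cyc_involution p hp2 hc hc1, map_neg, map_one]

theorem exists_eq_one_tmul (w : (tateRep (W.map (Int.castRingHom ℚ)) hΔ p).residual.V) :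
    ∃ v : (tateRep (W.map (Int.castRingHom ℚ)) hΔ p).V,
      w = (1 : IsLocalRing.ResidueField ℤ_[p]) ⊗ₜ[ℤ_[p]] v := by
  induction w using TensorProduct.induction_on with
  | zero => exact ⟨0, (TensorProduct.tmul_zero _ _).symm⟩
  | tmul c v =>
    obtain ⟨a, rfl⟩ := IsLocalRing.residue_surjective c
    refine ⟨a • v, ?_⟩
    rw [TensorProduct.tmul_smul, TensorProduct.smul_tmul', Algebra.smul_def, mul_one]
    rfl
  | add x y hx hy =>
    obtain ⟨v, rfl⟩ := hx
    obtain ⟨v', rfl⟩ := hy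
    exact ⟨v + v', (TensorProduct.tmul_add _ _ _).symm⟩

theorem one_tmul_eq_zero (v : (tateRep (W.map (Int.castRingHom ℚ)) hΔ p).V)
    (hv : toT hΔ v 1 = 0) : (1 : IsLocalRing.ResidueField ℤ_[p]) ⊗ₜ[ℤ_[p]] v = 0 := by
  obtain ⟨w, hw'⟩ : ∃ w : (tateRep (W.map (Int.castRingHom ℚ)) hΔ p).V,
      v = ((p : ℤ_[p]) ^ 1) • w :=
    (TMod.apply_eq_zero_iff (p := p) (A := (EQ W).Point) (toT hΔ v) 1).mp hv
  rw [hw', TensorProduct.tmul_smul, TensorProduct.smul_tmul', Algebra.smul_def, pow_one,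
    IsLocalRing.ResidueField.algebraMap_eq,
    (IsLocalRing.residue_eq_zero_iff _).mpr (natCast_mem_maximalIdeal p), zero_mul,
    TensorProduct.zero_tmul]

/-- **The residual representation of `T_p E` is irreducible if `E[p]` is.** -/
theorem tateRep_residual_isIrreducible (hirr : W.ModRepIsIrreducible p) :
    (tateRep (W.map (Int.castRingHom ℚ)) hΔ p).residual.IsIrreducible := by
  intro L hL
  have hT := hasTwoRank_curve hΔ p
  -- the corresponding submodule of `E[p]`
  let N : Submodule (ZMod p) (Submodule.torsionBy ℤ (EQ W).Point (p : ℤ)) :=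
    { carrier := {x | ∃ v : (tateRep (W.map (Int.castRingHom ℚ)) hΔ p).V,
        toT hΔ v 1 = (x : (EQ W).Point) ∧
          (1 : IsLocalRing.ResidueField ℤ_[p]) ⊗ₜ[ℤ_[p]] v ∈ L}
      zero_mem' := ⟨0, rfl, by rw [TensorProduct.tmul_zero]; exact L.zero_mem⟩
      add_mem' := by
        rintro x y ⟨v, hv, hvL⟩ ⟨v', hv', hvL'⟩
        refine ⟨v + v', ?_, by rw [TensorProduct.tmul_add]; exact L.add_mem hvL hvL'⟩
        change toT hΔ v 1 + toT hΔ v' 1 = _
        rw [hv, hv']
        rfl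
      smul_mem' := by
        rintro c x ⟨v, hv, hvL⟩
        have hp0 : NeZero p := ⟨hp.out.ne_zero⟩
        have h2 : c • x = c.val • x := by
          conv_lhs => rw [← ZMod.natCast_zmod_val c]
          exact Nat.cast_smul_eq_nsmul (ZMod p) _ _
        rw [h2]
        refine ⟨c.val • v, ?_, ?_⟩
        · have h3 : toT hΔ (c.val • v) 1 = c.val • toT hΔ v 1 := by
            exact map_nsmul (evT hΔ p 1) c.val v
          rw [h3, hv]
          rfl
        · have h4 : (1 : IsLocalRing.ResidueField ℤ_[p]) ⊗ₜ[ℤ_[p]] (c.val • v) =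
              c.val • ((1 : IsLocalRing.ResidueField ℤ_[p]) ⊗ₜ[ℤ_[p]] v) :=
            map_nsmul (TensorProduct.mk ℤ_[p] (IsLocalRing.ResidueField ℤ_[p])
              (tateRep (W.map (Int.castRingHom ℚ)) hΔ p).V 1) c.val v
          rw [h4]
          exact L.nsmul_mem hvL _ }
  have hNst : Affine.Point.IsGaloisStable (W' := W.map (Int.castRingHom ℚ))
      (K := AlgebraicClosure ℚ) ℚ N := by
    rintro σ x ⟨v, hv, hvL⟩
    refine ⟨(tateRep (W.map (Int.castRingHom ℚ)) hΔ p).ρ σ v, ?_, ?_⟩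
    · change σ • (toT hΔ v 1) = _
      rw [hv]
      rfl
    · exact hL σ _ hvL
  rcases hirr.2 N hNst with h | h
  · left
    rw [eq_bot_iff]
    intro w hw
    obtain ⟨v, rfl⟩ := exists_eq_one_tmul hΔ p w
    rw [Submodule.mem_bot]
    apply one_tmul_eq_zero
    have hv1 : p • toT hΔ v 1 = 0 := by
      have := TMod.pow_smul_apply (toT hΔ v) 1
      rwa [pow_one] at this
    have hmem : (⟨toT hΔ v 1, mem_torsionBy_nat.mpr hv1⟩ :
        Submodule.torsionBy ℤ (EQ W).Point (p : ℤ)) ∈ N := ⟨v, rfl, hw⟩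
    rw [h, Submodule.mem_bot] at hmem
    exact congrArg Subtype.val hmem
  · right
    rw [eq_top_iff]
    intro w _
    obtain ⟨v, rfl⟩ := exists_eq_one_tmul hΔ p w
    have hv1 : p • toT hΔ v 1 = 0 := by
      have := TMod.pow_smul_apply (toT hΔ v) 1
      rwa [pow_one] at this
    have hmem : (⟨toT hΔ v 1, mem_torsionBy_nat.mpr hv1⟩ :
        Submodule.torsionBy ℤ (EQ W).Point (p : ℤ)) ∈ N := by rw [h]; trivial
    obtain ⟨v', hv', hvL'⟩ := hmem
    have h1 : toT hΔ (v - v') 1 = 0 := by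
      change toT hΔ v 1 - toT hΔ v' 1 = 0
      rw [hv', sub_self]
    have h2 := one_tmul_eq_zero hΔ p (v - v') h1
    rw [TensorProduct.tmul_sub, sub_eq_zero] at h2
    rw [h2]
    exact hvL'

/-- `2 ≠ 0` in the residue field of a local ring containing `p ≠ 2` in its maximal ideal. -/
theorem two_ne_zero_residueField {R : Type*} [CommRing R] [IsLocalRing R] (hp2 : p ≠ 2)
    (hpR : (p : R) ∈ IsLocalRing.maximalIdeal R) : (2 : IsLocalRing.ResidueField R) ≠ 0 := by
  intro h
  have hcop : IsCoprime (2 : ℤ) (p : ℤ) :=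
    Nat.isCoprime_iff_coprime.mpr ((Nat.coprime_primes Nat.prime_two hp.out).mpr (Ne.symm hp2))
  obtain ⟨u, v, huv⟩ := hcop
  have hpk : ((p : ℕ) : IsLocalRing.ResidueField R) = 0 := by
    rw [← map_natCast (IsLocalRing.residue R)]
    exact (IsLocalRing.residue_eq_zero_iff _).mpr hpR
  have h1 := congrArg (fun n : ℤ => (n : IsLocalRing.ResidueField R)) huv
  simp only [Int.cast_add, Int.cast_mul, Int.cast_natCast, Int.cast_ofNat, hpk, h, mul_zero,
    add_zero, Int.cast_one] at h1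
  exact zero_ne_one h1

/-- **The residual representation of `T_p E` is absolutely irreducible** if `E[p]` is
irreducible, `p` odd. -/
theorem tateRep_residual_isAbsolutelyIrreducible (hp2 : p ≠ 2) (hirr : W.ModRepIsIrreducible p) :
    (tateRep (W.map (Int.castRingHom ℚ)) hΔ p).residual.IsAbsolutelyIrreducible := by
  have h2 := two_ne_zero_residueField p hp2 (natCast_mem_maximalIdeal p)
  refine (Fermat.Agent.HeckeRep.isAbsolutelyIrreducible_iff (c := complexConjugation)
    complexConjugation_mul_self (κ := (2 : IsLocalRing.ResidueField ℤ_[p])⁻¹)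
    (mul_inv_cancel₀ h2) _ ?_).mpr (tateRep_residual_isIrreducible hΔ p hirr)
  rw [det_residual, Fermat.Agent.S30aux.cyc_complexConjugation, map_neg, map_one]

/-! ### Semistable curves -/

theorem isMultAt_of_semistable (hW : W.IsSemistableModel) (hΔ' : W.Δ ≠ 0) {q : ℕ} (hq : q.Prime)
    (hdvd : (q : ℤ) ∣ W.Δ) : IsMultAt W q := ⟨hq, hdvd, hW q hq hdvd, hΔ'⟩

/-- unramified implies unipotent on inertia. -/
theorem isUnipotent_of_isUnramified {A : Type} [CommRing A] [IsLocalRing A] {ρ : GaloisRepAdic A}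
    {q : ℕ} (h : ρ.IsUnramifiedAt q) : ρ.IsUnipotentOnInertiaAt q := by
  intro P hP σ hσ
  rw [h P hP σ hσ, LinearMap.charpoly_one, ρ.finrank_eq]

/-- **Semistable curve: unipotent inertia at every `q ≠ p`** (`p` odd). -/
theorem tateRep_unipotent_of_semistable (hW : W.IsSemistableModel) (hp2 : p ≠ 2) {q : ℕ}
    (hq : q.Prime) (hne : q ≠ p) :
    (tateRep (W.map (Int.castRingHom ℚ)) hΔ p).IsUnipotentOnInertiaAt q := by
  by_cases hgood : W.IsGoodPrimeFor q
  · exact isUnipotent_of_isUnramified (tateRep_unramified hΔ p hq hgood hne)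
  · exact tateRep_unipotent hΔ p
      (isMultAt_of_semistable hW (Δ_ne_zero_of_map hΔ) hq (not_not.mp hgood)) hne hp2

/-- **Semistable curve: at `p` odd, flat or strictly ordinary.** -/
theorem tateRep_flat_or_strictOrdinary (hW : W.IsSemistableModel) (hp2 : p ≠ 2) :
    (tateRep (W.map (Int.castRingHom ℚ)) hΔ p).IsFlatAt p ∨
      (tateRep (W.map (Int.castRingHom ℚ)) hΔ p).IsStrictOrdinaryAt p := by
  by_cases hgood : W.IsGoodPrimeFor p
  · exact Or.inl (tateRep_isFlatAt hΔ p hgood)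
  · exact Or.inr (tateRep_strictOrdinary hΔ
      (isMultAt_of_semistable hW (Δ_ne_zero_of_map hΔ) hp.out (not_not.mp hgood)) hp2)

end Fermat.Agent.Tate
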