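import Fermat.Agent.EC.TateFrob
import Fermat.Agent.S30_Cyclo
import Fermat.Agent.Frob.Charpoly

/-!
# The determinant of the Tate module is the cyclotomic character
-/

set_option autoImplicit false

noncomputable section

open Polynomial Module
open scoped WeierstrassCurve.Affine
open WeierstrassCurve.Affine.Point

namespace Fermat.Agent.Tate

open Fermat.Agent.S30aux

variable {W : WeierstrassCurve ℤ} (hΔ : (W.map (Int.castRingHom ℚ)).Δ ≠ 0)
  (p : ℕ) [hp : Fact p.Prime]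

theorem finite_badPrimes {W : WeierstrassCurve ℤ} (hΔ : W.Δ ≠ 0) :
    {ℓ : ℕ | ¬ W.IsGoodPrimeFor ℓ}.Finite := by
  refine (Nat.divisors W.Δ.natAbs).finite_toSet.subset ?_
  intro ℓ hℓ
  have h1 : (ℓ : ℤ) ∣ W.Δ := not_not.mp hℓ
  rw [Finset.mem_coe, Nat.mem_divisors]
  exact ⟨Int.natCast_dvd.mp h1, Int.natAbs_ne_zero.mpr hΔ⟩

theorem Δ_ne_zero_of_map {W : WeierstrassCurve ℤ} (hΔ : (W.map (Int.castRingHom ℚ)).Δ ≠ 0) :
    W.Δ ≠ 0 := by
  rw [WeierstrassCurve.map_Δ, eq_intCast, Int.cast_ne_zero] at hΔ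
  exact hΔ

theorem map_Δ_ne_zero {W : WeierstrassCurve ℤ} (hΔ : W.Δ ≠ 0) :
    (W.map (Int.castRingHom ℚ)).Δ ≠ 0 := by
  rw [WeierstrassCurve.map_Δ, eq_intCast, Int.cast_ne_zero]
  exact hΔ

theorem det_of_charpoly {R M : Type*} [CommRing R] [Nontrivial R] [AddCommGroup M] [Module R M]
    [Module.Free R M] [Module.Finite R M] (h2 : Module.finrank R M = 2) (f : M →ₗ[R] M) {a b : R}
    (h : LinearMap.charpoly f = X ^ 2 - C a * X + C b) : LinearMap.det f = b := by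
  rw [LinearMap.det_eq_sign_charpoly_coeff, h, h2]
  simp

omit hp in
theorem det_eq_of_eq_on {L : IntermediateField ℚ (AlgebraicClosure ℚ)} {n : ℕ}
    (hL : ∀ σ : AlgebraicClosure ℚ ≃ₐ[ℚ] AlgebraicClosure ℚ, (∀ x ∈ L, σ x = x) →
      galoisRepModuleEnd (K := AlgebraicClosure ℚ) ℚ (W.map (Int.castRingHom ℚ)) (p ^ n) σ = 1)
    {σ τ : AlgebraicClosure ℚ ≃ₐ[ℚ] AlgebraicClosure ℚ} (h : ∀ x ∈ L, σ x = τ x) :
    galoisRepModuleEnd (K := AlgebraicClosure ℚ) ℚ (W.map (Int.castRingHom ℚ)) (p ^ n) σ =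
      galoisRepModuleEnd (K := AlgebraicClosure ℚ) ℚ (W.map (Int.castRingHom ℚ)) (p ^ n) τ := by
  have h1 : τ * (τ⁻¹ * σ) = σ := by group
  have h2 := hL (τ⁻¹ * σ) (fun x hx => by
    rw [AlgEquiv.mul_apply, h x hx]
    exact τ.symm_apply_apply x)
  rw [← h1, map_mul, h2, mul_one]

/-- **The determinant of `T_p E` is the cyclotomic character.** -/
theorem det_tateRep (σ : AlgebraicClosure ℚ ≃ₐ[ℚ] AlgebraicClosure ℚ) :
    LinearMap.det ((tateRep (W.map (Int.castRingHom ℚ)) hΔ p).ρ σ) =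
      ((cyc p σ : ℤ_[p]ˣ) : ℤ_[p]) := by
  refine PadicInt.ext_of_toZModPow.mp fun n => ?_
  obtain ⟨ζ, hζ⟩ := exists_primitive p n
  have hT := hasTwoRank_curve hΔ p
  have := hT.free
  have := hT.finite_tmod
  obtain ⟨L₁, hL₁, h₁⟩ := Fermat.Agent.Torsion.galoisRep_factors hΔ
    (n := p ^ n) (pow_ne_zero n hp.out.ne_zero)
  have hζint : IsIntegral ℚ ζ := ((AlgebraicClosure.isAlgebraic ℚ).isAlgebraic ζ).isIntegral
  have hL₂ : FiniteDimensional ℚ (IntermediateField.adjoin ℚ {ζ}) :=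
    IntermediateField.adjoin.finiteDimensional hζint
  have hfin : FiniteDimensional ℚ
      (L₁ ⊔ IntermediateField.adjoin ℚ {ζ} : IntermediateField ℚ (AlgebraicClosure ℚ)) :=
    IntermediateField.finiteDimensional_sup _ _
  refine Fermat.Agent.FrobDensity.eq_of_frobenius
    (fun σ => PadicInt.toZModPow n
      (LinearMap.det ((tateRep (W.map (Int.castRingHom ℚ)) hΔ p).ρ σ)))
    (fun σ => PadicInt.toZModPow n ((cyc p σ : ℤ_[p]ˣ) : ℤ_[p]))
    (L₁ ⊔ IntermediateField.adjoin ℚ {ζ}) ?_ ?_ ?_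
    ({ℓ : ℕ | ¬ W.IsGoodPrimeFor ℓ} ∪ {p})
    ((finite_badPrimes (Δ_ne_zero_of_map hΔ)).union (Set.finite_singleton p)) ?_ σ
  · intro σ τ hστ
    simp only [toZModPow_det_tateRep]
    rw [det_eq_of_eq_on p h₁ (fun x hx => hστ x
      ((le_sup_left : L₁ ≤ L₁ ⊔ IntermediateField.adjoin ℚ {ζ}) hx))]
  · intro σ τ hστ
    have hζL : ζ ∈ L₁ ⊔ IntermediateField.adjoin ℚ {ζ} :=
      (le_sup_right : IntermediateField.adjoin ℚ {ζ} ≤ L₁ ⊔ IntermediateField.adjoin ℚ {ζ})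
        (IntermediateField.mem_adjoin_simple_self ℚ ζ)
    simp only [← cast_cn]
    have h2 : σ ζ = ζ ^ cn p n τ := by rw [hστ ζ hζL]; exact cn_spec p n τ ζ hζ.pow_eq_one
    exact (cn_unique p n σ (cn p n τ) ζ hζ h2).symm
  · intro φ k h
    simp only [map_pow, Units.val_pow_eq_pow_val] at h ⊢
    rw [h]
  · intro ℓ hℓ hℓS A hA φ hφ
    have : Fact ℓ.Prime := ⟨hℓ⟩
    have hgood : W.IsGoodPrimeFor ℓ := by
      by_contra h
      exact hℓS (Or.inl h)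
    have hne : p ≠ ℓ := fun h => hℓS (Or.inr (by simp [h]))
    rw [cyc_frobenius hℓ hne.symm hA hφ,
      det_of_charpoly (tateRep (W.map (Int.castRingHom ℚ)) hΔ p).finrank_eq _
        (charpoly_tateRep_frobenius p hΔ hgood hne hA hφ)]

theorem cyc_sub_mem {n : ℕ} {σ : AlgebraicClosure ℚ ≃ₐ[ℚ] AlgebraicClosure ℚ} {a : ℕ}
    (h : ∀ μ : AlgebraicClosure ℚ, μ ^ p ^ n = 1 → σ μ = μ ^ a) :
    ((cyc p σ : ℤ_[p]ˣ) : ℤ_[p]) - (a : ℤ_[p]) ∈ Ideal.span {((p ^ n : ℕ) : ℤ_[p])} := by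
  obtain ⟨ζ, hζ⟩ := exists_primitive p n
  rw [← toZModPow_eq_zero_iff, map_sub, map_natCast, sub_eq_zero, ← cast_cn]
  exact (cn_unique p n σ a ζ hζ (h ζ hζ.pow_eq_one)).symm

theorem natCast_mem_maximalIdeal : ((p : ℕ) : ℤ_[p]) ∈ IsLocalRing.maximalIdeal ℤ_[p] := by
  rw [PadicInt.maximalIdeal_eq_span_p]
  exact Ideal.mem_span_singleton_self _

theorem tateRep_detIsCyclotomic :
    (tateRep (W.map (Int.castRingHom ℚ)) hΔ p).DetIsCyclotomic p := by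
  refine ⟨natCast_mem_maximalIdeal p, fun n σ a h => ?_⟩
  rw [det_tateRep hΔ p σ]
  exact cyc_sub_mem p h

include hΔ in
/-- the determinant on `E[p^n]`. -/
theorem det_galoisRepModuleEnd (n : ℕ) (σ : AlgebraicClosure ℚ ≃ₐ[ℚ] AlgebraicClosure ℚ) :
    LinearMap.det (galoisRepModuleEnd (K := AlgebraicClosure ℚ) ℚ
      (W.map (Int.castRingHom ℚ)) (p ^ n) σ) = (cn p n σ : ZMod (p ^ n)) := by
  rw [← toZModPow_det_tateRep hΔ p σ n, det_tateRep hΔ p σ, cast_cn]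

end Fermat.Agent.Tate
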