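import Fermat.Agent.EC.TateLevel
import Mathlib.CategoryTheory.CofilteredSystem
import Mathlib.CategoryTheory.Functor.OfSequence

/-!
# Elements of the Tate module inside a subgroup
-/

set_option autoImplicit false

open CategoryTheory Module

namespace Fermat.Agent.Tate

/-- An inverse sequence of nonempty finite types has a compatible family. -/
theorem exists_compatible {Y : ℕ → Type} [∀ n, Finite (Y n)] [∀ n, Nonempty (Y n)]
    (φ : ∀ n, Y (n + 1) → Y n) : ∃ y : ∀ n, Y n, ∀ n, φ n (y (n + 1)) = y n := by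
  let F : ℕᵒᵖ ⥤ Type := Functor.ofOpSequence (X := Y) (fun n => TypeCat.ofHom (φ n))
  have : ∀ j : ℕᵒᵖ, Finite (F.obj j) := fun j => (inferInstance : Finite (Y j.unop))
  have : ∀ j : ℕᵒᵖ, Nonempty (F.obj j) := fun j => (inferInstance : Nonempty (Y j.unop))
  obtain ⟨s, hs⟩ := nonempty_sections_of_finite_inverse_system F
  refine ⟨fun n => s (Opposite.op n), fun n => ?_⟩
  have := hs (homOfLE (Nat.le_add_right n 1)).op
  rw [Functor.ofOpSequence_map_homOfLE_succ] at this
  exact this

variable {p : ℕ} [hp : Fact p.Prime] {A : Type} [AddCommGroup A]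

/-- the part of `A[N]` inside a subgroup `B` -/
def torsIn (B : AddSubgroup A) (N : ℕ) : AddSubgroup (Submodule.torsionBy ℤ A (N : ℤ)) :=
  B.comap (Submodule.torsionBy ℤ A (N : ℤ)).subtype.toAddMonoidHom

lemma mem_torsIn {B : AddSubgroup A} {N : ℕ} {x : Submodule.torsionBy ℤ A (N : ℤ)} :
    x ∈ torsIn B N ↔ (x : A) ∈ B := Iff.rfl

/-- If `#B[p^n] ≥ p^n` for all `n`, there is a nonzero element of the Tate module inside `B`. -/
theorem HasTwoRank.exists_tmod_in (hA : HasTwoRank p A) (B : AddSubgroup A)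
    (hB : ∀ n : ℕ, p ^ n ≤ Nat.card (torsIn B (p ^ n))) :
    ∃ f : TMod p A, f 1 ≠ 0 ∧ ∀ n, f n ∈ B := by
  classical
  -- the elements of `B` of exact order `p^(m+1)`
  let Y : ℕ → Type := fun m => {x : A // x ∈ B ∧ p ^ (m + 1) • x = 0 ∧ p ^ m • x ≠ 0}
  have hfin : ∀ m, Finite (Y m) := by
    intro m
    have := hA.finite (m + 1)
    refine Finite.of_injective
      (fun x : Y m => (⟨x.1, mem_torsionBy_nat.mpr x.2.2.1⟩ :
        Submodule.torsionBy ℤ A ((p ^ (m + 1) : ℕ) : ℤ))) ?_
    intro x y hxy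
    have h := congrArg Subtype.val hxy
    exact Subtype.ext h
  have hne : ∀ m, Nonempty (Y m) := by
    intro m
    -- there is an element of `B[p^(2m+1)]` not killed by `p^m`
    have h1 : ∃ x : A, x ∈ B ∧ p ^ (2 * m + 1) • x = 0 ∧ p ^ m • x ≠ 0 := by
      by_contra hcon
      push Not at hcon
      have hf := hA.finite (2 * m + 1)
      have hf' := hA.finite m
      have hle : Nat.card (torsIn B (p ^ (2 * m + 1))) ≤
          Nat.card (Submodule.torsionBy ℤ A ((p ^ m : ℕ) : ℤ)) := by
        refine Nat.card_le_card_of_injective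
          (fun x : torsIn B (p ^ (2 * m + 1)) => (⟨(x.1 : A), mem_torsionBy_nat.mpr
            (hcon (x.1 : A) (mem_torsIn.mp x.2) (mem_torsionBy_nat.mp x.1.2))⟩ :
            Submodule.torsionBy ℤ A ((p ^ m : ℕ) : ℤ))) ?_
        intro x y hxy
        have h2 := congrArg Subtype.val hxy
        exact Subtype.ext (Subtype.ext h2)
      have h3 := (hB (2 * m + 1)).trans hle
      rw [hA m, ← pow_mul] at h3
      have h4 := (Nat.pow_le_pow_iff_right hp.out.one_lt).mp h3
      omega
    obtain ⟨x, hxB, hx1, hx2⟩ := h1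
    -- the order of `x` is `p^r` with `m < r`
    have hord : addOrderOf x ∣ p ^ (2 * m + 1) := addOrderOf_dvd_of_nsmul_eq_zero hx1
    obtain ⟨r, -, hr⟩ := (Nat.dvd_prime_pow hp.out).mp hord
    have hmr : m < r := by
      by_contra hcon
      rw [not_lt] at hcon
      apply hx2
      apply addOrderOf_dvd_iff_nsmul_eq_zero.mp
      rw [hr]
      exact pow_dvd_pow p hcon
    refine ⟨⟨p ^ (r - (m + 1)) • x, AddSubgroup.nsmul_mem B hxB _, ?_, ?_⟩⟩
    · rw [← mul_smul, ← pow_add]
      have : m + 1 + (r - (m + 1)) = r := by omega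
      rw [this, ← hr]
      exact addOrderOf_nsmul_eq_zero x
    · rw [← mul_smul, ← pow_add]
      intro h0
      have h1 := addOrderOf_dvd_of_nsmul_eq_zero h0
      rw [hr] at h1
      have := (Nat.pow_dvd_pow_iff_le_right hp.out.one_lt).mp h1
      omega
  let φ : ∀ m, Y (m + 1) → Y m := fun m x => ⟨p • x.1, AddSubgroup.nsmul_mem B x.2.1 _, by
    rw [← mul_smul, ← pow_succ]; exact x.2.2.1, by
    rw [← mul_smul, ← pow_succ]; exact x.2.2.2⟩
  obtain ⟨y, hy⟩ := exists_compatible φ
  refine ⟨⟨fun n => match n with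
    | 0 => 0
    | m + 1 => (y m).1, rfl, ?_⟩, ?_, ?_⟩
  · intro n
    match n with
    | 0 =>
      have := (y 0).2.2.1
      simpa using this
    | m + 1 => exact congrArg Subtype.val (hy m)
  · show (y 0).1 ≠ 0
    have := (y 0).2.2.2
    simpa using this
  · intro n
    match n with
    | 0 => exact AddSubgroup.zero_mem B
    | m + 1 => exact (y m).2.1

/-- If `f ∈ T(B)`, `(f, g)` is independent and `g 1 ∉ B`, then `b • g n ∈ B` implies `p^n ∣ b`. -/
theorem dvd_of_smul_mem {g : TMod p A} (B : AddSubgroup A) (hg : g 1 ∉ B)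
    (n : ℕ) : ∀ b : ℤ, b • g n ∈ B → ((p : ℤ) ^ n) ∣ b := by
  have hpg : (p : ℤ) • g 1 = 0 := by
    have := TMod.pow_smul_apply g 1
    rw [pow_one] at this
    rw [natCast_zsmul, this]
  have h1 : ∀ b : ℤ, b • g 1 ∈ B → (p : ℤ) ∣ b := by
    intro b hb
    by_contra hnd
    have hcop : IsCoprime b (p : ℤ) :=
      ((Nat.prime_iff_prime_int.mp hp.out).coprime_iff_not_dvd.mpr hnd).symm
    obtain ⟨u, v, huv⟩ := hcop
    apply hg
    have : g 1 = u • (b • g 1) := by
      calc g 1 = (u * b + v * p) • g 1 := by rw [huv, one_smul]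
        _ = u • (b • g 1) := by rw [add_smul, mul_smul, mul_smul, hpg, smul_zero, add_zero]
    rw [this]
    exact AddSubgroup.zsmul_mem B hb u
  induction n with
  | zero => intro b _; simp
  | succ n ih =>
    intro b hb
    have h2 : b • g n ∈ B := by
      rw [← TMod.p_smul_apply_succ g n, smul_comm]
      exact AddSubgroup.nsmul_mem B hb p
    obtain ⟨b', rfl⟩ := ih b h2
    have h3 : ((p : ℤ) ^ n) • g (n + 1) = g 1 := by
      have := TMod.pow_smul_apply_add g 1 n
      rw [show 1 + n = n + 1 by ring] at this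
      rw [← this, ← natCast_zsmul, Nat.cast_pow]
    have h4 : b' • g 1 ∈ B := by
      rw [← h3, ← mul_smul, mul_comm]
      exact hb
    rw [pow_succ]
    exact mul_dvd_mul_left _ (h1 b' h4)

/-- `T(B) = ℤ_p f`. -/
theorem exists_smul_eq_of_mem (hA : HasTwoRank p A) {f g : TMod p A} (h : Indep f g)
    (B : AddSubgroup A) (hf : ∀ n, f n ∈ B) (hg : g 1 ∉ B) {x : TMod p A} (hx : ∀ n, x n ∈ B) :
    ∃ a : ℤ_[p], x = a • f := by
  obtain ⟨c, hc⟩ := h.surjective hA x
  rw [pairMap_apply] at hc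
  refine ⟨c 0, ?_⟩
  have hc1 : c 1 = 0 := by
    refine PadicInt.ext_of_toZModPow.mp fun n => ?_
    have h1 : (c 0).appr n • f n + (c 1).appr n • g n = x n := by
      rw [← hc]; rfl
    have h2 : ((c 1).appr n : ℤ) • g n ∈ B := by
      rw [natCast_zsmul]
      have : (c 1).appr n • g n = x n - (c 0).appr n • f n := by rw [← h1]; abel
      rw [this]
      exact AddSubgroup.sub_mem B (hx n) (AddSubgroup.nsmul_mem B (hf n) _)
    have h3 := dvd_of_smul_mem B hg n _ h2
    rw [map_zero, toZModPow_eq_appr, ZMod.natCast_eq_zero_iff]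
    exact_mod_cast h3
  rw [← hc, hc1, zero_smul, add_zero]

/-- a linear map fixing a basis vector. -/
theorem charpoly_of_fix {R M : Type*} [CommRing R] [Nontrivial R] [AddCommGroup M] [Module R M]
    [Module.Free R M] [Module.Finite R M] (b : Basis (Fin 2) R M) (φ : M →ₗ[R] M)
    (h : φ (b 0) = b 0) :
    LinearMap.charpoly φ = (Polynomial.X - 1) * (Polynomial.X - Polynomial.C (LinearMap.det φ)) := by
  have h00 : LinearMap.toMatrix b b φ 0 0 = 1 := by
    rw [LinearMap.toMatrix_apply, h, Basis.repr_self]; simp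
  have h10 : LinearMap.toMatrix b b φ 1 0 = 0 := by
    rw [LinearMap.toMatrix_apply, h, Basis.repr_self]; simp
  rw [← LinearMap.charpoly_toMatrix φ b, Matrix.charpoly_fin_two, ← LinearMap.det_toMatrix b,
    Matrix.det_fin_two, Matrix.trace_fin_two, h00, h10]
  simp only [map_add, map_one, one_mul, mul_zero, sub_zero]
  ring

end Fermat.Agent.Tate
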