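import Fermat.Agent.EC.MultCount
import Fermat.Agent.EC.TateSub
import Fermat.Agent.EC.TateDet

/-!
# Inertia at `q ≠ p` on `T_p E`

* good reduction: unramified;
* multiplicative reduction: unipotent.
-/

set_option autoImplicit false

noncomputable section

open WeierstrassCurve WeierstrassCurve.Affine FermatAgent.ECVal Fermat.Agent.ECRed Polynomial
open scoped WeierstrassCurve.Affine

namespace Fermat.Agent.Tate

variable {W : WeierstrassCurve ℤ} (hΔ : (W.map (Int.castRingHom ℚ)).Δ ≠ 0)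
  (p : ℕ) [hp : Fact p.Prime] {q : ℕ}

omit hp in
/-- `p ≠ q` is a unit at a place above `q`. -/
theorem val_prime_eq_one (hp : p.Prime) (hq : q.Prime) (hne : q ≠ p)
    {A : ValuationSubring (AlgebraicClosure ℚ)} (hA : A.LiesOverPrime q) (n : ℕ) :
    A.valuation ((p ^ n : ℕ) : AlgebraicClosure ℚ) = 1 := by
  rw [Nat.cast_pow, map_pow]
  have h := val_intCast_eq_one A.valuation hq (lt_one_of_liesOver hA) (n := (p : ℤ)) (by
    intro h
    rw [Int.natCast_dvd_natCast] at h
    exact hne ((Nat.prime_dvd_prime_iff_eq hq hp).mp h))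
  rw [Int.cast_natCast] at h
  rw [h, one_pow]

/-- **Good reduction at `q ≠ p` implies unramified.** -/
theorem tateRep_unramified (hq : q.Prime) (hgood : W.IsGoodPrimeFor q) (hne : q ≠ p) :
    (tateRep (W.map (Int.castRingHom ℚ)) hΔ p).IsUnramifiedAt q := by
  classical
  intro P hP σ hσ
  refine LinearMap.ext fun (v : TMod p (EQ W).Point) => TMod.ext fun n => ?_
  have hΔ' : (Ek W P).Δ ≠ 0 := by
    have h1 : ¬ P.valuation ((W.Δ : ℤ) : AlgebraicClosure ℚ) < 1 := by
      rw [val_intCast_eq_one P.valuation hq (lt_one_of_liesOver hP) hgood]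
      exact lt_irrefl _
    intro h0
    apply h1
    have h2 := (redEk W P).Δ
    rw [h0, EQ_Δ] at h2
    exact (isPlace_valuationSubring P).lt_one h2
  have h3 := smul_eq_of_torsion_of_good (W' := W.map (Int.castRingHom ℚ)) hσ
    (val_prime_eq_one p hp.out hq hne hP n) (P := v n) (redEk W P) hΔ'
    (TMod.pow_smul_apply v n)
  exact h3

theorem mem_EkTorsion {A : ValuationSubring (AlgebraicClosure ℚ)}
    [DecidableEq (IsLocalRing.ResidueField A)]
    {f : TMod p (EQ W).Point}
    (hf : ∀ n, f n ∈ E0 (redEk W A) (isPlace_valuationSubring A)) (hq : q.Prime) (hne : q ≠ p)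
    (hA : A.LiesOverPrime q) {σ : AlgebraicClosure ℚ ≃ₐ[ℚ] AlgebraicClosure ℚ}
    (hσ : σ ∈ A.inertiaSubgroupIn ℚ) (n : ℕ) : σ • f n = f n := by
  obtain ⟨Q, hQ⟩ := hf n
  exact smul_eq_of_torsion_of_mem_E0 (W' := W.map (Int.castRingHom ℚ)) hσ
    (val_prime_eq_one p hp.out hq hne hA n) (redEk W A) hQ (TMod.pow_smul_apply f n)

/-- **Multiplicative reduction at `q ≠ p` (`p` odd) implies unipotent inertia.** -/
theorem tateRep_unipotent (hW : IsMultAt W q) (hne : q ≠ p) (hp2 : p ≠ 2) :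
    (tateRep (W.map (Int.castRingHom ℚ)) hΔ p).IsUnipotentOnInertiaAt q := by
  classical
  intro A hA σ hσ
  have hT := hasTwoRank_curve hΔ p
  obtain ⟨f, hf1, hf⟩ := hT.exists_tmod_in
    (E0 (redEk W A) (isPlace_valuationSubring A)) (fun n => pow_le_card_E0tors hW hA hp2 n)
  obtain ⟨g, hfg⟩ := hT.exists_indep_right hf1
  let b : Module.Basis (Fin 2) ℤ_[p] (tateRep (W.map (Int.castRingHom ℚ)) hΔ p).V :=
    hfg.basis hT
  have hb : b 0 = f := hfg.basis_zero hT
  have hfix : (tateRep (W.map (Int.castRingHom ℚ)) hΔ p).ρ σ (b 0) = b 0 := by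
    rw [hb]
    exact TMod.ext fun n => mem_EkTorsion p hf hW.prime hne hA hσ n
  have h1 := charpoly_of_fix b _ hfix
  have h2 : LinearMap.det ((tateRep (W.map (Int.castRingHom ℚ)) hΔ p).ρ σ) = 1 := by
    rw [det_tateRep hΔ p σ, Fermat.Agent.S30aux.cyc_inertia hW.prime hne hA hσ]
    rfl
  rw [h1, h2, map_one]
  ring

end Fermat.Agent.Tate
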