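import Fermat.Agent.EC.FlatAlg
import Fermat.Agent.EC.MultInertia
import Fermat.Agent.FlatGS.FromTransfer
import Fermat.Agent.Frob.Exists

/-!
# The torsion of an elliptic curve at a prime of good reduction is finite flat
-/

set_option autoImplicit false

open Polynomial WeierstrassCurve WeierstrassCurve.Affine FermatAgent.ECVal Fermat.Agent.ECRed
open Fermat.Agent.FlatGS Fermat.Agent.LatticeFlat
open scoped WeierstrassCurve.Affine

namespace Fermat.Agent.ECFlat

variable {W : WeierstrassCurve ℤ} {p : ℕ} {A : ValuationSubring (AlgebraicClosure ℚ)}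

lemma Ek_Δ_ne_zero (hp : p.Prime) (hgood : W.IsGoodPrimeFor p) (hA : A.LiesOverPrime p) :
    (Ek W A).Δ ≠ 0 := by
  have h1 : ¬ A.valuation ((W.Δ : ℤ) : AlgebraicClosure ℚ) < 1 := by
    rw [val_intCast_eq_one A.valuation hp (lt_one_of_liesOver hA) hgood]
    exact lt_irrefl _
  intro h0
  apply h1
  have h2 := (redEk W A).Δ
  rw [h0, EQ_Δ] at h2
  exact (isPlace_valuationSubring A).lt_one h2

lemma Δ_ne_zero_of_good (hgood : W.IsGoodPrimeFor p) : W.Δ ≠ 0 := by
  intro h
  apply hgood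
  rw [h]
  exact dvd_zero _

lemma EQ_Δ_ne_zero (hgood : W.IsGoodPrimeFor p) : (EQ W).Δ ≠ 0 := by
  rw [EQ_Δ, Int.cast_ne_zero]
  exact Δ_ne_zero_of_good hgood

/-- auxiliary torsion points of order `ℓ ≠ p`. -/
lemma exists_aux [DecidableEq (IsLocalRing.ResidueField A)] (hp : p.Prime)
    (hgood : W.IsGoodPrimeFor p) (hA : A.LiesOverPrime p) {ℓ : ℕ} (hℓ : ℓ.Prime) (hne : p ≠ ℓ) :
    ∃ (S : (EQ W).Point) (S' : (Ek W A).Point), ℓ • S = 0 ∧ ℓ • S' = 0 ∧
      IsRed A.valuation (IsLocalRing.residue A) S S' ∧ S' ≠ 0 ∧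
      ∀ σ ∈ A.inertiaSubgroupIn ℚ, σ • S = S := by
  have hpl := isPlace_valuationSubring A
  have hcard := card_torsionBy_EQ (W := W) (Δ_ne_zero_of_good hgood) hℓ.ne_zero
  have hfin := finite_torsionBy_EQ (W := W) (Δ_ne_zero_of_good hgood) hℓ.ne_zero
  have hnt : Nontrivial (Submodule.torsionBy ℤ (EQ W).Point (ℓ : ℤ)) := by
    rw [← Finite.one_lt_card_iff_nontrivial, hcard]
    exact Nat.one_lt_pow two_ne_zero hℓ.one_lt
  obtain ⟨S, hS⟩ := exists_ne (0 : Submodule.torsionBy ℤ (EQ W).Point (ℓ : ℤ))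
  have hS0 : (S : (EQ W).Point) ≠ 0 := fun h => hS (Subtype.ext h)
  have hℓS : ℓ • (S : (EQ W).Point) = 0 := Fermat.Agent.Tate.mem_torsionBy_nat.mp S.2
  obtain ⟨S', hS'⟩ := exists_isRed_of_Δ_ne_zero (redEk W A) hpl (Ek_Δ_ne_zero hp hgood hA)
    (S : (EQ W).Point)
  have hvℓ : A.valuation ((ℓ : ℕ) : AlgebraicClosure ℚ) = 1 := by
    have := Fermat.Agent.Tate.val_prime_eq_one ℓ hℓ hp hne hA 1
    rwa [pow_one] at this
  refine ⟨S, S', hℓS, ?_, hS', ?_, fun σ hσ => ?_⟩
  · have h1 := isRed_nsmul (redEk W A) hpl hS' ℓ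
    rw [hℓS] at h1
    exact isRed_zero_left_iff.mp h1
  · rintro rfl
    apply hS0
    exact eq_of_isRed_of_nsmul (redEk W A) hpl hvℓ hS' isRed_zero_zero (by
      rw [sub_zero, hℓS])
  · exact smul_eq_of_torsion_of_good (W' := W.map (Int.castRingHom ℚ)) hσ hvℓ (redEk W A)
      (Ek_Δ_ne_zero hp hgood hA) hℓS

/-- coprimality of orders. -/
lemma add_ne_zero_of_coprime {G : Type*} [AddCommGroup G] {ℓ N : ℕ} (h : Nat.Coprime ℓ N)
    {S X : G} (hS : ℓ • S = 0) (hS0 : S ≠ 0) (hX : N • X = 0) : S + X ≠ 0 := by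
  intro h0
  have h1 : S = -X := eq_neg_of_add_eq_zero_left h0
  have h2 : N • S = 0 := by rw [h1, smul_neg, hX, neg_zero]
  apply hS0
  have h3 := Nat.Coprime.eq_one_of_dvd (Nat.Coprime.coprime_dvd_left
    (addOrderOf_dvd_of_nsmul_eq_zero hS) h) (addOrderOf_dvd_of_nsmul_eq_zero h2)
  exact AddMonoid.addOrderOf_eq_one_iff.mp h3

lemma mul_nsmul_add_eq_zero {G : Type*} [AddCommGroup G] {a b : ℕ} {X Y : G}
    (hX : a • X = 0) (hY : b • Y = 0) : (a * b) • (X + Y) = 0 := by
  have h1 : (a * b) • X = 0 := by rw [mul_comm, mul_smul, hX, smul_zero]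
  have h2 : (a * b) • Y = 0 := by rw [mul_smul, hY, smul_zero]
  rw [nsmul_add, h1, h2, add_zero]

lemma nsmul_neg_eq_zero {G : Type*} [AddCommGroup G] {a : ℕ} {X : G} (hX : a • X = 0) :
    a • (-X) = 0 := by
  rw [smul_neg, hX, neg_zero]

/-- the difference of the `x`-coordinates of two points with distinct nonzero, non opposite,
reductions is a unit. -/
lemma val_xc_sub_eq_one {P Q : (EQ W).Point} {P' Q' : (Ek W A).Point}
    (hP : IsRed A.valuation (IsLocalRing.residue A) P P')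
    (hQ : IsRed A.valuation (IsLocalRing.residue A) Q Q') (hP' : P' ≠ 0) (hQ' : Q' ≠ 0)
    (h1 : P' ≠ Q') (h2 : P' ≠ -Q') : A.valuation (xc P - xc Q) = 1 := by
  have hpl := isPlace_valuationSubring A
  have hxP : RedTo (IsLocalRing.residue A) (xc P) (xc P') := by
    rcases hP with ⟨-, h⟩ | ⟨-, -, h⟩ | ⟨-, -, h, -⟩
    · exact absurd h hP'
    · exact absurd h hP'
    · exact h
  have hxQ : RedTo (IsLocalRing.residue A) (xc Q) (xc Q') := by
    rcases hQ with ⟨-, h⟩ | ⟨-, -, h⟩ | ⟨-, -, h, -⟩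
    · exact absurd h hQ'
    · exact absurd h hQ'
    · exact h
  refine (hpl.eq_one_iff (hxP.sub hxQ)).mpr ?_
  intro h0
  rcases eq_or_eq_neg_of_xc_eq hP' hQ' (sub_eq_zero.mp h0) with h | h
  · exact h1 h
  · exact h2 h

lemma integral_of_isRed {P : (EQ W).Point} {P' : (Ek W A).Point}
    (hP : IsRed A.valuation (IsLocalRing.residue A) P P') (hP' : P' ≠ 0) :
    P ≠ 0 ∧ xc P ∈ A ∧ yc P ∈ A := by
  have hpl := isPlace_valuationSubring A
  rcases hP with ⟨-, h⟩ | ⟨-, -, h⟩ | ⟨h0, -, h, h'⟩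
  · exact absurd h hP'
  · exact absurd h hP'
  · exact ⟨h0, (A.valuation_le_one_iff _).mp (hpl.le_one h),
      (A.valuation_le_one_iff _).mp (hpl.le_one h')⟩

/-- **The `p`-power torsion of an elliptic curve with good reduction at `p` is finite flat.** -/
theorem isFlatModule_torsion (hp : p.Prime) (hgood : W.IsGoodPrimeFor p) (k : ℕ) {a : ℤ}
    (ha : a = ((p ^ k : ℕ) : ℤ)) :
    IsFlatModule p (M := Submodule.torsionBy ℤ (EQ W).Point a)
      (torsAct (J := (EQ W).Point) a) := by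
  classical
  subst ha
  obtain ⟨A, hA⟩ := Fermat.Agent.Frob.exists_liesOverPrime p hp
  have hpl := isPlace_valuationSubring A
  have hΔ := Δ_ne_zero_of_good hgood
  have hΔk := Ek_Δ_ne_zero hp hgood hA
  have hN0 : p ^ k ≠ 0 := pow_ne_zero _ hp.ne_zero
  have hfin := finite_torsionBy_EQ (W := W) hΔ hN0
  -- two auxiliary primes
  obtain ⟨ℓ₁, hℓ₁p, hℓ₁⟩ := Nat.exists_infinite_primes (p + 1)
  obtain ⟨ℓ₂, hℓ₂p, hℓ₂⟩ := Nat.exists_infinite_primes (ℓ₁ + 1)
  obtain ⟨S, S', hS, hS', hSS, hS0, hSσ⟩ := exists_aux hp hgood hA hℓ₁ (by omega)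
  obtain ⟨T, T', hT, hT', hTT, hT0, hTσ⟩ := exists_aux hp hgood hA hℓ₂ (by omega)
  have cop1 : Nat.Coprime ℓ₁ (p ^ k) :=
    Nat.Coprime.pow_right k ((Nat.coprime_primes hℓ₁ hp).mpr (by omega))
  have cop2 : Nat.Coprime ℓ₂ (p ^ k) :=
    Nat.Coprime.pow_right k ((Nat.coprime_primes hℓ₂ hp).mpr (by omega))
  have cop3 : Nat.Coprime ℓ₁ (p ^ k * ℓ₂) :=
    Nat.Coprime.mul_right cop1 ((Nat.coprime_primes hℓ₁ hℓ₂).mpr (by omega))
  -- reductions
  have hred : ∀ x : Submodule.torsionBy ℤ (EQ W).Point ((p ^ k : ℕ) : ℤ),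
      ∃ x' : (Ek W A).Point, p ^ k • x' = 0 ∧
        IsRed A.valuation (IsLocalRing.residue A) (x : (EQ W).Point) x' := by
    intro x
    obtain ⟨x', hx'⟩ := exists_isRed_of_Δ_ne_zero (redEk W A) hpl hΔk (x : (EQ W).Point)
    refine ⟨x', ?_, hx'⟩
    have h1 := isRed_nsmul (redEk W A) hpl hx' (p ^ k)
    rw [Fermat.Agent.Tate.mem_torsionBy_nat.mp x.2] at h1
    exact isRed_zero_left_iff.mp h1
  choose r hr hrr using hred
  -- the algebra
  let M := Submodule.torsionBy ℤ (EQ W).Point ((p ^ k : ℕ) : ℤ)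
  let xS : M → AlgebraicClosure ℚ := fun x => xc ((x : (EQ W).Point) + S)
  let yS : M → AlgebraicClosure ℚ := fun x => yc ((x : (EQ W).Point) + S)
  let L : Subalgebra A (M → AlgebraicClosure ℚ) := Algebra.adjoin A {xS, yS}
  have hxL : xS ∈ L := Algebra.subset_adjoin (by simp)
  have hyL : yS ∈ L := Algebra.subset_adjoin (by simp)
  have ha₁ : (EQ W).a₁ ∈ A := by
    rw [EQ_a₁, ← A.valuation_le_one_iff]; exact val_intCast_le _ _
  have ha₂ : (EQ W).a₂ ∈ A := by
    rw [EQ_a₂, ← A.valuation_le_one_iff]; exact val_intCast_le _ _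
  have ha₃ : (EQ W).a₃ ∈ A := by
    rw [EQ_a₃, ← A.valuation_le_one_iff]; exact val_intCast_le _ _
  -- `x + S`
  have hredS : ∀ x : M, IsRed A.valuation (IsLocalRing.residue A) ((x : (EQ W).Point) + S)
      (r x + S') := fun x => (hrr x).add (redEk W A) hpl hSS
  have hneS : ∀ x : M, r x + S' ≠ 0 := fun x => by
    rw [add_comm]
    exact add_ne_zero_of_coprime cop1 hS' hS0 (hr x)
  have hint : ∀ x : M, (x : (EQ W).Point) + S ≠ 0 ∧ xS x ∈ A ∧ yS x ∈ A := fun x =>
    integral_of_isRed (hredS x) (hneS x)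
  have C0 : Coord L (fun x : M => (x : (EQ W).Point) + S) :=
    ⟨fun x => (hint x).1, hxL, hyL⟩
  -- `x + S - T`
  have hredT : IsRed A.valuation (IsLocalRing.residue A) (-T) (-T') := hTT.neg (redEk W A)
  have hT0' : -T' ≠ 0 := neg_ne_zero.mpr hT0
  obtain ⟨iT0, iTx, iTy⟩ := integral_of_isRed hredT hT0'
  have hN2 : ∀ {X Y : (Ek W A).Point}, p ^ k • X = 0 → ℓ₂ • Y = 0 → (p ^ k * ℓ₂) • (X + Y) = 0 := by
    intro X Y hX hY
    exact mul_nsmul_add_eq_zero hX hY
  have hT'' : ℓ₂ • (-T') = 0 := nsmul_neg_eq_zero hT'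
  have C1 : Coord L (fun x : M => (x : (EQ W).Point) + S + -T) := by
    refine C0.add_const ha₁ ha₂ ha₃ iT0 iTx iTy (fun x => ?_)
    refine val_xc_sub_eq_one (hredS x) hredT (hneS x) hT0' ?_ ?_
    · intro h
      have h2 := add_ne_zero_of_coprime cop3 hS' hS0 (hN2 (hr x) hT')
      apply h2
      rw [← add_assoc, add_comm S', h, neg_add_cancel]
    · intro h
      rw [neg_neg] at h
      have h2 := add_ne_zero_of_coprime cop3 hS' hS0 (hN2 (hr x) hT'')
      apply h2
      rw [← add_assoc, add_comm S', h, add_neg_cancel]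
  -- translation by `y`
  have C2 : ∀ y : M, Coord L (fun x : M => (((x + y : M) : (EQ W).Point) + S)) := by
    intro y
    have hredy : IsRed A.valuation (IsLocalRing.residue A) ((y : (EQ W).Point) + T)
        (r y + T') := (hrr y).add (redEk W A) hpl hTT
    have hney : r y + T' ≠ 0 := by
      rw [add_comm]
      exact add_ne_zero_of_coprime cop2 hT' hT0 (hr y)
    obtain ⟨iy0, iyx, iyy⟩ := integral_of_isRed hredy hney
    have hredx : ∀ x : M, IsRed A.valuation (IsLocalRing.residue A)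
        ((x : (EQ W).Point) + S + -T) (r x + S' + -T') := fun x =>
      (hredS x).add (redEk W A) hpl hredT
    have hnex : ∀ x : M, r x + S' + -T' ≠ 0 := by
      intro x h
      have h2 := add_ne_zero_of_coprime cop3 hS' hS0 (hN2 (hr x) hT'')
      apply h2
      rw [← add_assoc, add_comm S', h]
    have h1 : ∀ x : M, p ^ k • (r x - r y) = 0 := fun x => by
      rw [nsmul_sub, hr, hr, sub_zero]
    have h2 : ∀ x : M, p ^ k • (r x + r y) = 0 := fun x => by
      rw [nsmul_add, hr, hr, add_zero]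
    have C3 := C1.add_const ha₁ ha₂ ha₃ iy0 iyx iyy (fun x => ?_)
    · have h3 : (fun x : M => (((x + y : M) : (EQ W).Point) + S)) =
          (fun x : M => (x : (EQ W).Point) + S + -T + ((y : (EQ W).Point) + T)) := by
        funext x
        change ((x : (EQ W).Point) + (y : (EQ W).Point)) + S = _
        abel
      rw [h3]
      exact C3
    · refine val_xc_sub_eq_one (hredx x) hredy (hnex x) hney ?_ ?_
      · intro h
        have h4 : ℓ₂ • (-T' - T') = 0 := by rw [nsmul_sub, hT'', hT', sub_zero]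
        have h3 := add_ne_zero_of_coprime cop3 hS' hS0 (hN2 (h1 x) h4)
        apply h3
        have h5 : S' + (r x - r y + (-T' - T')) = (r x + S' + -T') - (r y + T') := by abel
        rw [h5, h, sub_self]
      · intro h
        have h4 : ℓ₂ • (-T' + T') = 0 := by rw [nsmul_add, hT'', hT', add_zero]
        have h3 := add_ne_zero_of_coprime cop3 hS' hS0 (hN2 (h2 x) h4)
        apply h3
        have h5 : S' + (r x + r y + (-T' + T')) = (r x + S' + -T') + (r y + T') := by abel
        rw [h5, h, neg_add_cancel]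
  -- translations preserve `L`
  have htrL : ∀ y : M, ∀ c ∈ L, (fun x : M => c (x + y)) ∈ L := by
    intro y c hc
    let τ : (M → AlgebraicClosure ℚ) →ₐ[A] (M → AlgebraicClosure ℚ) :=
      { toFun := fun c x => c (x + y)
        map_one' := rfl
        map_mul' := fun _ _ => rfl
        map_zero' := rfl
        map_add' := fun _ _ => rfl
        commutes' := fun _ => rfl }
    have h1 : L ≤ L.comap τ := by
      refine Algebra.adjoin_le ?_
      intro d hd
      rcases hd with rfl | hd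
      · exact (C2 y).x_mem
      · rw [Set.mem_singleton_iff] at hd
        subst hd
        exact (C2 y).y_mem
    exact h1 hc
  -- the generators
  have hspan : Subalgebra.toSubmodule L =
      Submodule.span A ((Submonoid.closure {xS, yS} : Submonoid (M → AlgebraicClosure ℚ)) :
        Set (M → AlgebraicClosure ℚ)) := Algebra.adjoin_eq_span A _
  have hfg : (Subalgebra.toSubmodule L).FG := by
    refine fg_adjoin_of_finite (Set.toFinite _) ?_
    rintro c (rfl | hc)
    · exact isIntegral_of_values _ (fun x => (hint x).2.1)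
    · rw [Set.mem_singleton_iff] at hc
      subst hc
      exact isIntegral_of_values _ (fun x => (hint x).2.2)
  rw [hspan, Submodule.fg_span_iff_fg_span_finset_subset] at hfg
  obtain ⟨F, hFsub, hFspan⟩ := hfg
  have hL : ∀ c, c ∈ Submodule.span A (F : Set (M → AlgebraicClosure ℚ)) ↔ c ∈ L := by
    intro c
    rw [← hFspan, ← hspan, Subalgebra.mem_toSubmodule]
  have hFL : ∀ c ∈ (F : Set (M → AlgebraicClosure ℚ)), c ∈ L := fun c hc =>
    (hL c).mp (Submodule.subset_span hc)
  have hequiv : ∀ c ∈ (Submonoid.closure {xS, yS} : Submonoid (M → AlgebraicClosure ℚ)),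
      ∀ σ ∈ A.inertiaSubgroupIn ℚ, ∀ x : M, c (torsAct (J := (EQ W).Point) _ σ x) = σ (c x) := by
    intro c hc σ hσ
    have hσS : ∀ x : M, ((torsAct (J := (EQ W).Point) _ σ x : M) : (EQ W).Point) + S =
        σ • ((x : (EQ W).Point) + S) := by
      intro x
      have h1 := smul_add σ (x : (EQ W).Point) S
      rw [hSσ σ hσ] at h1
      exact h1.symm
    induction hc using Submonoid.closure_induction with
    | mem c hc =>
      intro x
      rcases hc with rfl | hc
      · change xc (((torsAct (J := (EQ W).Point) _ σ x : M) : (EQ W).Point) + S) = _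
        rw [hσS, xc_smul]
      · rw [Set.mem_singleton_iff] at hc
        subst hc
        change yc (((torsAct (J := (EQ W).Point) _ σ x : M) : (EQ W).Point) + S) = _
        rw [hσS, yc_smul]
    | one => intro x; exact (map_one σ).symm
    | mul c d _ _ h1 h2 =>
      intro x
      rw [Pi.mul_apply, Pi.mul_apply, h1, h2, map_mul]
  refine isFlatModule_of_local_algebra hp hA (act := torsAct (J := (EQ W).Point) _) ?_ ?_
    (F : Set (M → AlgebraicClosure ℚ)) F.finite_toSet ?_ ?_ ?_ ?_ ?_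
  · refine ⟨fun x => ?_, fun σ τ x => ?_, fun x => ?_⟩
    · exact Subtype.ext (one_smul _ (x : (EQ W).Point))
    · exact Subtype.ext (mul_smul σ τ (x : (EQ W).Point))
    · obtain ⟨E, hE, h1⟩ := Fermat.Agent.Torsion.galoisRep_factors
        (W := W.map (Int.castRingHom ℚ)) (Fermat.Agent.Tate.map_Δ_ne_zero hΔ)
        (n := p ^ k) hN0
      refine ⟨E, hE, fun σ hσ => ?_⟩
      have h2 := h1 σ (fun y hy => hσ ⟨y, hy⟩)
      have h3 := LinearMap.congr_fun h2 x
      rw [WeierstrassCurve.Affine.Point.galoisRepModuleEnd_apply, Module.End.one_apply] at h3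
      exact h3
  · intro σ x y
    exact Subtype.ext (smul_add σ (x : (EQ W).Point) (y : (EQ W).Point))
  · intro c hc
    exact hequiv c (hFsub hc)
  · exact (hL 1).mpr L.one_mem
  · intro c hc d hd
    exact (hL _).mpr (L.mul_mem (hFL c hc) (hFL d hd))
  · intro x y hxy
    have h1 : ∀ c ∈ L, c x = c y := by
      intro c hc
      rw [← hL] at hc
      induction hc using Submodule.span_induction with
      | mem c hc => exact hxy c hc
      | zero => rfl
      | add c d _ _ h1 h2 => rw [Pi.add_apply, Pi.add_apply, h1, h2]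
      | smul a c _ h1 => rw [Pi.smul_apply, Pi.smul_apply, h1]
    have h2 := point_ext (hint x).1 (hint y).1 (h1 _ hxL) (h1 _ hyL)
    exact Subtype.ext (add_right_cancel h2)
  · intro y c hc
    exact (hL _).mpr (htrL y c (hFL c hc))

end Fermat.Agent.ECFlat
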