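import Fermat.Agent.EC.XFormulas
import Mathlib.RingTheory.Polynomial.Dickson

/-!
# The group of nonsingular points on a nodal cubic in characteristic `p` has no `p`-torsion

(`p` odd).  Uses the recursion `T_{n+1} + T_{n-1} = T_n T_1` for `T_n = b₂' / x(nP) + 2`, where the
node has been translated to `x = 0`.
-/

set_option autoImplicit false

open WeierstrassCurve WeierstrassCurve.Affine

namespace Fermat.Agent.ECRed

variable {F : Type*} [Field F] [DecidableEq F] {W : Affine F}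

omit [DecidableEq F] in
/-- The `x`-coordinate of the node. -/
lemma exists_node (h2 : (2 : F) ≠ 0) (hΔ : W.Δ = 0) (hc : W.c₄ ≠ 0) :
    ∃ e : F, W.b₄ + e * W.b₂ + 6 * e ^ 2 = 0 ∧
      W.b₆ + 2 * e * W.b₄ + e ^ 2 * W.b₂ + 4 * e ^ 3 = 0 ∧
      W.b₈ + 3 * e * W.b₆ + 3 * e ^ 2 * W.b₄ + e ^ 3 * W.b₂ + 3 * e ^ 4 = 0 ∧
      (W.b₂ + 12 * e) ^ 2 = W.c₄ := by
  refine ⟨(18 * W.b₆ - W.b₂ * W.b₄) / W.c₄, ?_⟩
  obtain ⟨e, he⟩ : ∃ e, e = (18 * W.b₆ - W.b₂ * W.b₄) / W.c₄ := ⟨_, rfl⟩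
  rw [← he]
  have he' : e * W.c₄ = 18 * W.b₆ - W.b₂ * W.b₄ := by rw [he, div_mul_cancel₀ _ hc]
  have hb := W.b_relation
  have hcd : W.c₄ = W.b₂ ^ 2 - 24 * W.b₄ := rfl
  have hΔ' : -W.b₂ ^ 2 * W.b₈ - 8 * W.b₄ ^ 3 - 27 * W.b₆ ^ 2 + 9 * W.b₂ * W.b₄ * W.b₆ = 0 := hΔ
  have h4 : (4 : F) ≠ 0 := by
    have : (4 : F) = 2 * 2 := by norm_num
    rw [this]; exact mul_ne_zero h2 h2
  have i4 : W.b₄ + e * W.b₂ + 6 * e ^ 2 = 0 := by
    have : W.c₄ ^ 2 * (W.b₄ + e * W.b₂ + 6 * e ^ 2) = 0 := by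
      linear_combination (W.b₂ * W.c₄ + 6 * (e * W.c₄ + 18 * W.b₆ - W.b₂ * W.b₄)) * he' +
        (W.b₄ * (W.c₄ + (W.b₂ ^ 2 - 24 * W.b₄)) + (18 * W.b₆ - W.b₂ * W.b₄) * W.b₂) * hcd -
        72 * hΔ' - 18 * W.b₂ ^ 2 * hb
    exact (mul_eq_zero.mp this).resolve_left (pow_ne_zero 2 hc)
  have i6 : W.b₆ + 2 * e * W.b₄ + e ^ 2 * W.b₂ + 4 * e ^ 3 = 0 := by
    have h1 : W.c₄ ^ 3 * (W.b₆ + 2 * e * W.b₄ + e ^ 2 * W.b₂ + 4 * e ^ 3) =
        W.b₆ * W.c₄ ^ 3 + 2 * (e * W.c₄) * W.b₄ * W.c₄ ^ 2 + (e * W.c₄) ^ 2 * W.b₂ * W.c₄ +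
          4 * (e * W.c₄) ^ 3 := by ring
    have : W.c₄ ^ 3 * (W.b₆ + 2 * e * W.b₄ + e ^ 2 * W.b₂ + 4 * e ^ 3) = 0 := by
      rw [h1, he', hcd]
      linear_combination (-4 * W.b₂ ^ 3 + 144 * W.b₂ * W.b₄ - 864 * W.b₆) * hΔ' +
        W.b₂ ^ 2 * (-W.b₂ ^ 3 + 36 * W.b₂ * W.b₄ - 216 * W.b₆) * hb
    exact (mul_eq_zero.mp this).resolve_left (pow_ne_zero 3 hc)
  have i8 : W.b₈ + 3 * e * W.b₆ + 3 * e ^ 2 * W.b₄ + e ^ 3 * W.b₂ + 3 * e ^ 4 = 0 := by
    have : 4 * (W.b₈ + 3 * e * W.b₆ + 3 * e ^ 2 * W.b₄ + e ^ 3 * W.b₂ + 3 * e ^ 4) = 0 := by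
      linear_combination (W.b₂ + 12 * e) * i6 - (W.b₄ + e * W.b₂ + 6 * e ^ 2) * i4 + hb
    exact (mul_eq_zero.mp this).resolve_left h4
  exact ⟨i4, i6, i8, by linear_combination 24 * i4 - hcd⟩

/-- **No `p`-torsion on a nodal cubic in odd characteristic `p`.** -/
theorem nodal_no_torsion {p : ℕ} [hp : Fact p.Prime] [CharP F p] (hp2 : p ≠ 2) (hΔ : W.Δ = 0)
    (hc : W.c₄ ≠ 0) {P : W.Point} (hP : p • P = 0) : P = 0 := by
  by_contra hP0
  have h2 : (2 : F) ≠ 0 := by
    intro h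
    have h' : ((2 : ℕ) : F) = 0 := by exact_mod_cast h
    rw [CharP.cast_eq_zero_iff F p] at h'
    exact hp2 ((Nat.prime_dvd_prime_iff_eq hp.out Nat.prime_two).mp h')
  obtain ⟨e, i4, i6, i8, ic⟩ := exists_node h2 hΔ hc
  have hp1 := hp.out.two_le
  have hp3 : 3 ≤ p := by omega
  set D := W.b₂ + 12 * e with hD
  have hD0 : D ≠ 0 := by
    intro h0
    rw [h0] at ic
    exact hc (by rw [← ic]; ring)
  -- multiples of `P`
  have hord : addOrderOf P = p := addOrderOf_eq_prime hP hP0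
  have hmul : ∀ k : ℕ, 1 ≤ k → k < p → k • P ≠ 0 := by
    intro k hk hk' h0
    have h1 : addOrderOf P ∣ k := addOrderOf_dvd_of_nsmul_eq_zero h0
    rw [hord] at h1
    exact absurd (Nat.le_of_dvd (by omega) h1) (by omega)
  -- translated `x`-coordinates are nonzero
  have hX : ∀ k : ℕ, 1 ≤ k → k < p → xc (k • P) - e ≠ 0 := by
    intro k hk hk' h0
    have h1 : k • P + k • P ≠ 0 := by
      intro h1
      rw [← add_nsmul] at h1
      have h3 : addOrderOf P ∣ (k + k) := addOrderOf_dvd_of_nsmul_eq_zero h1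
      rw [hord, ← two_mul] at h3
      rcases (Nat.Prime.dvd_mul hp.out).mp h3 with h4 | h4
      · exact hp2 ((Nat.prime_dvd_prime_iff_eq hp.out Nat.prime_two).mp h4)
      · exact absurd (Nat.le_of_dvd (by omega) h4) (by omega)
    apply psi_ne_zero (hmul k hk hk') h1
    have h5 : xc (k • P) = e := sub_eq_zero.mp h0
    rw [h5]
    linear_combination i6
  -- the recursion
  set ω : ℕ → F := fun k => (xc (k • P) - e)⁻¹ with hω
  have hωne : ∀ k : ℕ, 1 ≤ k → k < p → ω k ≠ 0 := fun k h1 h2 => inv_ne_zero (hX k h1 h2)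
  have hrec : ∀ k : ℕ, 1 ≤ k → k + 2 < p →
      ω (k + 2) + ω k = D * ω (k + 1) * ω 1 + 2 * ω (k + 1) + 2 * ω 1 := by
    intro k hk hk'
    have n1 := hmul (k + 1) (by omega) (by omega)
    have n2 := hmul (k + 2) (by omega) (by omega)
    have n0 := hmul k (by omega) (by omega)
    have nP := hmul 1 le_rfl (by omega)
    have e1 : (k + 1) • P + 1 • P = (k + 2) • P := by rw [← add_nsmul]
    have e2 : (k + 1) • P - 1 • P = k • P := by rw [add_nsmul, add_sub_cancel_right]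
    have hxne : xc ((k + 1) • P) ≠ xc (1 • P) := by
      intro hx
      rcases eq_or_eq_neg_of_xc_eq n1 nP hx with h' | h'
      · apply n0
        rw [← e2, h', sub_self]
      · apply n2
        rw [← e1, h', neg_add_cancel]
    have hs := shift_sum e n1 nP hxne
    have ht := shift_prod e n1 nP hxne
    rw [e1, e2, i4, i6] at hs
    rw [e1, e2, i4, i6, i8] at ht
    rw [← hD] at hs
    have f1 := hX (k + 1) (by omega) (by omega)
    have f2 := hX (k + 2) (by omega) (by omega)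
    have f0 := hX k (by omega) (by omega)
    have fP := hX 1 le_rfl (by omega)
    have hxz : xc ((k + 1) • P) - xc (1 • P) ≠ 0 := sub_ne_zero.mpr hxne
    simp only [hω]
    set s := xc ((k + 2) • P) - e
    set t := xc (k • P) - e
    set x := xc ((k + 1) • P) - e with hx
    set z := xc (1 • P) - e with hz
    have hd : xc ((k + 1) • P) - xc (1 • P) = x - z := by rw [hx, hz]; ring
    rw [hd] at hs ht hxz
    have key : (s + t) * (x ^ 2 * z ^ 2) = s * t * ((x + z) * (2 * x * z) + D * x * z) := by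
      have ht' : s * t * (x - z) ^ 2 = x ^ 2 * z ^ 2 := by linear_combination ht
      have hs' : (s + t) * (x - z) ^ 2 = (x + z) * (2 * x * z) + D * x * z := by
        linear_combination hs
      rw [← hs', ← ht']; ring
    field_simp
    apply mul_left_cancel₀ (mul_ne_zero f1 fP)
    linear_combination key
  have hrec1 : 2 < p → ω 2 = D * ω 1 ^ 2 + 4 * ω 1 := by
    intro h2p
    have n2 := hmul 2 (by omega) (by omega)
    have nP := hmul 1 le_rfl (by omega)
    have e1 : 1 • P + 1 • P = 2 • P := by rw [← add_nsmul]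
    have hd := shift_double e (P := 1 • P) (by rw [e1]; exact n2)
    rw [e1, i4, i6, i8, ← hD] at hd
    have f2 := hX 2 (by omega) (by omega)
    have fP := hX 1 le_rfl (by omega)
    simp only [hω]
    set s := xc (2 • P) - e
    set x := xc (1 • P) - e with hx
    field_simp
    apply mul_left_cancel₀ (pow_ne_zero 2 fP)
    linear_combination -hd
  -- Dickson polynomials
  set τ : F := D * ω 1 + 2 with hτ
  have hdick : ∀ k : ℕ, k + 1 < p → (k = 0 ∨ (Polynomial.dickson 1 (1 : F) k).eval τ =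
      D * ω k + 2) ∧ (Polynomial.dickson 1 (1 : F) (k + 1)).eval τ = D * ω (k + 1) + 2 := by
    intro k
    induction k with
    | zero => intro _; simp [hτ]
    | succ k ih =>
      intro hk
      obtain ⟨ih1, ih2⟩ := ih (by omega)
      refine ⟨Or.inr ih2, ?_⟩
      rw [Polynomial.dickson_add_two, Polynomial.eval_sub, Polynomial.eval_mul, Polynomial.eval_X,
        Polynomial.eval_mul, Polynomial.eval_C, one_mul, ih2]
      rcases Nat.eq_zero_or_pos k with rfl | hk0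
      · have h1 := hrec1 (by omega)
        have h0 : (Polynomial.dickson 1 (1 : F) 0).eval τ = 2 := by
          rw [Polynomial.dickson_zero]; norm_num
        rw [h0, hτ]
        simp only [zero_add, Nat.reduceAdd]
        rw [h1]
        ring
      · have h1 := hrec k hk0 (by omega)
        rw [ih1.resolve_left (by omega), hτ]
        linear_combination -D * h1
  -- the value at `p`
  have hsymm : ∀ k : ℕ, k ≤ p → ω (p - k) = ω k := by
    intro k hk
    simp only [hω]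
    have : (p - k) • P = - (k • P) := by
      rw [eq_neg_iff_add_eq_zero, ← add_nsmul, Nat.sub_add_cancel hk, hP]
    rw [this, xc_neg]
  have hval : (Polynomial.dickson 1 (1 : F) p).eval τ = 2 := by
    obtain ⟨m, rfl⟩ : ∃ m, p = m + 2 := ⟨p - 2, by omega⟩
    obtain ⟨h1, h2'⟩ := hdick m (by omega)
    rw [Polynomial.dickson_add_two, Polynomial.eval_sub, Polynomial.eval_mul, Polynomial.eval_X,
        Polynomial.eval_mul, Polynomial.eval_C, one_mul, h2', h1.resolve_left (by omega)]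
    have s1 := hsymm 1 (by omega)
    have s2 := hsymm 2 (by omega)
    have s1' : m + 2 - 1 = m + 1 := by omega
    have s2' : m + 2 - 2 = m := by omega
    rw [s1'] at s1
    rw [s2'] at s2
    rw [s1, s2, hrec1 (by omega), hτ]
    ring
  rw [Polynomial.dickson_one_one_charP F p, Polynomial.eval_pow, Polynomial.eval_X] at hval
  have hfrob : (τ - 2) ^ p = 0 := by
    rw [sub_pow_char, hval]
    have : (2 : F) ^ p = 2 := by
      have h3 := congrArg (ZMod.castHom (dvd_refl p) F) (ZMod.pow_card (2 : ZMod p))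
      rw [map_pow, map_ofNat] at h3
      exact h3
    rw [this, sub_self]
  have hτ2 : τ - 2 = 0 := pow_eq_zero_iff (hp.out.ne_zero) |>.mp hfrob
  rw [hτ, add_sub_cancel_right] at hτ2
  exact (mul_ne_zero hD0 (hωne 1 le_rfl (by omega))) hτ2

end Fermat.Agent.ECRed
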