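import Fermat.Agent.EC.RedFrob
import Fermat.Agent.ECFrob.Frob
import Fermat.Prelude.Def_FLTPrelim_Modularity

/-!
# Reduction mod `ℓ` of torsion for a curve over `ℤ`, and the Frobenius

Main result: `exists_redTorsionMod`: for `W : WeierstrassCurve ℤ` with good reduction at `ℓ`, a
place `A` over `ℓ`, and `n` prime to `ℓ`, a `ZMod n`-linear equivalence
`e : E[n](ℚ̄) ≃ Ē[n](k)` such that `e (σ • P) = frob (e P)` for every Frobenius `σ` at `A`
and `e (τ • P) = e P` for `τ` in the inertia group.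
-/

set_option autoImplicit false

open WeierstrassCurve WeierstrassCurve.Affine

namespace Fermat.Agent.ECRed

lemma charP_of_prime_natCast {R : Type*} [CommRing R] [Nontrivial R] {p : ℕ}
    (hp : p.Prime) (h : (p : R) = 0) : CharP R p := by
  obtain ⟨q, hq⟩ := CharP.exists R
  have hdvd : q ∣ p := (CharP.cast_eq_zero_iff R q p).mp h
  rcases (Nat.dvd_prime hp).mp hdvd with rfl | rfl
  · exact absurd rfl (CharP.char_ne_one R 1)
  · exact hq

section

variable (W : WeierstrassCurve ℤ) {A : ValuationSubring (AlgebraicClosure ℚ)} {ℓ : ℕ}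

lemma valuation_lt_one_of_liesOver (hA : A.LiesOverPrime ℓ) :
    A.valuation ((ℓ : ℕ) : AlgebraicClosure ℚ) < 1 := A.mem_nonunits_iff.mp hA

lemma charP_residueField_of_liesOver (hℓ : ℓ.Prime) (hA : A.LiesOverPrime ℓ) :
    CharP (IsLocalRing.ResidueField A) ℓ := by
  have h0 : ((ℓ : ℕ) : IsLocalRing.ResidueField A) = 0 :=
    ((isPlace_valuationSubring A).lt_one_iff
      (redTo_natCast (K := AlgebraicClosure ℚ) (IsLocalRing.residue A) ℓ)).mp
      (valuation_lt_one_of_liesOver hA)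
  exact charP_of_prime_natCast hℓ h0

variable [Fact ℓ.Prime] [Algebra (ZMod ℓ) (IsLocalRing.ResidueField A)]

lemma redCurve_reductionMod :
    RedCurve (IsLocalRing.residue A) ((W.map (Int.castRingHom ℚ))⁄(AlgebraicClosure ℚ))
      ((W.reductionMod ℓ)⁄(IsLocalRing.ResidueField A)) := by
  refine ⟨?_, ?_, ?_, ?_, ?_⟩ <;>
  · simp only [WeierstrassCurve.baseChange, WeierstrassCurve.map, WeierstrassCurve.reductionMod,
      eq_intCast, map_intCast]
    exact redTo_intCast _ _

variable {W}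

lemma reductionMod_Δ_ne_zero' (hW : W.IsGoodPrimeFor ℓ) :
    ((W.reductionMod ℓ)⁄(IsLocalRing.ResidueField A)).Δ ≠ 0 := by
  have h1 : ((W.reductionMod ℓ)⁄(IsLocalRing.ResidueField A)).Δ =
      algebraMap (ZMod ℓ) _ (W.reductionMod ℓ).Δ := WeierstrassCurve.map_Δ _ _
  have h2 : (W.reductionMod ℓ).Δ = ((W.Δ : ℤ) : ZMod ℓ) := WeierstrassCurve.map_Δ _ _
  rw [h1, h2]
  intro h
  rw [map_eq_zero, ZMod.intCast_zmod_eq_zero_iff_dvd] at h
  exact hW h

/-- Reduction commutes with Frobenius. -/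
theorem redGood_smul_frobenius (hW : W.IsGoodPrimeFor ℓ)
    {σ : AlgebraicClosure ℚ ≃ₐ[ℚ] AlgebraicClosure ℚ} (hσ : A.IsFrobeniusAt σ ℓ)
    [DecidableEq (IsLocalRing.ResidueField A)]
    (P : ((W.map (Int.castRingHom ℚ))⁄(AlgebraicClosure ℚ)).Point) :
    redGood (redCurve_reductionMod W (A := A) (ℓ := ℓ)) (isPlace_valuationSubring A)
        (reductionMod_Δ_ne_zero' hW) (σ • P) =
      Fermat.Agent.ECFrob.frob (W.reductionMod ℓ) (IsLocalRing.ResidueField A)
        (redGood (redCurve_reductionMod W (A := A) (ℓ := ℓ)) (isPlace_valuationSubring A)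
          (reductionMod_Δ_ne_zero' hW) P) := by
  rw [redGood_eq_iff]
  refine (isRed_redGood (redCurve_reductionMod W (A := A) (ℓ := ℓ))
    (isPlace_valuationSubring A) (reductionMod_Δ_ne_zero' hW) P).smul_of_isFrobeniusAt hσ ?_ ?_
  · intro h
    rw [h, map_zero]
  · intro h
    obtain ⟨h1, h2⟩ := exists_eq_some h
    rw [h2, Fermat.Agent.ECFrob.frob_some]
    refine ⟨Point.some_ne_zero _, ?_, ?_⟩
    · simp only [xc_some, Fermat.Agent.ECFrob.frobeniusAlgHom_apply, ZMod.card]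
    · simp only [yc_some, Fermat.Agent.ECFrob.frobeniusAlgHom_apply, ZMod.card]

/-- Reduction is invariant under inertia. -/
theorem redGood_smul_inertia (hW : W.IsGoodPrimeFor ℓ)
    {σ : AlgebraicClosure ℚ ≃ₐ[ℚ] AlgebraicClosure ℚ} (hσ : σ ∈ A.inertiaSubgroupIn ℚ)
    [DecidableEq (IsLocalRing.ResidueField A)]
    (P : ((W.map (Int.castRingHom ℚ))⁄(AlgebraicClosure ℚ)).Point) :
    redGood (redCurve_reductionMod W (A := A) (ℓ := ℓ)) (isPlace_valuationSubring A)
        (reductionMod_Δ_ne_zero' hW) (σ • P) =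
      redGood (redCurve_reductionMod W (A := A) (ℓ := ℓ)) (isPlace_valuationSubring A)
        (reductionMod_Δ_ne_zero' hW) P := by
  rw [redGood_eq_iff]
  exact (isRed_redGood (redCurve_reductionMod W (A := A) (ℓ := ℓ))
    (isPlace_valuationSubring A) (reductionMod_Δ_ne_zero' hW) P).smul_inertia hσ

open Fermat.Agent.Torsion in
/-- The Frobenius on the `n`-torsion of the reduction, as a `ZMod n`-linear map. -/
noncomputable def frobTorsion (V : Affine (ZMod ℓ)) (L : Type*) [Field L] [DecidableEq L]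
    [Algebra (ZMod ℓ) L] (n : ℕ) :
    Submodule.torsionBy ℤ (V⁄L).Point n →ₗ[ZMod n] Submodule.torsionBy ℤ (V⁄L).Point n :=
  AddMonoidHom.toZModLinearMap n
    { toFun := fun P => ⟨Fermat.Agent.ECFrob.frob V L P, by
        have h := (mem_torsionBy_nat_iff n _).mp P.2
        rw [mem_torsionBy_nat_iff, ← map_nsmul, h, map_zero]⟩
      map_zero' := Subtype.ext (map_zero _)
      map_add' := fun P Q => Subtype.ext (map_add _ _ _) }

omit [Algebra (ZMod ℓ) (IsLocalRing.ResidueField A)] in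
lemma frobTorsion_apply (V : Affine (ZMod ℓ)) (L : Type*) [Field L] [DecidableEq L]
    [Algebra (ZMod ℓ) L] (n : ℕ) (P : Submodule.torsionBy ℤ (V⁄L).Point n) :
    (frobTorsion V L n P : (V⁄L).Point) = Fermat.Agent.ECFrob.frob V L P := rfl

/-- Main statement, packaged. -/
theorem exists_redTorsionMod (hW : W.IsGoodPrimeFor ℓ) (hA : A.LiesOverPrime ℓ)
    [DecidableEq (IsLocalRing.ResidueField A)] {n : ℕ} (hn : ¬ ℓ ∣ n) :
    ∃ e : Submodule.torsionBy ℤ ((W.map (Int.castRingHom ℚ))⁄(AlgebraicClosure ℚ)).Point n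
        ≃ₗ[ZMod n]
        Submodule.torsionBy ℤ ((W.reductionMod ℓ)⁄(IsLocalRing.ResidueField A)).Point n,
      (∀ σ : AlgebraicClosure ℚ ≃ₐ[ℚ] AlgebraicClosure ℚ, A.IsFrobeniusAt σ ℓ → ∀ P,
        e (σ • P) = frobTorsion (W.reductionMod ℓ) (IsLocalRing.ResidueField A) n (e P)) ∧
      (∀ σ ∈ A.inertiaSubgroupIn ℚ, ∀ P, e (σ • P) = e P) := by
  have hchar := charP_residueField_of_liesOver (Fact.out : ℓ.Prime) hA
  have hn' : (n : IsLocalRing.ResidueField A) ≠ 0 := by
    rw [Ne, CharP.cast_eq_zero_iff (IsLocalRing.ResidueField A) ℓ n]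
    exact hn
  let e0 := redTorsion (redCurve_reductionMod W (A := A) (ℓ := ℓ)) (isPlace_valuationSubring A)
    (reductionMod_Δ_ne_zero' hW) hn'
  let e : Submodule.torsionBy ℤ ((W.map (Int.castRingHom ℚ))⁄(AlgebraicClosure ℚ)).Point n
        ≃ₗ[ZMod n]
        Submodule.torsionBy ℤ ((W.reductionMod ℓ)⁄(IsLocalRing.ResidueField A)).Point n :=
    LinearEquiv.ofBijective (AddMonoidHom.toZModLinearMap n e0.toAddEquiv.toAddMonoidHom)
      e0.bijective
  refine ⟨e, ?_, ?_⟩
  · intro σ hσ P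
    apply Subtype.ext
    exact redGood_smul_frobenius hW hσ (P : ((W.map (Int.castRingHom ℚ))⁄(AlgebraicClosure ℚ)).Point)
  · intro σ hσ P
    apply Subtype.ext
    exact redGood_smul_inertia hW hσ (P : ((W.map (Int.castRingHom ℚ))⁄(AlgebraicClosure ℚ)).Point)

end

end Fermat.Agent.ECRed
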