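import Fermat.Agent.EC.MultDir
import Fermat.Agent.ECVal.InertiaFix
import Fermat.Agent.LocE.TorsProd
import Fermat.Agent.EC.NodalTorsion
import Fermat.Agent.EC.TateSub
import Fermat.Agent.EC.RedFrobMod

/-!
# Multiplicative reduction: inertia on the component group, torsion outside `E₀`
-/

set_option autoImplicit false

open WeierstrassCurve WeierstrassCurve.Affine FermatAgent.ECVal
open scoped WeierstrassCurve.Affine

namespace Fermat.Agent.ECRed

variable {W : WeierstrassCurve ℤ} {A : ValuationSubring (AlgebraicClosure ℚ)} {q : ℕ}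

lemma psi_smul {σ : AlgebraicClosure ℚ ≃ₐ[ℚ] AlgebraicClosure ℚ} (P : (EQ W).Point) :
    psi (σ • P) = σ (psi P) := by
  unfold psi
  rw [xc_smul, yc_smul, EQ_a₁, EQ_a₃]
  simp only [map_add, map_mul, map_ofNat, map_intCast]

/-- **Inertia acts trivially on `E / E₀`** (odd residue characteristic). -/
theorem inertia_smul_sub_mem_E0 [DecidableEq (IsLocalRing.ResidueField A)]
    (hW : IsMultAt W q) (hq2 : q ≠ 2) (hA : A.LiesOverPrime q)
    {σ : AlgebraicClosure ℚ ≃ₐ[ℚ] AlgebraicClosure ℚ} (hσ : σ ∈ A.inertiaSubgroupIn ℚ)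
    (P : (EQ W).Point) : σ • P - P ∈ E0 (redEk W A) (isPlace_valuationSubring A) := by
  have hσD := mem_decomposition_of_mem_inertia hσ
  obtain ⟨e, D, NR⟩ := hW.exists_nodeRoot hA
  have N := NR.nodeData hW.prime hA hW.ne
  have hdich := smul_sub_or_add_mem_E0 hW hA hσD P
  rcases hdich with h1 | h1
  · exact h1
  rw [mem_E0_iff_pcomp hW.prime hA hW.ne NR] at h1 ⊢
  set w := valOf hW.prime hA with hw
  set h := w.val D with hh
  have hpc := pcomp_smul hW.prime hA hW.ne NR hσD P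
  rw [← hw, ← hh] at hpc
  -- component value of `P`
  by_cases hc0 : pcomp w e h P = 0
  · have h2 : pcomp w e h (-P) = 0 := by rw [pcomp_neg]; exact hc0
    rw [sub_eq_add_neg, pcomp_add_of_eq_zero N (hpc.trans hc0), h2]
  have hc0' : 0 < pcomp w e h P := lt_of_le_of_ne (pcomp_nonneg N P) (Ne.symm hc0)
  by_cases hch : pcomp w e h P = h
  · have h2 : pcomp w e h (-(2 • P)) = 0 := by
      rw [pcomp_neg]
      have h3 := pcomp_nsmul N P 2
      rw [hch] at h3
      refine rel_eq N.hh (pcomp_nonneg N _) (pcomp_le N _) le_rfl N.hh.le (h3.trans ⟨1, Or.inl ?_⟩)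
      push_cast; ring
    have h4 : σ • P - P = -(2 • P) + (σ • P + P) := by rw [two_smul]; abel
    rw [h4, pcomp_add_of_eq_zero N h2, h1]
  have hch' : pcomp w e h P < h := lt_of_le_of_ne (pcomp_le N P) hch
  set c := pcomp w e h P with hc
  have hP : P ≠ 0 := by
    rintro rfl
    rw [pcomp_zero] at hc
    exact hc0 hc
  have hσP : σ • P ≠ 0 := (smul_ne_zero_iff' σ P).mpr hP
  have hX : ∀ {R : (EQ W).Point}, R ≠ 0 → pcomp w e h R = c → w.Is c (xc R - e) := by
    intro R hR hRc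
    obtain ⟨hR', eR⟩ := exists_eq_some hR
    rw [eR, pcomp_some] at hRc
    rcases QVal.comp_cases (w := w) (h := h) (xc R - e) with ⟨r, hr, h1⟩ | ⟨r, hr, hrh, h1⟩ | h1
    · rw [QVal.comp_of_is_nonpos h1 hr] at hRc
      exact absurd hRc hc0'.ne
    · rw [QVal.comp_of_is h1 hr.le hrh.le] at hRc
      rwa [hRc] at h1
    · rw [QVal.comp_of_ge N.hh h1] at hRc
      exact absurd hRc hch'.ne'
  have hXP := hX hP rfl
  have hXQ := hX hσP hpc
  have hψ := psi_is N hP hc0' hch' hXP
  refine pcomp_sub_eq_zero_of_dir N ?_ hc0' hch' hσP hP hXQ hXP ?_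
  · exact_mod_cast valOf_natCast_of_not_dvd hW.prime hA (not_dvd_two hW.prime hq2)
  · -- the directions agree
    have hδ : w.Is 0 (psi P / (xc P - e)) := by
      rw [div_eq_mul_inv]
      exact (hψ.mul hXP.inv).congr (by ring)
    have hX0 : xc P - e ≠ 0 := hXP.1
    have h3 : w.Gt 0 (σ (psi P / (xc P - e)) - psi P / (xc P - e)) := by
      have := valOf_inertia hW.prime hA hσ (m := 0) (x := psi P / (xc P - e))
        (hδ.ge.mono (by norm_num))
      exact this.mono (by norm_num)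
    have h4 : w.Ge h (e - σ e) := by
      have h5 : w.Ge h (σ e - e) :=
        (qVal_ge_iff A.valuation hW.prime (lt_one_of_liesOver hA) N.hD.1).mpr
          (NR.sub_le two_ne_zero (NR.smul hσD))
      rw [← neg_sub]
      exact h5.neg
    set δ := psi P / (xc P - e) with hδdef
    have h5 : psi P = δ * (xc P - e) := by rw [hδdef, div_mul_cancel₀ _ hX0]
    have h6 : psi (σ • P) = σ δ * ((xc (σ • P) - e) + (e - σ e)) := by
      rw [psi_smul, h5, map_mul, map_sub, xc_smul]
      ring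
    have h7 : (xc (σ • P) - e) * psi P - (xc P - e) * psi (σ • P) =
        -((σ δ - δ) * ((xc (σ • P) - e) * (xc P - e))) -
          ((σ δ - δ) + δ) * (e - σ e) * (xc P - e) := by
      rw [h6, h5]; ring
    rw [h7]
    refine QVal.Gt.sub (QVal.Gt.neg ?_) ?_
    · exact (h3.mul_ge (hXQ.ge.mul hXP.ge)).mono (by linarith)
    · have h8 : w.Ge 0 ((σ δ - δ) + δ) := h3.ge.add hδ.ge
      exact ((h8.mul h4).mul hXP.ge).gt (by linarith)

/-! ### Torsion points outside `E₀` -/

/-- At a place of multiplicative reduction above `p`, not all the `p`-torsion is in `E₀`. -/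
theorem exists_torsion_notMem_E0 [DecidableEq (IsLocalRing.ResidueField A)] {p : ℕ}
    [hp : Fact p.Prime] (hW : IsMultAt W p) (hp2 : p ≠ 2) (hA : A.LiesOverPrime p) :
    ∃ P : (EQ W).Point, p • P = 0 ∧ P ∉ E0 (redEk W A) (isPlace_valuationSubring A) := by
  classical
  by_contra hcon
  push Not at hcon
  have hpl := isPlace_valuationSubring A
  have := charP_residueField_of_liesOver hp.out hA
  have hv := lt_one_of_liesOver hA
  set v := A.valuation with hvdef
  obtain ⟨e, D, NR⟩ := hW.exists_nodeRoot hA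
  have hΔ : (EQ W).Δ ≠ 0 := by
    rw [EQ_Δ, Int.cast_ne_zero]; exact hW.ne
  have hpK : ((p : ℕ) : AlgebraicClosure ℚ) ≠ 0 := by exact_mod_cast hp.out.ne_zero
  have hvp0 : v ((p : ℕ) : AlgebraicClosure ℚ) ≠ 0 := (Valuation.ne_zero_iff v).mpr hpK
  have hodd : Odd p := hp.out.odd_of_ne_two hp2
  obtain ⟨m, hm⟩ := hodd
  have hm1 : 1 ≤ m := by have := hp.out.two_le; omega
  -- the reduced curve is nodal
  have hΔk : (Ek W A).Δ = 0 := by
    have h1 := (redEk W A).Δ
    rw [EQ_Δ] at h1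
    refine (hpl.lt_one_iff h1).mp ?_
    obtain ⟨c, hc⟩ := hW.dvd
    rw [hc, Int.cast_mul, Int.cast_natCast, map_mul, mul_comm]
    exact mul_lt_one_of_le_of_lt₀ (val_intCast_le _ _) hv
  have hck : (Ek W A).c₄ ≠ 0 := by
    have h1 : RedTo (IsLocalRing.residue A) (EQ W).c₄ (Ek W A).c₄ :=
      ((redEk W A).b₂.pow 2).sub ((redTo_ofNat _ 24).mul (redEk W A).b₄)
    refine (hpl.eq_one_iff h1).mp ?_
    rw [EQ_c₄]
    exact val_intCast_eq_one _ hp.out hv hW.ndvd
  -- all torsion points are in the kernel of reduction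
  have hlarge : ∀ P : (EQ W).Point, p • P = 0 → P ≠ 0 → 1 < v (xc P) := by
    intro P hP hP0
    obtain ⟨Q, hQ⟩ := hcon P hP
    have h1 := isRed_nsmul (redEk W A) hpl hQ p
    rw [hP] at h1
    have h2 : p • Q = 0 := isRed_zero_left_iff.mp h1
    have h3 : Q = 0 := nodal_no_torsion hp2 hΔk hck h2
    rw [h3] at hQ
    exact (isRed_zero_right_iff.mp hQ).resolve_left hP0
  have hlarge' : ∀ P ∈ LocE.tors (W := EQ W) hΔ hpK, 1 < v (e - Fermat.Agent.Torsion.xOf P) := by
    intro P hP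
    rw [LocE.mem_tors] at hP
    have h1 := hlarge P hP.1 hP.2
    have h2 : Fermat.Agent.Torsion.xOf P = xc P := by
      rcases P with _ | ⟨x, y, h⟩
      · exact absurd rfl hP.2
      · rfl
    rw [h2, Valuation.map_sub_swap, Valuation.map_sub_eq_of_lt_left _ (lt_of_le_of_lt NR.ve h1)]
    exact h1
  have hprod := LocE.prod_torsion (W := EQ W) hΔ hpK ⟨m, hm⟩ e
  have hbig : 1 < v (∏ P ∈ LocE.tors (W := EQ W) hΔ hpK, (e - Fermat.Agent.Torsion.xOf P)) := by
    have hcard := LocE.card_tors (W := EQ W) hΔ hpK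
    have hne : (LocE.tors (W := EQ W) hΔ hpK).Nonempty := by
      rw [← Finset.card_pos, hcard]
      have := hp.out.two_le
      have h4 : 2 * 2 ≤ p ^ 2 := by rw [sq]; exact Nat.mul_le_mul this this
      omega
    obtain ⟨P₀, hP₀⟩ := hne
    rw [← Finset.mul_prod_erase _ _ hP₀, map_mul, map_prod]
    refine lt_of_lt_of_le (hlarge' P₀ hP₀) (le_mul_of_one_le_right' ?_)
    exact Finset.one_le_prod' fun P hP => (hlarge' P (Finset.mem_of_mem_erase hP)).le
  have e2 : (EQ W).Ψ₂Sq.eval e = 0 := by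
    rw [Fermat.Agent.Torsion.eval_Ψ₂Sq]
    linear_combination NR.h6
  have e3 : (EQ W).Ψ₃.eval e = -D ^ 2 := by
    rw [Fermat.Agent.Torsion.eval_Ψ₃]
    linear_combination NR.h8
  obtain ⟨ε, hε, hev⟩ := LocE.eval_preΨ'_odd (EQ W) e2 e3 m
  rw [← hm] at hev
  rw [hev, mul_pow, hε, one_mul] at hprod
  have h5 : v (((p : ℕ) : AlgebraicClosure ℚ) ^ 2) < v ((D ^ (m * (m + 1))) ^ 2) := by
    rw [hprod, map_mul]
    exact lt_mul_of_one_lt_right (zero_lt_iff.mpr (by rw [map_pow]; exact pow_ne_zero 2 hvp0)) hbig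
  -- but `|D|² ≤ |p|`
  have h6 : v (D ^ 2) ≤ v ((p : ℕ) : AlgebraicClosure ℚ) := by
    have h7 := congrArg v NR.hΔ
    have h8 : v (((EQ W).b₂ + 12 * e) ^ 2 - 64 * D) = 1 := by
      have h64 : v (64 * D) < 1 := by
        rw [map_mul]
        have := natCast_val_le v 64
        push_cast at this
        exact mul_lt_one_of_le_of_lt₀ this NR.vD
      have hB : v (((EQ W).b₂ + 12 * e) ^ 2) = 1 := by rw [map_pow, NR.vB, one_pow]
      rw [sub_eq_add_neg, Valuation.map_add_eq_of_lt_left _ (by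
        rw [hB, Valuation.map_neg]; exact h64), hB]
    rw [map_mul, h8, mul_one] at h7
    rw [← h7, EQ_Δ]
    obtain ⟨c, hc⟩ := hW.dvd
    rw [hc, Int.cast_mul, Int.cast_natCast, map_mul]
    exact mul_le_of_le_one_right' (val_intCast_le _ _)
  have h9 : v ((D ^ (m * (m + 1))) ^ 2) ≤ v (((p : ℕ) : AlgebraicClosure ℚ) ^ 2) := by
    calc v ((D ^ (m * (m + 1))) ^ 2) = v (D ^ 2) ^ (m * (m + 1)) := by
          rw [← pow_mul, mul_comm, pow_mul, map_pow]
      _ ≤ v ((p : ℕ) : AlgebraicClosure ℚ) ^ (m * (m + 1)) := pow_le_pow_left' h6 _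
      _ ≤ v ((p : ℕ) : AlgebraicClosure ℚ) ^ 2 := by
          refine pow_le_pow_right_of_le_one' hv.le ?_
          nlinarith
      _ = _ := (map_pow _ _ _).symm
  exact absurd h5 (not_lt.mpr h9)

end Fermat.Agent.ECRed
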