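import Fermat.Agent.EC.RedGalois
import Fermat.Agent.Torsion.Card
import Fermat.Agent.Torsion.FiniteLevel
import Fermat.Prelude.Def_EllipticCurve_FrobeniusTrace

/-!
# Reduction of torsion at good places, and equivariance under decomposition groups
-/

set_option autoImplicit false

open WeierstrassCurve WeierstrassCurve.Affine

namespace Fermat.Agent.ECRed

/-! ### The residue field of a valuation subring of an algebraically closed field -/

section residue

open Polynomial

instance isAlgClosed_residueField {K : Type*} [Field K] [IsAlgClosed K] (A : ValuationSubring K) :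
    IsAlgClosed (IsLocalRing.ResidueField A) := by
  refine IsAlgClosed.of_exists_root _ fun f hf hirr => ?_
  have hlift : f ∈ Polynomial.lifts (IsLocalRing.residue A) := by
    rw [Polynomial.mem_lifts]
    obtain ⟨g, hg⟩ := Polynomial.map_surjective (IsLocalRing.residue A)
      IsLocalRing.residue_surjective f
    exact ⟨g, hg⟩
  obtain ⟨g, hg, hdeg, hmon⟩ := Polynomial.lifts_and_degree_eq_and_monic hlift hf
  have hdeg0 : (g.map (algebraMap A K)).degree ≠ 0 := by
    rw [hmon.degree_map, hdeg]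
    exact (Polynomial.degree_pos_of_irreducible hirr).ne'
  obtain ⟨x, hx⟩ := IsAlgClosed.exists_root _ hdeg0
  have hxint : IsIntegral A x := by
    refine ⟨g, hmon, ?_⟩
    rw [IsRoot.def, eval_map] at hx
    exact hx
  obtain ⟨r, rfl⟩ := IsIntegrallyClosed.isIntegral_iff.mp hxint
  refine ⟨IsLocalRing.residue A r, ?_⟩
  rw [IsRoot.def, eval_map, eval₂_at_apply] at hx
  have h0 : g.eval r = 0 := by
    exact (map_eq_zero_iff _ (IsFractionRing.injective A K)).mp hx
  rw [← hg, eval_map, eval₂_at_apply, h0, map_zero]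

end residue

/-! ### Reduction of torsion at good places -/

section good

variable {R K k Γ₀ : Type*} [CommRing R] [Field K] [Algebra R K] [Field k]
  [LinearOrderedCommGroupWithZero Γ₀] {v : Valuation K Γ₀} {φ : R →+* k}
  [DecidableEq K] [DecidableEq k] {E : Affine K} {E' : Affine k}

/-- The reduction homomorphism at a place of good reduction. -/
noncomputable def redGood (hE : RedCurve φ E E') (hp : IsPlace v φ) (hΔ : E'.Δ ≠ 0) :
    E.Point →+ E'.Point where
  toFun P := (exists_isRed_of_Δ_ne_zero hE hp hΔ P).choose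
  map_zero' := IsRed.unique hp (exists_isRed_of_Δ_ne_zero hE hp hΔ 0).choose_spec isRed_zero_zero
  map_add' P Q := IsRed.unique hp (exists_isRed_of_Δ_ne_zero hE hp hΔ (P + Q)).choose_spec
    ((exists_isRed_of_Δ_ne_zero hE hp hΔ P).choose_spec.add hE hp
      (exists_isRed_of_Δ_ne_zero hE hp hΔ Q).choose_spec)

lemma isRed_redGood (hE : RedCurve φ E E') (hp : IsPlace v φ) (hΔ : E'.Δ ≠ 0) (P : E.Point) :
    IsRed v φ P (redGood hE hp hΔ P) := (exists_isRed_of_Δ_ne_zero hE hp hΔ P).choose_spec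

lemma redGood_eq_iff (hE : RedCurve φ E E') (hp : IsPlace v φ) (hΔ : E'.Δ ≠ 0) {P : E.Point}
    {Q : E'.Point} : redGood hE hp hΔ P = Q ↔ IsRed v φ P Q :=
  ⟨fun h => h ▸ isRed_redGood hE hp hΔ P, fun h => IsRed.unique hp (isRed_redGood hE hp hΔ P) h⟩

omit [DecidableEq K] [DecidableEq k] in
lemma v_natCast_eq_one (hp : IsPlace v φ) {n : ℕ} (hn : (n : k) ≠ 0) : v (n : K) = 1 :=
  (hp.eq_one_iff (redTo_natCast φ n)).mpr hn

lemma redGood_injOn (hE : RedCurve φ E E') (hp : IsPlace v φ) (hΔ : E'.Δ ≠ 0) {n : ℕ}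
    (hn : (n : k) ≠ 0) {P Q : E.Point} (hP : n • P = 0) (hQ : n • Q = 0)
    (h : redGood hE hp hΔ P = redGood hE hp hΔ Q) : P = Q := by
  refine eq_of_isRed_of_nsmul hE hp (v_natCast_eq_one hp hn) (isRed_redGood hE hp hΔ P)
    (h ▸ isRed_redGood hE hp hΔ Q) ?_
  rw [nsmul_sub, hP, hQ, sub_zero]

omit [DecidableEq K] [DecidableEq k] in
lemma Δ_ne_zero_of_redCurve (hE : RedCurve φ E E') (hp : IsPlace v φ) (hΔ : E'.Δ ≠ 0) :
    E.Δ ≠ 0 := by
  intro h
  have h1 := hE.Δ
  rw [h] at h1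
  exact hΔ (hp.unique h1 (redTo_zero φ))

/-- Reduction is bijective on `n`-torsion at a good place, for `n` a unit, over algebraically
closed fields. -/
theorem redGood_bijOn [IsAlgClosed K] [IsAlgClosed k] (hE : RedCurve φ E E') (hp : IsPlace v φ)
    (hΔ : E'.Δ ≠ 0) {n : ℕ} (hn : (n : k) ≠ 0) :
    Set.BijOn (redGood hE hp hΔ) {P | n • P = 0} {Q | n • Q = 0} := by
  have hn0 : n ≠ 0 := fun h => hn (by rw [h]; simp)
  have hnK : (n : K) ≠ 0 := by
    intro h
    have := v_natCast_eq_one hp (K := K) hn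
    rw [h, map_zero] at this
    exact zero_ne_one this
  have hmaps : Set.MapsTo (redGood hE hp hΔ) {P | n • P = 0} {Q | n • Q = 0} := by
    intro P hP
    change n • redGood hE hp hΔ P = 0
    rw [← map_nsmul, show n • P = 0 from hP, map_zero]
  have hinj : Set.InjOn (redGood hE hp hΔ) {P | n • P = 0} :=
    fun P hP Q hQ h => redGood_injOn hE hp hΔ hn hP hQ h
  refine ⟨hmaps, hinj, ?_⟩
  have hc1 : Nat.card {P : E.Point // n • P = 0} = n ^ 2 :=
    Fermat.Agent.Torsion.card_torsion (Δ_ne_zero_of_redCurve hE hp hΔ) hnK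
  have hc2 : Nat.card {P : E'.Point // n • P = 0} = n ^ 2 :=
    Fermat.Agent.Torsion.card_torsion hΔ hn
  have hpos : 0 < n ^ 2 := by positivity
  have hf1 : Finite {P : E.Point // n • P = 0} := Nat.finite_of_card_ne_zero (by omega)
  have hf2 : Finite {P : E'.Point // n • P = 0} := Nat.finite_of_card_ne_zero (by omega)
  let f : {P : E.Point // n • P = 0} → {P : E'.Point // n • P = 0} :=
    fun P => ⟨redGood hE hp hΔ P.1, hmaps P.2⟩
  have hfinj : Function.Injective f := fun P Q h =>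
    Subtype.ext (hinj P.2 Q.2 (congrArg Subtype.val h))
  have hfbij : Function.Bijective f := by
    rw [Nat.bijective_iff_injective_and_card]
    exact ⟨hfinj, by rw [hc1, hc2]⟩
  intro Q hQ
  obtain ⟨P, hP⟩ := hfbij.2 ⟨Q, hQ⟩
  exact ⟨P.1, P.2, congrArg Subtype.val hP⟩

/-- The same as a `ℤ`-linear equivalence between torsion submodules. -/
noncomputable def redTorsion [IsAlgClosed K] [IsAlgClosed k] (hE : RedCurve φ E E')
    (hp : IsPlace v φ) (hΔ : E'.Δ ≠ 0) {n : ℕ} (hn : (n : k) ≠ 0) :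
    Submodule.torsionBy ℤ E.Point (n : ℤ) ≃ₗ[ℤ] Submodule.torsionBy ℤ E'.Point (n : ℤ) :=
  LinearEquiv.ofBijective
    (((redGood hE hp hΔ).toIntLinearMap.restrict (p := Submodule.torsionBy ℤ E.Point (n : ℤ))
      (q := Submodule.torsionBy ℤ E'.Point (n : ℤ)) (fun P hP => by
        rw [Submodule.mem_torsionBy_iff] at hP ⊢
        rw [← map_smul, hP, map_zero])))
    (by
      have hb := redGood_bijOn hE hp hΔ hn
      constructor
      · intro P Q h
        apply Subtype.ext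
        exact hb.2.1 ((Fermat.Agent.Torsion.mem_torsionBy_nat_iff n _).mp P.2)
          ((Fermat.Agent.Torsion.mem_torsionBy_nat_iff n _).mp Q.2) (congrArg Subtype.val h)
      · rintro ⟨Q, hQ⟩
        obtain ⟨P, hP, hPQ⟩ := hb.2.2 ((Fermat.Agent.Torsion.mem_torsionBy_nat_iff n Q).mp hQ)
        exact ⟨⟨P, (Fermat.Agent.Torsion.mem_torsionBy_nat_iff n P).mpr hP⟩, Subtype.ext hPQ⟩)

lemma redTorsion_apply [IsAlgClosed K] [IsAlgClosed k] (hE : RedCurve φ E E')
    (hp : IsPlace v φ) (hΔ : E'.Δ ≠ 0) {n : ℕ} (hn : (n : k) ≠ 0)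
    (P : Submodule.torsionBy ℤ E.Point (n : ℤ)) :
    (redTorsion hE hp hΔ hn P : E'.Point) = redGood hE hp hΔ (P : E.Point) := rfl

lemma isRed_redTorsion [IsAlgClosed K] [IsAlgClosed k] (hE : RedCurve φ E E')
    (hp : IsPlace v φ) (hΔ : E'.Δ ≠ 0) {n : ℕ} (hn : (n : k) ≠ 0)
    (P : Submodule.torsionBy ℤ E.Point (n : ℤ)) :
    IsRed v φ (P : E.Point) (redTorsion hE hp hΔ hn P : E'.Point) :=
  isRed_redGood hE hp hΔ (P : E.Point)

end good

/-! ### Decomposition group equivariance -/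

section decomp

variable {S K : Type*} [Field S] [Field K] [Algebra S K] {A : ValuationSubring K}

lemma redTo_of_mem_decomposition {σ : K ≃ₐ[S] K} (hσ : σ ∈ A.decompositionSubgroup S)
    {x : K} {a : IsLocalRing.ResidueField A} (h : RedTo (IsLocalRing.residue A) x a) :
    RedTo (IsLocalRing.residue A) (σ x)
      ((⟨σ, hσ⟩ : A.decompositionSubgroup S) • a) := by
  obtain ⟨r, rfl, rfl⟩ := h
  exact ⟨(⟨σ, hσ⟩ : A.decompositionSubgroup S) • r, rfl, rfl⟩

lemma redTo_of_isFrobeniusAt {σ : K ≃ₐ[S] K} {q : ℕ} (hσ : A.IsFrobeniusAt σ q)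
    {x : K} {a : IsLocalRing.ResidueField A} (h : RedTo (IsLocalRing.residue A) x a) :
    RedTo (IsLocalRing.residue A) (σ x) (a ^ q) := by
  have := redTo_of_mem_decomposition hσ.mem_decompositionSubgroup h
  rwa [hσ.smul_residue_eq] at this

variable {R₀ : Type*} [CommRing R₀] [DecidableEq K] {W' : Affine R₀}
  [Algebra R₀ S] [Algebra R₀ K] [IsScalarTower R₀ S K]
  {E' : Affine (IsLocalRing.ResidueField A)}

/-- Equivariance of reduction under the decomposition group, coordinatewise form. -/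
lemma IsRed.smul_of_coords {σ : K ≃ₐ[S] K} (hσ : σ ∈ A.decompositionSubgroup S)
    {τ : IsLocalRing.ResidueField A → IsLocalRing.ResidueField A}
    (hτ : ∀ x a, RedTo (IsLocalRing.residue A) x a → RedTo (IsLocalRing.residue A) (σ x) (τ a))
    {P : (W'⁄K).Point} {Q Q' : E'.Point} (h : IsRed A.valuation (IsLocalRing.residue A) P Q)
    (h0 : Q = 0 → Q' = 0) (h1 : Q ≠ 0 → Q' ≠ 0 ∧ xc Q' = τ (xc Q) ∧ yc Q' = τ (yc Q)) :
    IsRed A.valuation (IsLocalRing.residue A) (σ • P) Q' := by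
  rcases h with ⟨hP, hQ⟩ | ⟨hP, hx, hQ⟩ | ⟨hP, hQ, hx, hy⟩
  · rw [h0 hQ]
    subst hP
    exact isRed_zero_zero
  · refine Or.inr (Or.inl ⟨(smul_ne_zero_iff' σ P).mpr hP, ?_, h0 hQ⟩)
    rw [xc_smul, ← not_le, A.valuation_le_one_iff,
      mem_of_mem_decomposition hσ, ← A.valuation_le_one_iff,
      not_le]
    exact hx
  · obtain ⟨hQ', e1, e2⟩ := h1 hQ
    refine Or.inr (Or.inr ⟨(smul_ne_zero_iff' σ P).mpr hP, hQ', ?_, ?_⟩)
    · rw [xc_smul, e1]; exact hτ _ _ hx
    · rw [yc_smul, e2]; exact hτ _ _ hy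

/-- Frobenius equivariance, coordinatewise form. -/
lemma IsRed.smul_of_isFrobeniusAt {σ : K ≃ₐ[S] K} {q : ℕ} (hσ : A.IsFrobeniusAt σ q)
    {P : (W'⁄K).Point} {Q Q' : E'.Point} (h : IsRed A.valuation (IsLocalRing.residue A) P Q)
    (h0 : Q = 0 → Q' = 0) (h1 : Q ≠ 0 → Q' ≠ 0 ∧ xc Q' = xc Q ^ q ∧ yc Q' = yc Q ^ q) :
    IsRed A.valuation (IsLocalRing.residue A) (σ • P) Q' :=
  h.smul_of_coords hσ.mem_decompositionSubgroup (τ := fun a => a ^ q)
    (fun _ _ h => redTo_of_isFrobeniusAt hσ h) h0 h1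

end decomp

end Fermat.Agent.ECRed
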