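import Fermat.Agent.EC.MultOrd

/-!
# The Frobenius at a prime `q ≠ p` of multiplicative reduction on `T_p E` (`p` odd)

`charpoly = (X - ε)(X - εq)` with `ε = ± 1`.
-/

set_option autoImplicit false

noncomputable section

open WeierstrassCurve WeierstrassCurve.Affine FermatAgent.ECVal Polynomial
open scoped WeierstrassCurve.Affine

namespace Fermat.Agent.ECRed

section nodal

variable {F : Type*} [Field F] [DecidableEq F] {W : Affine F}

/-- The nonsingular `p`-torsion points of a nodal cubic: `D / (x - e) + 2` is a root of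
`T_p(X) - 2` (Dickson polynomial), in every characteristic. -/
theorem dickson_eval_of_torsion {p : ℕ} (hprime : p.Prime) (hp2 : p ≠ 2) {e : F}
    (i4 : W.b₄ + e * W.b₂ + 6 * e ^ 2 = 0)
    (i6 : W.b₆ + 2 * e * W.b₄ + e ^ 2 * W.b₂ + 4 * e ^ 3 = 0)
    (i8 : W.b₈ + 3 * e * W.b₆ + 3 * e ^ 2 * W.b₄ + e ^ 3 * W.b₂ + 3 * e ^ 4 = 0)
    {P : W.Point} (hP : p • P = 0) (hP0 : P ≠ 0) :
    xc P - e ≠ 0 ∧ (Polynomial.dickson 1 (1 : F) p).eval
      ((W.b₂ + 12 * e) * (xc P - e)⁻¹ + 2) = 2 := by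
  have hp : Fact p.Prime := ⟨hprime⟩
  have hp1 := hp.out.two_le
  have hp3 : 3 ≤ p := by omega
  set D := W.b₂ + 12 * e with hD
  -- multiples of `P`
  have hord : addOrderOf P = p := addOrderOf_eq_prime hP hP0
  have hmul : ∀ k : ℕ, 1 ≤ k → k < p → k • P ≠ 0 := by
    intro k hk hk' h0
    have h1 : addOrderOf P ∣ k := addOrderOf_dvd_of_nsmul_eq_zero h0
    rw [hord] at h1
    exact absurd (Nat.le_of_dvd (by omega) h1) (by omega)
  -- translated `x`-coordinates are nonzero
  have hX : ∀ k : ℕ, 1 ≤ k → k < p → xc (k • P) - e ≠ 0 := by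
    intro k hk hk' h0
    have h1 : k • P + k • P ≠ 0 := by
      intro h1
      rw [← add_nsmul] at h1
      have h3 : addOrderOf P ∣ (k + k) := addOrderOf_dvd_of_nsmul_eq_zero h1
      rw [hord, ← two_mul] at h3
      rcases (Nat.Prime.dvd_mul hp.out).mp h3 with h4 | h4
      · exact hp2 ((Nat.prime_dvd_prime_iff_eq hp.out Nat.prime_two).mp h4)
      · exact absurd (Nat.le_of_dvd (by omega) h4) (by omega)
    apply psi_ne_zero (hmul k hk hk') h1
    have h5 : xc (k • P) = e := sub_eq_zero.mp h0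
    rw [h5]
    linear_combination i6
  -- the recursion
  set ω : ℕ → F := fun k => (xc (k • P) - e)⁻¹ with hω
  have hωne : ∀ k : ℕ, 1 ≤ k → k < p → ω k ≠ 0 := fun k h1 h2 => inv_ne_zero (hX k h1 h2)
  have hrec : ∀ k : ℕ, 1 ≤ k → k + 2 < p →
      ω (k + 2) + ω k = D * ω (k + 1) * ω 1 + 2 * ω (k + 1) + 2 * ω 1 := by
    intro k hk hk'
    have n1 := hmul (k + 1) (by omega) (by omega)
    have n2 := hmul (k + 2) (by omega) (by omega)
    have n0 := hmul k (by omega) (by omega)
    have nP := hmul 1 le_rfl (by omega)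
    have e1 : (k + 1) • P + 1 • P = (k + 2) • P := by rw [← add_nsmul]
    have e2 : (k + 1) • P - 1 • P = k • P := by rw [add_nsmul, add_sub_cancel_right]
    have hxne : xc ((k + 1) • P) ≠ xc (1 • P) := by
      intro hx
      rcases eq_or_eq_neg_of_xc_eq n1 nP hx with h' | h'
      · apply n0
        rw [← e2, h', sub_self]
      · apply n2
        rw [← e1, h', neg_add_cancel]
    have hs := shift_sum e n1 nP hxne
    have ht := shift_prod e n1 nP hxne
    rw [e1, e2, i4, i6] at hs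
    rw [e1, e2, i4, i6, i8] at ht
    rw [← hD] at hs
    have f1 := hX (k + 1) (by omega) (by omega)
    have f2 := hX (k + 2) (by omega) (by omega)
    have f0 := hX k (by omega) (by omega)
    have fP := hX 1 le_rfl (by omega)
    have hxz : xc ((k + 1) • P) - xc (1 • P) ≠ 0 := sub_ne_zero.mpr hxne
    simp only [hω]
    set s := xc ((k + 2) • P) - e
    set t := xc (k • P) - e
    set x := xc ((k + 1) • P) - e with hx
    set z := xc (1 • P) - e with hz
    have hd : xc ((k + 1) • P) - xc (1 • P) = x - z := by rw [hx, hz]; ring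
    rw [hd] at hs ht hxz
    have key : (s + t) * (x ^ 2 * z ^ 2) = s * t * ((x + z) * (2 * x * z) + D * x * z) := by
      have ht' : s * t * (x - z) ^ 2 = x ^ 2 * z ^ 2 := by linear_combination ht
      have hs' : (s + t) * (x - z) ^ 2 = (x + z) * (2 * x * z) + D * x * z := by
        linear_combination hs
      rw [← hs', ← ht']; ring
    field_simp
    apply mul_left_cancel₀ (mul_ne_zero f1 fP)
    linear_combination key
  have hrec1 : 2 < p → ω 2 = D * ω 1 ^ 2 + 4 * ω 1 := by
    intro h2p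
    have n2 := hmul 2 (by omega) (by omega)
    have nP := hmul 1 le_rfl (by omega)
    have e1 : 1 • P + 1 • P = 2 • P := by rw [← add_nsmul]
    have hd := shift_double e (P := 1 • P) (by rw [e1]; exact n2)
    rw [e1, i4, i6, i8, ← hD] at hd
    have f2 := hX 2 (by omega) (by omega)
    have fP := hX 1 le_rfl (by omega)
    simp only [hω]
    set s := xc (2 • P) - e
    set x := xc (1 • P) - e with hx
    field_simp
    apply mul_left_cancel₀ (pow_ne_zero 2 fP)
    linear_combination -hd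
  -- Dickson polynomials
  have hω1 : ω 1 = (xc P - e)⁻¹ := by simp only [hω, one_nsmul]
  rw [← hω1]
  refine ⟨by have := hX 1 le_rfl (by omega); rwa [one_nsmul] at this, ?_⟩
  set τ : F := D * ω 1 + 2 with hτ
  have hdick : ∀ k : ℕ, k + 1 < p → (k = 0 ∨ (Polynomial.dickson 1 (1 : F) k).eval τ =
      D * ω k + 2) ∧ (Polynomial.dickson 1 (1 : F) (k + 1)).eval τ = D * ω (k + 1) + 2 := by
    intro k
    induction k with
    | zero => intro _; simp [hτ]
    | succ k ih =>
      intro hk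
      obtain ⟨ih1, ih2⟩ := ih (by omega)
      refine ⟨Or.inr ih2, ?_⟩
      rw [Polynomial.dickson_add_two, Polynomial.eval_sub, Polynomial.eval_mul, Polynomial.eval_X,
        Polynomial.eval_mul, Polynomial.eval_C, one_mul, ih2]
      rcases Nat.eq_zero_or_pos k with rfl | hk0
      · have h1 := hrec1 (by omega)
        have h0 : (Polynomial.dickson 1 (1 : F) 0).eval τ = 2 := by
          rw [Polynomial.dickson_zero]; norm_num
        rw [h0, hτ]
        simp only [zero_add, Nat.reduceAdd]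
        rw [h1]
        ring
      · have h1 := hrec k hk0 (by omega)
        rw [ih1.resolve_left (by omega), hτ]
        linear_combination -D * h1
  -- the value at `p`
  have hsymm : ∀ k : ℕ, k ≤ p → ω (p - k) = ω k := by
    intro k hk
    simp only [hω]
    have : (p - k) • P = - (k • P) := by
      rw [eq_neg_iff_add_eq_zero, ← add_nsmul, Nat.sub_add_cancel hk, hP]
    rw [this, xc_neg]
  obtain ⟨m, rfl⟩ : ∃ m, p = m + 2 := ⟨p - 2, by omega⟩
  obtain ⟨h1, h2'⟩ := hdick m (by omega)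
  rw [Polynomial.dickson_add_two, Polynomial.eval_sub, Polynomial.eval_mul, Polynomial.eval_X,
      Polynomial.eval_mul, Polynomial.eval_C, one_mul, h2', h1.resolve_left (by omega)]
  have s1 := hsymm 1 (by omega)
  have s2 := hsymm 2 (by omega)
  have s1' : m + 2 - 1 = m + 1 := by omega
  have s2' : m + 2 - 2 = m := by omega
  rw [s1'] at s1
  rw [s2'] at s2
  rw [s1, s2, hrec1 (by omega), hτ]
  ring

omit [DecidableEq F] in
theorem dickson_natDegree (n : ℕ) (hn : 1 ≤ n) :
    (Polynomial.dickson 1 (1 : F) n).natDegree = n ∧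
      (Polynomial.dickson 1 (1 : F) n).Monic := by
  have key : ∀ n : ℕ, ((Polynomial.dickson 1 (1 : F) (n + 1)).natDegree = n + 1 ∧
      (Polynomial.dickson 1 (1 : F) (n + 1)).Monic) ∧
      ((Polynomial.dickson 1 (1 : F) (n + 2)).natDegree = n + 2 ∧
      (Polynomial.dickson 1 (1 : F) (n + 2)).Monic) := by
    intro n
    induction n with
    | zero =>
      have h1 : Polynomial.dickson 1 (1 : F) 1 = X := Polynomial.dickson_one _ _
      have h2 : Polynomial.dickson 1 (1 : F) 2 = X ^ 2 - C 2 := by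
        rw [Polynomial.dickson_two]; norm_num
        exact (map_ofNat C 2).symm
      refine ⟨⟨?_, ?_⟩, ?_, ?_⟩
      · rw [zero_add, h1, natDegree_X]
      · rw [zero_add, h1]; exact monic_X
      · rw [zero_add, h2, natDegree_sub_C, natDegree_X_pow]
      · rw [zero_add, h2]; exact monic_X_pow_sub_C _ two_ne_zero
    | succ n ih =>
      obtain ⟨⟨a1, a2⟩, b1, b2⟩ := ih
      refine ⟨⟨b1, b2⟩, ?_⟩
      have h : Polynomial.dickson 1 (1 : F) (n + 1 + 2) =
          X * Polynomial.dickson 1 (1 : F) (n + 2) - Polynomial.dickson 1 (1 : F) (n + 1) := by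
        rw [Polynomial.dickson_add_two, map_one, one_mul]
      have hm : (X * Polynomial.dickson 1 (1 : F) (n + 2)).Monic := monic_X.mul b2
      have hd : (X * Polynomial.dickson 1 (1 : F) (n + 2)).natDegree = n + 1 + 2 := by
        rw [monic_X.natDegree_mul b2, natDegree_X, b1]; ring
      have hlt : (Polynomial.dickson 1 (1 : F) (n + 1)).degree <
          (X * Polynomial.dickson 1 (1 : F) (n + 2)).degree := by
        rw [degree_eq_natDegree a2.ne_zero, degree_eq_natDegree hm.ne_zero, a1, hd]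
        exact_mod_cast (by omega : n + 1 < n + 1 + 2)
      refine ⟨?_, ?_⟩
      · rw [h, natDegree_sub_eq_left_of_natDegree_lt (by rw [a1, hd]; omega), hd]
      · rw [h]; exact hm.sub_of_left hlt
  obtain ⟨m, rfl⟩ : ∃ m, n = m + 1 := ⟨n - 1, by omega⟩
  exact (key m).1

/-- A nodal cubic has at most `2p + 1` points of order dividing `p`. -/
theorem nodal_card_le {p : ℕ} (hprime : p.Prime) (hp2 : p ≠ 2) {e : F}
    (i4 : W.b₄ + e * W.b₂ + 6 * e ^ 2 = 0)
    (i6 : W.b₆ + 2 * e * W.b₄ + e ^ 2 * W.b₂ + 4 * e ^ 3 = 0)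
    (i8 : W.b₈ + 3 * e * W.b₆ + 3 * e ^ 2 * W.b₄ + e ^ 3 * W.b₂ + 3 * e ^ 4 = 0)
    (hD : W.b₂ + 12 * e ≠ 0)
    (S : Finset W.Point) (hS : ∀ P ∈ S, p • P = 0) : S.card ≤ 2 * p + 1 := by
  classical
  have hp1 := hprime.two_le
  obtain ⟨hdeg, hmon⟩ := dickson_natDegree (F := F) p (by omega)
  set f : F[X] := Polynomial.dickson 1 (1 : F) p - C 2 with hf
  have hfdeg : f.natDegree = p := by rw [hf, natDegree_sub_C, hdeg]
  have hf0 : f ≠ 0 := by
    intro h0
    rw [h0, natDegree_zero] at hfdeg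
    omega
  set g : W.Point → F := fun P => (W.b₂ + 12 * e) * (xc P - e)⁻¹ + 2 with hg
  set S' := S.erase 0 with hS'
  have himg : (S'.image g).card ≤ p := by
    have hsub : S'.image g ⊆ f.roots.toFinset := by
      intro a ha
      obtain ⟨P, hP, rfl⟩ := Finset.mem_image.mp ha
      rw [hS', Finset.mem_erase] at hP
      rw [Multiset.mem_toFinset, mem_roots hf0, IsRoot.def, hf, eval_sub, eval_C,
        (dickson_eval_of_torsion hprime hp2 i4 i6 i8 (hS P hP.2) hP.1).2, sub_self]
    calc (S'.image g).card ≤ f.roots.toFinset.card := Finset.card_le_card hsub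
      _ ≤ Multiset.card f.roots := Multiset.toFinset_card_le _
      _ ≤ f.natDegree := card_roots' f
      _ = p := hfdeg
  have hS'card : S'.card ≤ 2 * p := by
    refine (Finset.card_le_mul_card_image (f := g) S' 2 ?_).trans (Nat.mul_le_mul_left _ himg)
    intro a ha
    obtain ⟨P₀, hP₀, rfl⟩ := Finset.mem_image.mp ha
    have hP₀' := hP₀
    rw [hS', Finset.mem_erase] at hP₀'
    have hsub : (S'.filter (fun x => g x = g P₀)) ⊆ {P₀, -P₀} := by
      intro P hP
      rw [Finset.mem_filter, hS', Finset.mem_erase] at hP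
      obtain ⟨⟨hPne, hPS⟩, hgP⟩ := hP
      have hx : xc P = xc P₀ := by
        simp only [hg, add_left_inj] at hgP
        have h1 := mul_left_cancel₀ hD hgP
        have h2 := inv_injective h1
        linear_combination h2
      rw [Finset.mem_insert, Finset.mem_singleton]
      exact eq_or_eq_neg_of_xc_eq hPne hP₀'.1 hx
    exact (Finset.card_le_card hsub).trans Finset.card_le_two
  have hle : S.card ≤ S'.card + 1 := by
    rw [hS']
    have := Finset.pred_card_le_card_erase (s := S) (a := 0)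
    omega
  omega

end nodal

variable {W : WeierstrassCurve ℤ} {A : ValuationSubring (AlgebraicClosure ℚ)} {q : ℕ}

/-- the reduction of a node root is a node. -/
lemma NodeRoot.node_red [DecidableEq (IsLocalRing.ResidueField A)] {e D : AlgebraicClosure ℚ}
    (N : NodeRoot A.valuation (EQ W) e D) :
    ∃ e' : IsLocalRing.ResidueField A,
      (Ek W A).b₄ + e' * (Ek W A).b₂ + 6 * e' ^ 2 = 0 ∧
      (Ek W A).b₆ + 2 * e' * (Ek W A).b₄ + e' ^ 2 * (Ek W A).b₂ + 4 * e' ^ 3 = 0 ∧
      (Ek W A).b₈ + 3 * e' * (Ek W A).b₆ + 3 * e' ^ 2 * (Ek W A).b₄ +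
        e' ^ 3 * (Ek W A).b₂ + 3 * e' ^ 4 = 0 ∧ (Ek W A).b₂ + 12 * e' ≠ 0 := by
  have hp := isPlace_valuationSubring A
  have hE := redEk W A
  obtain ⟨e', he'⟩ := hp.exists_of_le N.ve
  have hD : RedTo (IsLocalRing.residue A) D 0 := hp.redTo_zero_iff.mpr N.vD
  have h4 := (hE.b₄.add (hE.b₂.mul he')).add ((redTo_ofNat _ 6).mul (he'.pow 2))
  rw [N.h4] at h4
  have i4 := hp.unique h4 ((redTo_ofNat _ 2).mul hD)
  have h6 := ((hE.b₆.add (((redTo_ofNat _ 2).mul hE.b₄).mul he')).add
    (hE.b₂.mul (he'.pow 2))).add ((redTo_ofNat _ 4).mul (he'.pow 3))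
  rw [N.h6] at h6
  have i6 := hp.unique h6 (redTo_zero _)
  have h8 := (((hE.b₈.add (((redTo_ofNat _ 3).mul hE.b₆).mul he')).add
    (((redTo_ofNat _ 3).mul hE.b₄).mul (he'.pow 2))).add (hE.b₂.mul (he'.pow 3))).add
      ((redTo_ofNat _ 3).mul (he'.pow 4))
  rw [N.h8] at h8
  have i8 := hp.unique h8 (hD.pow 2).neg
  have hB := hE.b₂.add ((redTo_ofNat _ 12).mul he')
  have iB := (hp.eq_one_iff hB).mp N.vB
  exact ⟨e', by linear_combination i4, by linear_combination i6, by linear_combination i8, iB⟩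

/-- At a place of multiplicative reduction above `q ≠ p`, not all the `p`-torsion is in `E₀`. -/
theorem exists_torsion_notMem_E0_of_ne [DecidableEq (IsLocalRing.ResidueField A)] {p : ℕ}
    [hp : Fact p.Prime] (hW : IsMultAt W q) (hne : q ≠ p) (hp2 : p ≠ 2)
    (hA : A.LiesOverPrime q) :
    ∃ P : (EQ W).Point, p • P = 0 ∧ P ∉ E0 (redEk W A) (isPlace_valuationSubring A) := by
  classical
  by_contra hcon
  push Not at hcon
  have hpl := isPlace_valuationSubring A
  obtain ⟨e, D, NR⟩ := hW.exists_nodeRoot hA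
  obtain ⟨e', i4, i6, i8, iD⟩ := NR.node_red
  have hfin := finite_torsionBy_EQ hW.ne (N := p) hp.out.ne_zero
  have hft := Fintype.ofFinite (Submodule.torsionBy ℤ (EQ W).Point (p : ℤ))
  have htor : ∀ P : Submodule.torsionBy ℤ (EQ W).Point (p : ℤ), p • (P : (EQ W).Point) = 0 :=
    fun P => Fermat.Agent.Tate.mem_torsionBy_nat.mp P.2
  choose Q hQ using fun P : Submodule.torsionBy ℤ (EQ W).Point (p : ℤ) => hcon P (htor P)
  have hinj : Function.Injective Q := by
    intro P P' hPP'
    have h1 := hQ P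
    have h2 := hQ P'
    rw [← hPP'] at h2
    have hv : A.valuation ((p : ℕ) : AlgebraicClosure ℚ) = 1 := by
      have := Fermat.Agent.Tate.val_prime_eq_one p hp.out hW.prime hne hA 1
      rwa [pow_one] at this
    exact Subtype.ext (eq_of_isRed_of_nsmul (redEk W A) hpl hv h1 h2 (by
      rw [nsmul_sub, htor P, htor P', sub_zero]))
  have hle := nodal_card_le hp.out hp2 i4 i6 i8 iD (Finset.univ.image Q) (by
    intro R hR
    obtain ⟨P, -, rfl⟩ := Finset.mem_image.mp hR
    have h1 := isRed_nsmul (redEk W A) hpl (hQ P) p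
    rw [htor P] at h1
    exact isRed_zero_left_iff.mp h1)
  rw [Finset.card_image_of_injective _ hinj, Finset.card_univ, ← Nat.card_eq_fintype_card,
    card_torsionBy_EQ hW.ne hp.out.ne_zero] at hle
  have h3 : 3 ≤ p := by have := hp.out.two_le; omega
  nlinarith

end Fermat.Agent.ECRed

namespace Fermat.Agent.Tate

open Fermat.Agent.ECRed

variable {W : WeierstrassCurve ℤ} (hΔ : (W.map (Int.castRingHom ℚ)).Δ ≠ 0)
  (p : ℕ) [hp : Fact p.Prime] {q : ℕ}

/-- the action of the decomposition group at a place above `q` of multiplicative reduction: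
triangular, with the unramified quadratic character on the quotient. -/
theorem exists_basis_decomposition (hW : IsMultAt W q) (hne : q ≠ p) (hp2 : p ≠ 2)
    {P : ValuationSubring (AlgebraicClosure ℚ)} (hP : P.LiesOverPrime q) :
    ∃ b : Module.Basis (Fin 2) ℤ_[p] (tateRep (W.map (Int.castRingHom ℚ)) hΔ p).V,
      ∀ σ ∈ P.decompositionSubgroup ℚ, ∃ z c : ℤ_[p], z ^ 2 = 1 ∧
        (tateRep (W.map (Int.castRingHom ℚ)) hΔ p).ρ σ (b 0) =
          (((Fermat.Agent.S30aux.cyc p σ : ℤ_[p]ˣ) : ℤ_[p]) * z) • b 0 ∧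
        (tateRep (W.map (Int.castRingHom ℚ)) hΔ p).ρ σ (b 1) = z • b 1 + c • b 0 := by
  classical
  have hT := hasTwoRank_curve hΔ p
  set B := E0 (redEk W P) (isPlace_valuationSubring P) with hB
  obtain ⟨f, hf1, hf⟩ := hT.exists_tmod_in B (fun n => pow_le_card_E0tors hW hP hp2 n)
  obtain ⟨x, hx, hxB⟩ := exists_torsion_notMem_E0_of_ne (p := p) hW hne hp2 hP
  obtain ⟨g, hg⟩ := hT.exists_apply_eq (n := 1) (x := x) (by rw [pow_one]; exact hx)
  have hg1 : g 1 ∉ B := by rw [hg]; exact hxB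
  have hfg : Indep f g := indep_of_notMem hf1 (fun h => hg1 (by
    obtain ⟨k, hk⟩ := AddSubgroup.mem_zmultiples_iff.mp h
    rw [← hk]
    exact AddSubgroup.zsmul_mem B (hf 1) k))
  let b : Module.Basis (Fin 2) ℤ_[p] (tateRep (W.map (Int.castRingHom ℚ)) hΔ p).V :=
    hfg.basis hT
  have hb0 : b 0 = f := hfg.basis_zero hT
  have hb1 : b 1 = g := hfg.basis_one hT
  -- membership in `L`
  have hL : ∀ v : (tateRep (W.map (Int.castRingHom ℚ)) hΔ p).V, (∀ n, toT hΔ v n ∈ B) →
      ∃ a : ℤ_[p], v = a • b 0 := by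
    intro v hv
    obtain ⟨a, ha⟩ := exists_smul_eq_of_mem hT hfg B hf hg1 hv
    exact ⟨a, by rw [hb0]; exact ha⟩
  have hBσ : ∀ σ ∈ P.decompositionSubgroup ℚ, ∀ y : (EQ W).Point, y ∈ B → σ • y ∈ B := by
    intro σ hσ y hy
    obtain ⟨e, D, NR⟩ := hW.exists_nodeRoot hP
    rw [hB, mem_E0_iff_pcomp hW.prime hP hW.ne NR] at hy ⊢
    rw [pcomp_smul hW.prime hP hW.ne NR hσ, hy]
  refine ⟨b, fun σ hσ => ?_⟩
  -- the action on `f`
  obtain ⟨x, hx⟩ := hL ((tateRep (W.map (Int.castRingHom ℚ)) hΔ p).ρ σ (b 0)) (by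
      intro n
      rw [hb0]
      exact hBσ σ hσ _ (hf n))
  obtain ⟨z, c, hz, hzz⟩ : ∃ z c : ℤ_[p], (tateRep (W.map (Int.castRingHom ℚ)) hΔ p).ρ σ (b 1) =
      z • b 1 + c • b 0 ∧ z ^ 2 = 1 := by
    rcases exists_sign (DistribSMul.toAddMonoidHom (EQ W).Point σ) B
      (fun y => smul_sub_or_add_mem_E0 hW hP hσ y) g with h1 | h1
    · obtain ⟨a, ha⟩ := hL ((tateRep (W.map (Int.castRingHom ℚ)) hΔ p).ρ σ (b 1) - b 1)
        (by rw [hb1]; exact h1)
      exact ⟨1, a, by rw [← ha, one_smul]; abel, one_pow 2⟩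
    · obtain ⟨a, ha⟩ := hL ((tateRep (W.map (Int.castRingHom ℚ)) hΔ p).ρ σ (b 1) + b 1)
        (by rw [hb1]; exact h1)
      exact ⟨-1, a, by rw [← ha, neg_one_smul]; abel, by norm_num⟩
  refine ⟨z, c, hzz, ?_, hz⟩
  have hdet := det_of_triangular b _ hx hz
  rw [det_tateRep hΔ p σ] at hdet
  rw [hx, hdet]
  congr 1
  linear_combination -x * hzz

theorem charpoly_of_triangular {R M : Type*} [CommRing R] [Nontrivial R] [AddCommGroup M]
    [Module R M] [Module.Free R M] [Module.Finite R M] (b : Module.Basis (Fin 2) R M)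
    (φ : M →ₗ[R] M) {x z c : R} (h0 : φ (b 0) = x • b 0) (h1 : φ (b 1) = z • b 1 + c • b 0) :
    LinearMap.charpoly φ = (X - C z) * (X - C x) := by
  have h00 : LinearMap.toMatrix b b φ 0 0 = x := by
    rw [LinearMap.toMatrix_apply, h0, map_smul, Module.Basis.repr_self]; simp
  have h10 : LinearMap.toMatrix b b φ 1 0 = 0 := by
    rw [LinearMap.toMatrix_apply, h0, map_smul, Module.Basis.repr_self]; simp
  have h11 : LinearMap.toMatrix b b φ 1 1 = z := by
    rw [LinearMap.toMatrix_apply, h1, map_add, map_smul, map_smul, Module.Basis.repr_self,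
      Module.Basis.repr_self]; simp
  rw [← LinearMap.charpoly_toMatrix φ b, Matrix.charpoly_fin_two, Matrix.det_fin_two,
    Matrix.trace_fin_two, h00, h10, h11]
  simp only [map_add, mul_zero, sub_zero, map_mul]
  ring

/-- **The characteristic polynomial of a Frobenius at `q ≠ p` of multiplicative reduction.** -/
theorem charpoly_tateRep_frobenius_mult (hW : IsMultAt W q) (hne : q ≠ p) (hp2 : p ≠ 2)
    {A : ValuationSubring (AlgebraicClosure ℚ)} (hA : A.LiesOverPrime q)
    {σ : AlgebraicClosure ℚ ≃ₐ[ℚ] AlgebraicClosure ℚ} (hσ : A.IsFrobeniusAt σ q) :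
    ∃ ε : ℤ_[p], ε ^ 2 = 1 ∧
      LinearMap.charpoly ((tateRep (W.map (Int.castRingHom ℚ)) hΔ p).ρ σ) =
        (X - C ε) * (X - C (ε * (q : ℤ_[p]))) := by
  obtain ⟨b, hb⟩ := exists_basis_decomposition hΔ p hW hne hp2 hA
  obtain ⟨z, c, hz, h0, h1⟩ := hb σ hσ.mem_decompositionSubgroup
  have hT := hasTwoRank_curve hΔ p
  have := hT.free
  have := hT.finite_tmod
  refine ⟨z, hz, ?_⟩
  rw [charpoly_of_triangular b _ h0 h1, Fermat.Agent.S30aux.cyc_frobenius hW.prime hne hA hσ,
    mul_comm z]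

end Fermat.Agent.Tate
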