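import Fermat.Agent.EC.ResRep
import Fermat.Agent.TW.Conditions
import Fermat.Agent.RTD.Exist

/-!
# `T_p E ⊗ 𝒪` : all the properties needed for modularity lifting, packaged
-/

set_option autoImplicit false

noncomputable section

open WeierstrassCurve WeierstrassCurve.Affine FermatAgent.ECVal Fermat.Agent.ECRed Polynomial
open Fermat.Agent.FlatGS Fermat.Agent.TW Fermat.Agent.RTD Fermat.Agent.HeckeRep
open scoped WeierstrassCurve.Affine TensorProduct

namespace Fermat.Agent.Tate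

section trace

variable {A : Type} [CommRing A] [IsLocalRing A] {B : Type} [CommRing B] [IsLocalRing B]

theorem trace_baseChangeAlong (ρ : GaloisRepAdic A) (φ : A →+* B) (hφ : IsLocalHom φ)
    (σ : AlgebraicClosure ℚ ≃ₐ[ℚ] AlgebraicClosure ℚ) :
    LinearMap.trace B _ ((ρ.baseChangeAlong φ hφ).ρ σ) = φ (LinearMap.trace A _ (ρ.ρ σ)) := by
  letI : Algebra A B := φ.toAlgebra
  exact LinearMap.trace_baseChange (ρ.ρ σ) B

theorem det_baseChangeAlong (ρ : GaloisRepAdic A) (φ : A →+* B) (hφ : IsLocalHom φ)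
    (σ : AlgebraicClosure ℚ ≃ₐ[ℚ] AlgebraicClosure ℚ) :
    LinearMap.det ((ρ.baseChangeAlong φ hφ).ρ σ) = φ (LinearMap.det (ρ.ρ σ)) := by
  letI : Algebra A B := φ.toAlgebra
  exact LinearMap.det_baseChange (ρ.ρ σ)

theorem charpoly_baseChangeAlong' (ρ : GaloisRepAdic A) (φ : A →+* B) (hφ : IsLocalHom φ)
    (σ : AlgebraicClosure ℚ ≃ₐ[ℚ] AlgebraicClosure ℚ) :
    LinearMap.charpoly ((ρ.baseChangeAlong φ hφ).ρ σ) = (LinearMap.charpoly (ρ.ρ σ)).map φ := by
  letI : Algebra A B := φ.toAlgebra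
  exact LinearMap.charpoly_baseChange (ρ.ρ σ) B

theorem rtr_residual (ρ : GaloisRepAdic A) (σ : AlgebraicClosure ℚ ≃ₐ[ℚ] AlgebraicClosure ℚ) :
    rtr ρ.residual σ = IsLocalRing.residue A (LinearMap.trace A _ (ρ.ρ σ)) :=
  LinearMap.trace_baseChange (ρ.ρ σ) (IsLocalRing.ResidueField A)

theorem det_residual' (ρ : GaloisRepAdic A) (σ : AlgebraicClosure ℚ ≃ₐ[ℚ] AlgebraicClosure ℚ) :
    LinearMap.det (ρ.residual.ρ σ) = IsLocalRing.residue A (LinearMap.det (ρ.ρ σ)) :=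
  LinearMap.det_baseChange (ρ.ρ σ)

/-- absolute irreducibility of the residual representation is stable under base change. -/
theorem residual_isAbsolutelyIrreducible_baseChangeAlong (ρ : GaloisRepAdic A) (φ : A →+* B)
    (hφ : IsLocalHom φ) (h2 : (2 : IsLocalRing.ResidueField A) ≠ 0)
    {c : AlgebraicClosure ℚ ≃ₐ[ℚ] AlgebraicClosure ℚ} (hc : c * c = 1)
    (hdc : LinearMap.det (ρ.residual.ρ c) = -1) (h : ρ.residual.IsAbsolutelyIrreducible) :
    (ρ.baseChangeAlong φ hφ).residual.IsAbsolutelyIrreducible := by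
  have hκ := mul_inv_cancel₀ h2
  let f : IsLocalRing.ResidueField A →+* IsLocalRing.ResidueField B := IsLocalRing.ResidueField.map φ
  have hf : ∀ a, f (IsLocalRing.residue A a) = IsLocalRing.residue B (φ a) := fun a => rfl
  rw [isAbsolutelyIrreducible_iff hc hκ _ hdc] at h
  obtain ⟨r, s, hrs⟩ := exists_xx_of_isIrreducible hc hκ _ hdc h
  have hκ' : 2 * f (2 : IsLocalRing.ResidueField A)⁻¹ = 1 := by
    rw [← map_ofNat f 2, ← map_mul, hκ, map_one]
  have hdc' : LinearMap.det ((ρ.baseChangeAlong φ hφ).residual.ρ c) = -1 := by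
    rw [det_residual', det_baseChangeAlong, ← hf, ← det_residual', hdc, map_neg, map_one]
  rw [isAbsolutelyIrreducible_iff hc hκ' _ hdc']
  refine isIrreducible_of_xx hc hκ' _ hdc' (r := r) (s := s) ?_
  have htr : rtr (ρ.baseChangeAlong φ hφ).residual = fun g => f (rtr ρ.residual g) := by
    funext g
    rw [rtr_residual, trace_baseChangeAlong, ← hf, ← rtr_residual]
  rw [htr, map_xx]
  intro h0
  exact hrs ((map_eq_zero f).mp h0)

theorem residual_isOdd_baseChangeAlong (ρ : GaloisRepAdic A) (φ : A →+* B)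
    (hφ : IsLocalHom φ) (h : ρ.residual.IsOdd) : (ρ.baseChangeAlong φ hφ).residual.IsOdd := by
  intro c hc hc1
  have h1 := h c hc hc1
  let f : IsLocalRing.ResidueField A →+* IsLocalRing.ResidueField B := IsLocalRing.ResidueField.map φ
  have hf : ∀ a, f (IsLocalRing.residue A a) = IsLocalRing.residue B (φ a) := fun a => rfl
  rw [det_residual', det_baseChangeAlong, ← hf, ← det_residual', h1, map_neg, map_one]

end trace

variable {W : WeierstrassCurve ℤ} (hΔ : (W.map (Int.castRingHom ℚ)).Δ ≠ 0)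
  (p : ℕ) [hp : Fact p.Prime] {O : Type} [CommRing O] [IsLocalRing O]
  (φ : ℤ_[p] →+* O) (hφ : IsLocalHom φ)

/-- **`T_p E ⊗ 𝒪`**. -/
def tateO : GaloisRepAdic O :=
  (tateRep (W.map (Int.castRingHom ℚ)) hΔ p).baseChangeAlong φ hφ

theorem charpoly_tateO_frobenius {ℓ : ℕ} [hℓ : Fact ℓ.Prime] (hgood : W.IsGoodPrimeFor ℓ)
    (hne : p ≠ ℓ) {A : ValuationSubring (AlgebraicClosure ℚ)} (hA : A.LiesOverPrime ℓ)
    {σ : AlgebraicClosure ℚ ≃ₐ[ℚ] AlgebraicClosure ℚ} (hσ : A.IsFrobeniusAt σ ℓ) :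
    LinearMap.charpoly ((tateO hΔ p φ hφ).ρ σ) =
      X ^ 2 - C ((W.apOfModel ℓ : ℤ) : O) * X + C (ℓ : O) := by
  rw [tateO, charpoly_baseChangeAlong', charpoly_tateRep_frobenius p hΔ hgood hne hA hσ]
  simp

theorem tateO_detIsCyclotomic : (tateO hΔ p φ hφ).DetIsCyclotomic p :=
  detIsCyclotomic_baseChange φ hφ (tateRep_detIsCyclotomic hΔ p)

theorem tateO_residual_isOdd (hp2 : p ≠ 2) : (tateO hΔ p φ hφ).residual.IsOdd :=
  residual_isOdd_baseChangeAlong _ φ hφ (tateRep_residual_isOdd hΔ p hp2)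

theorem tateO_residual_isAbsolutelyIrreducible (hp2 : p ≠ 2) (hirr : W.ModRepIsIrreducible p) :
    (tateO hΔ p φ hφ).residual.IsAbsolutelyIrreducible :=
  residual_isAbsolutelyIrreducible_baseChangeAlong _ φ hφ
    (two_ne_zero_residueField p hp2 (natCast_mem_maximalIdeal p)) complexConjugation_mul_self
    (by rw [det_residual, Fermat.Agent.S30aux.cyc_complexConjugation, map_neg, map_one])
    (tateRep_residual_isAbsolutelyIrreducible hΔ p hp2 hirr)

/-- flat case -/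
theorem tateO_condFlat {𝒪 : Type} [CommRing 𝒪] [Algebra 𝒪 O] [Finite (IsLocalRing.ResidueField O)]
    (hW : W.IsSemistableModel) (hp2 : p ≠ 2) (hgood : W.IsGoodPrimeFor p)
    (S Smin : Finset ℕ) (hpS : p ∈ S) (hS : ∀ q : ℕ, q.Prime → q ∉ S → W.IsGoodPrimeFor q) :
    condFlat 𝒪 p S Smin (tateO hΔ p φ hφ) :=
  ⟨⟨tateO_detIsCyclotomic hΔ p φ hφ,
    isFlatAt_baseChangeAlong φ hφ _ inferInstance (tateRep_isFlatAt hΔ p hgood),
    fun q hq hqS => isUnramifiedAt_baseChange φ hφ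
      (tateRep_unramified hΔ p hq (hS q hq hqS) (fun h => hqS (h ▸ hpS)))⟩,
    fun _q _ hq hne => isUnipotentOnInertiaAt_baseChange φ hφ
      (tateRep_unipotent_of_semistable hΔ p hW hp2 hq hne)⟩

/-- strictly ordinary case -/
theorem tateO_condOrd {𝒪 : Type} [CommRing 𝒪] [Algebra 𝒪 O]
    (hW : W.IsSemistableModel) (hp2 : p ≠ 2) (hbad : ¬ W.IsGoodPrimeFor p)
    (S Smin : Finset ℕ) (hpS : p ∈ S) (hS : ∀ q : ℕ, q.Prime → q ∉ S → W.IsGoodPrimeFor q) :
    condOrd 𝒪 p S Smin (tateO hΔ p φ hφ) :=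
  ⟨⟨tateO_detIsCyclotomic hΔ p φ hφ,
    isStrictOrdinaryAt_baseChange φ hφ (tateRep_strictOrdinary hΔ
      (isMultAt_of_semistable hW (Δ_ne_zero_of_map hΔ) hp.out (not_not.mp hbad)) hp2),
    fun q hq hqS => isUnramifiedAt_baseChange φ hφ
      (tateRep_unramified hΔ p hq (hS q hq hqS) (fun h => hqS (h ▸ hpS)))⟩,
    fun _q _ hq hne => isUnipotentOnInertiaAt_baseChange φ hφ
      (tateRep_unipotent_of_semistable hΔ p hW hp2 hq hne)⟩

end Fermat.Agent.Tate
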