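import Fermat.Agent.EC.TateRep
import Fermat.Agent.EC.RedFrobMod
import Fermat.Agent.ECFrob.Main

/-!
# The characteristic polynomial of Frobenius on the Tate module

`charpoly_map_eq`: if `φ : A →+ A` satisfies `φ² - tφ + q = 0` and `#ker (m - φ) = m² - mt + q`
for all integers `m ≡ 1 mod q`, then `X² - tX + q` is the characteristic polynomial of `φ` on
`T_p A`, `p ∤ q`.
-/

set_option autoImplicit false

noncomputable section

open Polynomial Module

namespace Fermat.Agent.Tate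

/-- A `2 × 2` matrix killed by `X² - tX + q` has this characteristic polynomial or is scalar. -/
theorem charpoly_or_scalar {R : Type*} [CommRing R] [IsDomain R] (M : Matrix (Fin 2) (Fin 2) R)
    (t q : R) (h : M * M - t • M + q • 1 = 0) :
    M.charpoly = X ^ 2 - C t * X + C q ∨ ∃ c : R, M = c • 1 := by
  have hCH : M * M - M.trace • M + M.det • 1 = 0 := by
    have := Matrix.aeval_self_charpoly M
    rw [Matrix.charpoly_fin_two] at this
    simpa [pow_two, Algebra.smul_def] using this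
  have hd : (t - M.trace) • M = (q - M.det) • (1 : Matrix (Fin 2) (Fin 2) R) := by
    have h1 : M * M = t • M - q • 1 := by
      rw [← sub_eq_zero, ← h]; abel
    have h2 : M * M = M.trace • M - M.det • 1 := by
      rw [← sub_eq_zero, ← hCH]; abel
    rw [h1, sub_eq_sub_iff_add_eq_add] at h2
    rw [sub_smul, sub_smul, sub_eq_sub_iff_add_eq_add, h2, add_comm]
  by_cases ht : t = M.trace
  · left
    have h2 : q - M.det = 0 := by
      have := congrArg (fun N : Matrix (Fin 2) (Fin 2) R => N 0 0) hd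
      simpa [ht] using this.symm
    rw [Matrix.charpoly_fin_two, ht, sub_eq_zero.mp h2]
  · right
    have ht' : t - M.trace ≠ 0 := sub_ne_zero.mpr ht
    refine ⟨M 0 0, ?_⟩
    have e : ∀ i j, (t - M.trace) * M i j = (q - M.det) * (1 : Matrix (Fin 2) (Fin 2) R) i j := by
      intro i j
      have := congrArg (fun N : Matrix (Fin 2) (Fin 2) R => N i j) hd
      simpa using this
    ext i j
    apply mul_left_cancel₀ ht'
    rw [e i j, Matrix.smul_apply, smul_eq_mul, ← mul_assoc, e 0 0]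
    simp

section

variable {p : ℕ} [hp : Fact p.Prime] {A : Type*} [AddCommGroup A]

/-- The Tate module of `φ` when `φ² - tφ + q = 0` and `#ker (m - φ) = m² - mt + q` for enough
integers `m`. -/
theorem charpoly_map_eq (hA : HasTwoRank p A) (φ : A →+ A) (t : ℤ) (q : ℕ) (hq : q.Coprime p)
    (hchar : ∀ x, φ (φ x) - t • φ x + (q : ℤ) • x = 0)
    (hcard : ∀ m : ℤ, (q : ℤ) ∣ m - 1 →
      (Nat.card (AddMonoidHom.ker (m • AddMonoidHom.id A - φ)) : ℤ) = m ^ 2 - m * t + q)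
    [Module.Free ℤ_[p] (TMod p A)] [Module.Finite ℤ_[p] (TMod p A)] :
    LinearMap.charpoly (TMod.map (p := p) φ) = X ^ 2 - C (t : ℤ_[p]) * X + C (q : ℤ_[p]) := by
  classical
  obtain ⟨f, g, hfg⟩ := hA.exists_indep
  set b := hfg.basis hA with hb
  set Φ := TMod.map (p := p) φ with hΦ
  set M := LinearMap.toMatrix b b Φ with hM
  rw [← LinearMap.charpoly_toMatrix Φ b, ← hM]
  have hT : Φ * Φ - (t : ℤ_[p]) • Φ + (q : ℤ_[p]) • 1 = 0 := by
    refine LinearMap.ext fun x => TMod.ext fun n => ?_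
    have h1 := hchar (x n)
    have h2 : ((t : ℤ_[p]) • Φ x : TMod p A) n = t • φ (x n) := by
      rw [Int.cast_smul_eq_zsmul]
      rfl
    have h3 : ((q : ℤ_[p]) • x : TMod p A) n = (q : ℤ) • x n := by
      rw [TMod.natCast_smul_apply, natCast_zsmul]
    show (Φ (Φ x) - (t : ℤ_[p]) • Φ x + (q : ℤ_[p]) • x : TMod p A) n = 0
    rw [TMod.coe_add_apply, TMod.coe_sub_apply, h2, h3]
    exact h1
  have hMat : M * M - (t : ℤ_[p]) • M + (q : ℤ_[p]) • 1 = 0 := by
    have := congrArg (LinearMap.toMatrix b b) hT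
    rw [map_add, map_sub, map_smul, map_smul, LinearMap.toMatrix_mul, LinearMap.toMatrix_one,
      map_zero] at this
    exact this
  rcases charpoly_or_scalar M (t : ℤ_[p]) (q : ℤ_[p]) hMat with h | ⟨c, hc⟩
  · exact h
  -- the scalar case
  have hΦc : Φ = c • (1 : Module.End ℤ_[p] (TMod p A)) := by
    apply (LinearMap.toMatrix b b).injective
    rw [map_smul, LinearMap.toMatrix_one, ← hM, hc]
  have hcq : c ^ 2 - c * t + q = 0 := by
    have := congrArg (fun N : Matrix (Fin 2) (Fin 2) ℤ_[p] => N 0 0) hMat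
    rw [hc] at this
    simp at this
    linear_combination this
  have key : ∀ N : ℕ, 2 * c - t ∈ Ideal.span {((p ^ N : ℕ) : ℤ_[p])} := by
    intro N
    -- an integer `m ≡ c + p^N mod p^(N+1)`, `m ≡ 1 mod q`
    have hcop : (p ^ (N + 1)).Coprime q := Nat.Coprime.pow_left _ hq.symm
    obtain ⟨m, hm1, hm2⟩ := Nat.chineseRemainder hcop ((c + (p : ℤ_[p]) ^ N).appr (N + 1)) 1
    have hmc : ((m : ℤ_[p]) - (c + (p : ℤ_[p]) ^ N)) ∈ Ideal.span {((p : ℤ_[p])) ^ (N + 1)} := by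
      rw [← PadicInt.ker_toZModPow, RingHom.mem_ker, map_sub, sub_eq_zero, map_natCast,
        toZModPow_eq_appr]
      exact (ZMod.natCast_eq_natCast_iff _ _ _).mpr hm1
    obtain ⟨d, hd⟩ := Ideal.mem_span_singleton'.mp hmc
    have hmc2 : (m : ℤ_[p]) - c = (p : ℤ_[p]) ^ N * (1 + p * d) := by
      rw [pow_succ] at hd
      linear_combination -hd
    have hunit : IsUnit (1 + (p : ℤ_[p]) * d) := by
      by_contra hnu
      have h1 : (1 + (p : ℤ_[p]) * d) ∈ IsLocalRing.maximalIdeal ℤ_[p] :=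
        (IsLocalRing.mem_maximalIdeal _).mpr hnu
      have h2 : (p : ℤ_[p]) * d ∈ IsLocalRing.maximalIdeal ℤ_[p] := by
        rw [PadicInt.maximalIdeal_eq_span_p]
        exact Ideal.mul_mem_right _ _ (Ideal.mem_span_singleton_self _)
      have h3 : (1 : ℤ_[p]) ∈ IsLocalRing.maximalIdeal ℤ_[p] := by
        have := Ideal.sub_mem _ h1 h2
        rwa [add_sub_cancel_right] at this
      exact (IsLocalRing.mem_maximalIdeal _).mp h3 isUnit_one
    -- `A[p^N] ⊆ ker (m - φ)`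
    have hsub : ∀ x : A, p ^ N • x = 0 → ((m : ℤ) • x - φ x) = 0 := by
      intro x hx
      obtain ⟨y, rfl⟩ := hA.exists_apply_eq hx
      have h1 : φ (y N) = (c • y : TMod p A) N := by
        have := congrArg (fun ψ : Module.End ℤ_[p] (TMod p A) => (ψ y : TMod p A) N) hΦc
        exact this
      rw [h1, TMod.smul_apply_of_eq c y N (b := m) ?_, natCast_zsmul, sub_self]
      rw [← map_natCast (PadicInt.toZModPow N), ← sub_eq_zero, ← map_sub, toZModPow_eq_zero_iff,
        Nat.cast_pow, Ideal.mem_span_singleton']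
      exact ⟨-(1 + p * d), by linear_combination hmc2⟩
    have hdvd : ((p : ℤ) ^ (2 * N)) ∣ (m : ℤ) ^ 2 - m * t + q := by
      rw [← hcard m]
      · have h1 : Nat.card (Submodule.torsionBy ℤ A ((p ^ N : ℕ) : ℤ)).toAddSubgroup ∣
            Nat.card (AddMonoidHom.ker ((m : ℤ) • AddMonoidHom.id A - φ)) := by
          apply AddSubgroup.card_dvd_of_le
          intro x hx
          rw [AddMonoidHom.mem_ker]
          exact hsub x (mem_torsionBy_nat.mp hx)
        have h2 : Nat.card (Submodule.torsionBy ℤ A ((p ^ N : ℕ) : ℤ)).toAddSubgroup =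
            (p ^ N) ^ 2 := hA N
        rw [h2] at h1
        have h3 : ((p : ℤ) ^ (2 * N)) = (((p ^ N) ^ 2 : ℕ) : ℤ) := by
          push_cast; ring
        rw [h3]
        exact_mod_cast h1
      · have : (m : ZMod q) = ((1 : ℕ) : ZMod q) := (ZMod.natCast_eq_natCast_iff _ _ _).mpr hm2
        have h4 : (((m : ℤ) - 1 : ℤ) : ZMod q) = 0 := by
          push_cast
          rw [this]; simp
        exact (ZMod.intCast_zmod_eq_zero_iff_dvd _ _).mp h4
    obtain ⟨e, he⟩ := hdvd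
    have he' : ((m : ℤ_[p])) ^ 2 - m * t + q = (p : ℤ_[p]) ^ (2 * N) * e := by
      have := congrArg (fun z : ℤ => (z : ℤ_[p])) he
      push_cast at this
      exact this
    have h5 : ((m : ℤ_[p]) - c) * (m + c - t) = (p : ℤ_[p]) ^ (2 * N) * e := by
      linear_combination he' - hcq
    rw [hmc2] at h5
    have hp0 : (p : ℤ_[p]) ^ N ≠ 0 := pow_ne_zero _ (by exact_mod_cast hp.out.ne_zero)
    have h6 : (1 + (p : ℤ_[p]) * d) * (m + c - t) = (p : ℤ_[p]) ^ N * e := by
      apply mul_left_cancel₀ hp0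
      rw [two_mul, pow_add] at h5
      linear_combination h5
    obtain ⟨u, hu⟩ := hunit
    have h7 : ((m : ℤ_[p]) + c - t) = (p : ℤ_[p]) ^ N * (↑u⁻¹ * e) := by
      have h8 : (↑u⁻¹ : ℤ_[p]) * ((1 + (p : ℤ_[p]) * d) * (m + c - t)) =
          ↑u⁻¹ * ((p : ℤ_[p]) ^ N * e) := by rw [h6]
      rw [← hu, ← mul_assoc, Units.inv_mul, one_mul] at h8
      rw [h8]; ring
    rw [Ideal.mem_span_singleton', Nat.cast_pow]
    refine ⟨↑u⁻¹ * e - (1 + p * d), ?_⟩
    linear_combination -h7 + hmc2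
  have ht : (t : ℤ_[p]) = 2 * c := by
    have h1 : ∀ n, PadicInt.toZModPow n (2 * c - (t : ℤ_[p])) = PadicInt.toZModPow n 0 := fun n => by
      rw [map_zero]; exact (toZModPow_eq_zero_iff n _).mpr (key n)
    have h2 : 2 * c - (t : ℤ_[p]) = 0 := PadicInt.ext_of_toZModPow.mp h1
    linear_combination -h2
  have hqc : (q : ℤ_[p]) = c ^ 2 := by
    rw [ht] at hcq
    linear_combination hcq
  rw [hc, Matrix.charpoly_fin_two, ht, hqc]
  have h3 : (c • (1 : Matrix (Fin 2) (Fin 2) ℤ_[p])).trace = 2 * c := by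
    simp [Matrix.trace, mul_comm]
  have h4 : (c • (1 : Matrix (Fin 2) (Fin 2) ℤ_[p])).det = c ^ 2 := by
    simp
  rw [h3, h4]

end

/-! ### elliptic curves over finite fields -/

section Finite

open WeierstrassCurve WeierstrassCurve.Affine Fermat.Agent.ECFrob Fermat.Agent.ECRed

variable {k : Type*} [Field k] [Fintype k] (V : WeierstrassCurve k) [V.IsElliptic]
  (K : Type*) [Field K] [Algebra k K] [IsAlgClosed K] [DecidableEq K]
  (p : ℕ) [hp : Fact p.Prime]

omit [Fintype k] in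
theorem hasTwoRank_of_ne (hpk : (p : k) ≠ 0) : HasTwoRank p (V⁄K).Point := fun n => by
  refine Fermat.Agent.Torsion.card_torsionBy V.isUnit_Δ.ne_zero ?_
  rw [Nat.cast_pow]
  refine pow_ne_zero n ?_
  rw [← map_natCast (algebraMap k K)]
  exact (_root_.map_ne_zero _).mpr hpk

omit [DecidableEq K] in
lemma coprime_card (hpk : (p : k) ≠ 0) : (Fintype.card k).Coprime p := by
  rw [Nat.coprime_comm, Nat.Prime.coprime_iff_not_dvd hp.out]
  intro h
  obtain ⟨c, hc⟩ := CharP.exists k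
  have : Fact c.Prime := ⟨CharP.char_is_prime k c⟩
  obtain ⟨n, -, hn⟩ := FiniteField.card k c
  rw [hn] at h
  have h1 : p ∣ c := hp.out.dvd_of_dvd_pow h
  have h2 : p = c := (Nat.prime_dvd_prime_iff_eq hp.out (Fact.out : c.Prime)).mp h1
  subst h2
  exact hpk (CharP.cast_eq_zero k p)

/-- **The characteristic polynomial of Frobenius** on the `p`-adic Tate module of an elliptic
curve over a finite field. -/
theorem charpoly_frob (hpk : (p : k) ≠ 0)
    [Module.Free ℤ_[p] (TMod p (V⁄K).Point)] [Module.Finite ℤ_[p] (TMod p (V⁄K).Point)] :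
    LinearMap.charpoly (TMod.map (p := p) (frob V K)) =
      X ^ 2 - C ((V.traceOfFrobenius : ℤ) : ℤ_[p]) * X + C ((Fintype.card k : ℕ) : ℤ_[p]) := by
  classical
  refine charpoly_map_eq (hasTwoRank_of_ne V K p hpk) (frob V K) V.traceOfFrobenius
    (Fintype.card k) (coprime_card (k := k) p hpk) (fun x => frob_charEq V K x) ?_
  intro m hm
  rw [← card_ker_C_sub_X V K (ε := 1) (c := m) (Or.inl rfl) hm]
  have : AddMonoidHom.ker (m • AddMonoidHom.id (V⁄K).Point - frob V K) =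
      (act V K (C m - X)).ker := by
    ext x
    rw [AddMonoidHom.mem_ker, AddMonoidHom.mem_ker, act_sub, act_C, act_X]
    rfl
  rw [this]

end Finite

section FiniteZMod

open WeierstrassCurve WeierstrassCurve.Affine Fermat.Agent.ECFrob Fermat.Agent.ECRed

variable {ℓ : ℕ} [hℓ : Fact ℓ.Prime] (V : WeierstrassCurve (ZMod ℓ)) [V.IsElliptic]
  (K : Type*) [Field K] [Algebra (ZMod ℓ) K] [IsAlgClosed K] [DecidableEq K]
  (p : ℕ) [hp : Fact p.Prime]

omit [DecidableEq K] [IsAlgClosed K] hp [Algebra (ZMod ℓ) K] [Field K] in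
lemma natCast_ne_zero_of_ne [hp : Fact p.Prime] (hpl : p ≠ ℓ) : (p : ZMod ℓ) ≠ 0 := by
  rw [Ne, ZMod.natCast_eq_zero_iff, Nat.prime_dvd_prime_iff_eq hℓ.out hp.out]
  exact fun h => hpl h.symm

theorem charpoly_frobTorsion (hpl : p ≠ ℓ) (n : ℕ)
    [Module.Free (ZMod (p ^ n)) (Submodule.torsionBy ℤ (V⁄K).Point ((p ^ n : ℕ) : ℤ))]
    [Module.Finite (ZMod (p ^ n)) (Submodule.torsionBy ℤ (V⁄K).Point ((p ^ n : ℕ) : ℤ))] :
    LinearMap.charpoly (frobTorsion V K (p ^ n)) =
      X ^ 2 - C ((V.traceOfFrobenius : ℤ) : ZMod (p ^ n)) * X + C ((ℓ : ℕ) : ZMod (p ^ n)) := by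
  have hpk : (p : ZMod ℓ) ≠ 0 := natCast_ne_zero_of_ne p hpl
  have hA := hasTwoRank_of_ne V K p hpk
  have := hA.free
  have := hA.finite_tmod
  rw [charpoly_level n hA (TMod.map (p := p) (frob V K)) (frobTorsion V K (p ^ n)) (fun x => rfl),
    charpoly_frob V K p hpk]
  simp [ZMod.card]

end FiniteZMod

/-! ### elliptic curves over `ℚ` -/

section Rat

open WeierstrassCurve WeierstrassCurve.Affine WeierstrassCurve.Affine.Point Fermat.Agent.ECFrob
  Fermat.Agent.ECRed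

variable (W : WeierstrassCurve ℤ) {ℓ : ℕ} [hℓ : Fact ℓ.Prime] (p : ℕ) [hp : Fact p.Prime]

theorem Δ_ne_zero_of_good {ℓ : ℕ} {W : WeierstrassCurve ℤ} (hW : W.IsGoodPrimeFor ℓ) :
    (W.map (Int.castRingHom ℚ)).Δ ≠ 0 := by
  rw [WeierstrassCurve.map_Δ, eq_intCast, Int.cast_ne_zero]
  intro h
  exact hW (h ▸ dvd_zero _)

theorem isElliptic_reductionMod {W : WeierstrassCurve ℤ} (hW : W.IsGoodPrimeFor ℓ) :
    (W.reductionMod ℓ).IsElliptic := by
  refine ⟨IsUnit.mk0 _ ?_⟩
  have h2 : (W.reductionMod ℓ).Δ = ((W.Δ : ℤ) : ZMod ℓ) := WeierstrassCurve.map_Δ _ _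
  rw [h2]
  intro h
  rw [ZMod.intCast_zmod_eq_zero_iff_dvd] at h
  exact hW h

variable {W}

/-- **The characteristic polynomial of a Frobenius at `ℓ` on `E[p^n]`.** -/
theorem charpoly_galoisRep_frobenius (hW : W.IsGoodPrimeFor ℓ) (hpl : p ≠ ℓ)
    {A : ValuationSubring (AlgebraicClosure ℚ)} (hA : A.LiesOverPrime ℓ)
    {σ : AlgebraicClosure ℚ ≃ₐ[ℚ] AlgebraicClosure ℚ} (hσ : A.IsFrobeniusAt σ ℓ) (n : ℕ)
    [Module.Free (ZMod (p ^ n)) (Submodule.torsionBy ℤ
      ((W.map (Int.castRingHom ℚ))⁄(AlgebraicClosure ℚ)).Point ((p ^ n : ℕ) : ℤ))]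
    [Module.Finite (ZMod (p ^ n)) (Submodule.torsionBy ℤ
      ((W.map (Int.castRingHom ℚ))⁄(AlgebraicClosure ℚ)).Point ((p ^ n : ℕ) : ℤ))] :
    LinearMap.charpoly (galoisRepModuleEnd (K := AlgebraicClosure ℚ) ℚ
        (W.map (Int.castRingHom ℚ)) (p ^ n) σ) =
      X ^ 2 - C ((W.apOfModel ℓ : ℤ) : ZMod (p ^ n)) * X + C ((ℓ : ℕ) : ZMod (p ^ n)) := by
  classical
  have hchar := charP_residueField_of_liesOver (Fact.out : ℓ.Prime) hA
  let : Algebra (ZMod ℓ) (IsLocalRing.ResidueField A) := ZMod.algebra _ ℓ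
  have := isElliptic_reductionMod hW
  have : IsAlgClosed (IsLocalRing.ResidueField A) := inferInstance
  have hndvd : ¬ ℓ ∣ p ^ n := fun h =>
    hpl ((Nat.prime_dvd_prime_iff_eq hℓ.out hp.out).mp (hℓ.out.dvd_of_dvd_pow h)).symm
  obtain ⟨e, he, -⟩ := exists_redTorsionMod hW hA hndvd
  have hA' := hasTwoRank_of_ne (W.reductionMod ℓ) (IsLocalRing.ResidueField A) p
    (natCast_ne_zero_of_ne p hpl)
  have := free_level n hA'
  have := finite_level n hA'
  have hconj : e.conj (galoisRepModuleEnd (K := AlgebraicClosure ℚ) ℚ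
        (W.map (Int.castRingHom ℚ)) (p ^ n) σ) =
      frobTorsion (W.reductionMod ℓ) (IsLocalRing.ResidueField A) (p ^ n) := by
    refine LinearMap.ext fun x => ?_
    rw [LinearEquiv.conj_apply_apply, galoisRepModuleEnd_apply, he σ hσ,
      LinearEquiv.apply_symm_apply]
  rw [← LinearEquiv.charpoly_conj e, hconj, charpoly_frobTorsion _ _ p hpl n]
  rfl

/-- **The characteristic polynomial of a Frobenius at `ℓ` on the Tate module `T_p E`.** -/
theorem charpoly_tateRep_frobenius (hΔ : (W.map (Int.castRingHom ℚ)).Δ ≠ 0)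
    (hW : W.IsGoodPrimeFor ℓ) (hpl : p ≠ ℓ)
    {A : ValuationSubring (AlgebraicClosure ℚ)} (hA : A.LiesOverPrime ℓ)
    {σ : AlgebraicClosure ℚ ≃ₐ[ℚ] AlgebraicClosure ℚ} (hσ : A.IsFrobeniusAt σ ℓ) :
    LinearMap.charpoly ((tateRep (W.map (Int.castRingHom ℚ)) hΔ p).ρ σ) =
      X ^ 2 - C ((W.apOfModel ℓ : ℤ) : ℤ_[p]) * X + C ((ℓ : ℕ) : ℤ_[p]) := by
  refine poly_ext fun n => ?_
  have hT := hasTwoRank_curve hΔ p
  have := hT.free
  have := hT.finite_tmod
  have := free_torsionBy hΔ p n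
  have := finite_torsionBy hΔ p n
  have h1 := charpoly_level n hT (TMod.rep p (AlgebraicClosure ℚ ≃ₐ[ℚ] AlgebraicClosure ℚ)
      ((W.map (Int.castRingHom ℚ))⁄(AlgebraicClosure ℚ)).Point σ)
    (galoisRepModuleEnd (K := AlgebraicClosure ℚ) ℚ (W.map (Int.castRingHom ℚ)) (p ^ n) σ)
    (fun x => rfl)
  have h2 := charpoly_galoisRep_frobenius p hW hpl hA hσ n
  rw [h1] at h2
  refine Eq.trans ?_ (h2.trans ?_)
  · rfl
  · simp

/-- the case `n = p` of `charpoly_galoisRep_frobenius`. -/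
theorem charpoly_galoisRep_frobenius_prime (hW : W.IsGoodPrimeFor ℓ) (hpl : p ≠ ℓ)
    {A : ValuationSubring (AlgebraicClosure ℚ)} (hA : A.LiesOverPrime ℓ)
    {σ : AlgebraicClosure ℚ ≃ₐ[ℚ] AlgebraicClosure ℚ} (hσ : A.IsFrobeniusAt σ ℓ)
    [Module.Free (ZMod p) (Submodule.torsionBy ℤ
      ((W.map (Int.castRingHom ℚ))⁄(AlgebraicClosure ℚ)).Point (p : ℤ))]
    [Module.Finite (ZMod p) (Submodule.torsionBy ℤ
      ((W.map (Int.castRingHom ℚ))⁄(AlgebraicClosure ℚ)).Point (p : ℤ))] :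
    LinearMap.charpoly (galoisRepModuleEnd (K := AlgebraicClosure ℚ) ℚ
        (W.map (Int.castRingHom ℚ)) p σ) =
      X ^ 2 - C ((W.apOfModel ℓ : ℤ) : ZMod p) * X + C ((ℓ : ℕ) : ZMod p) := by
  have key : ∀ N : ℕ, N = p ^ 1 → ∀
      (_ : Module.Free (ZMod N) (Submodule.torsionBy ℤ
        ((W.map (Int.castRingHom ℚ))⁄(AlgebraicClosure ℚ)).Point (N : ℤ)))
      (_ : Module.Finite (ZMod N) (Submodule.torsionBy ℤ
        ((W.map (Int.castRingHom ℚ))⁄(AlgebraicClosure ℚ)).Point (N : ℤ))),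
      LinearMap.charpoly (galoisRepModuleEnd (K := AlgebraicClosure ℚ) ℚ
          (W.map (Int.castRingHom ℚ)) N σ) =
        X ^ 2 - C ((W.apOfModel ℓ : ℤ) : ZMod N) * X + C ((ℓ : ℕ) : ZMod N) := by
    rintro N rfl h1 h2
    exact charpoly_galoisRep_frobenius p hW hpl hA hσ 1
  exact key p (pow_one p).symm inferInstance inferInstance

end Rat

end Fermat.Agent.Tate
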