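import Fermat.Agent.EC.TateMod

/-!
# The Tate module and its finite levels

Characteristic polynomials, determinants and traces of endomorphisms of `T_p A` reduce to those
of the induced endomorphisms of `A[p^n]`.
-/

set_option autoImplicit false

noncomputable section

namespace Fermat.Agent.Tate

open Module

variable {p : ℕ} [hp : Fact p.Prime] {A : Type*} [AddCommGroup A]

/-- the projection `T_p A → A[p^n]`. -/
def proj (n : ℕ) : TMod p A →+ Submodule.torsionBy ℤ A ((p ^ n : ℕ) : ℤ) where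
  toFun f := ⟨f n, mem_torsionBy_nat.mpr (TMod.pow_smul_apply f n)⟩
  map_zero' := rfl
  map_add' _ _ := rfl

omit hp in
@[simp] theorem coe_proj (n : ℕ) (f : TMod p A) : (proj n f : A) = f n := rfl

theorem proj_eq_zero_iff (n : ℕ) (f : TMod p A) :
    proj n f = 0 ↔ ∃ g : TMod p A, f = ((p : ℤ_[p]) ^ n) • g := by
  rw [← TMod.apply_eq_zero_iff, Subtype.ext_iff]
  rfl

theorem proj_surjective (hA : HasTwoRank p A) (n : ℕ) :
    Function.Surjective (proj (p := p) (A := A) n) := by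
  intro x
  obtain ⟨f, hf⟩ := hA.exists_apply_eq (mem_torsionBy_nat.mp x.2)
  exact ⟨f, Subtype.ext hf⟩

section Level

variable (n : ℕ) [Module (ZMod (p ^ n)) (Submodule.torsionBy ℤ A ((p ^ n : ℕ) : ℤ))]

theorem proj_smul (a : ℤ_[p]) (f : TMod p A) :
    proj n (a • f) = PadicInt.toZModPow n a • proj n f := by
  rw [toZModPow_eq_appr, Nat.cast_smul_eq_nsmul]
  rfl

/-- `(f n, g n)` is a basis of `A[p^n]` over `ZMod (p^n)`. -/
def levelMap (f g : TMod p A) :
    (Fin 2 → ZMod (p ^ n)) →ₗ[ZMod (p ^ n)] Submodule.torsionBy ℤ A ((p ^ n : ℕ) : ℤ) :=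
  Fintype.linearCombination (ZMod (p ^ n)) ![proj n f, proj n g]

omit hp in
theorem levelMap_apply (f g : TMod p A) (c : Fin 2 → ZMod (p ^ n)) :
    levelMap n f g c = c 0 • proj n f + c 1 • proj n g := by
  simp [levelMap, Fintype.linearCombination_apply, Fin.sum_univ_two]

theorem levelMap_bijective (hA : HasTwoRank p A) {f g : TMod p A} (h : Indep f g) :
    Function.Bijective (levelMap n f g) := by
  have hne : NeZero (p ^ n) := ⟨(pow_pos hp.out.pos n).ne'⟩
  constructor
  · rw [injective_iff_map_eq_zero]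
    intro c hc
    rw [levelMap_apply] at hc
    have hc' : ((c 0).val : ℕ) • f n + ((c 1).val : ℕ) • g n = 0 := by
      have h0 : c 0 = (((c 0).val : ℕ) : ZMod (p ^ n)) := by simp
      have h1 : c 1 = (((c 1).val : ℕ) : ZMod (p ^ n)) := by simp
      rw [h0, h1, Nat.cast_smul_eq_nsmul, Nat.cast_smul_eq_nsmul] at hc
      exact congrArg Subtype.val hc
    have h2 := h.dvd n (((c 0).val : ℕ) : ℤ) (((c 1).val : ℕ) : ℤ) (by
      rw [natCast_zsmul, natCast_zsmul]; exact hc')
    funext i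
    fin_cases i
    · have := h2.1
      have h3 : (((c 0).val : ℕ) : ZMod (p ^ n)) = 0 := by
        rw [ZMod.natCast_eq_zero_iff]; exact_mod_cast this
      simpa using h3
    · have := h2.2
      have h3 : (((c 1).val : ℕ) : ZMod (p ^ n)) = 0 := by
        rw [ZMod.natCast_eq_zero_iff]; exact_mod_cast this
      simpa using h3
  · intro x
    obtain ⟨a, b, hab⟩ := h.exists_level hA n (mem_torsionBy_nat.mp x.2)
    refine ⟨![(a : ZMod (p ^ n)), (b : ZMod (p ^ n))], ?_⟩
    rw [levelMap_apply]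
    apply Subtype.ext
    simp only [Matrix.cons_val_zero, Matrix.cons_val_one, Nat.cast_smul_eq_nsmul]
    exact hab.symm

/-- the basis `(f n, g n)` of `A[p^n]`. -/
def levelBasis (hA : HasTwoRank p A) {f g : TMod p A} (h : Indep f g) :
    Basis (Fin 2) (ZMod (p ^ n)) (Submodule.torsionBy ℤ A ((p ^ n : ℕ) : ℤ)) :=
  Basis.ofEquivFun (LinearEquiv.ofBijective (levelMap n f g) (levelMap_bijective n hA h)).symm

theorem proj_basis (hA : HasTwoRank p A) {f g : TMod p A} (h : Indep f g) (i : Fin 2) :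
    proj n (h.basis hA i) = levelBasis n hA h i := by
  classical
  fin_cases i
  · show proj n (h.basis hA 0) = levelBasis n hA h 0
    rw [h.basis_zero hA, levelBasis, Basis.coe_ofEquivFun]
    show _ = levelMap n f g (Pi.single 0 1)
    rw [levelMap_apply]
    simp only [Pi.single_eq_same, one_smul]
    rw [Pi.single_eq_of_ne (by decide), zero_smul, add_zero]
  · show proj n (h.basis hA 1) = levelBasis n hA h 1
    rw [h.basis_one hA, levelBasis, Basis.coe_ofEquivFun]
    show _ = levelMap n f g (Pi.single 1 1)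
    rw [levelMap_apply]
    simp only [Pi.single_eq_same, one_smul]
    rw [Pi.single_eq_of_ne (by decide), zero_smul, zero_add]

theorem levelBasis_repr_proj (hA : HasTwoRank p A) {f g : TMod p A} (h : Indep f g)
    (x : TMod p A) (i : Fin 2) :
    (levelBasis n hA h).repr (proj n x) i = PadicInt.toZModPow n ((h.basis hA).repr x i) := by
  have hx : x = ∑ i, (h.basis hA).repr x i • h.basis hA i := ((h.basis hA).sum_repr x).symm
  conv_lhs => rw [hx, map_sum]
  simp only [proj_smul, proj_basis n hA h]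
  rw [map_sum]
  simp [Fin.sum_univ_two]
  fin_cases i <;> simp

theorem toMatrix_level (hA : HasTwoRank p A) {f g : TMod p A} (h : Indep f g)
    (φ : TMod p A →ₗ[ℤ_[p]] TMod p A)
    (ψ : Submodule.torsionBy ℤ A ((p ^ n : ℕ) : ℤ) →ₗ[ZMod (p ^ n)]
      Submodule.torsionBy ℤ A ((p ^ n : ℕ) : ℤ))
    (hφψ : ∀ x, proj n (φ x) = ψ (proj n x)) :
    LinearMap.toMatrix (levelBasis n hA h) (levelBasis n hA h) ψ =
      (LinearMap.toMatrix (h.basis hA) (h.basis hA) φ).map (PadicInt.toZModPow n) := by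
  ext i j
  rw [Matrix.map_apply, LinearMap.toMatrix_apply, LinearMap.toMatrix_apply,
    ← proj_basis n hA h j, ← hφψ, levelBasis_repr_proj]

theorem charpoly_level (hA : HasTwoRank p A) (φ : TMod p A →ₗ[ℤ_[p]] TMod p A)
    (ψ : Submodule.torsionBy ℤ A ((p ^ n : ℕ) : ℤ) →ₗ[ZMod (p ^ n)]
      Submodule.torsionBy ℤ A ((p ^ n : ℕ) : ℤ))
    (hφψ : ∀ x, proj n (φ x) = ψ (proj n x))
    [Module.Free ℤ_[p] (TMod p A)] [Module.Finite ℤ_[p] (TMod p A)]
    [Module.Free (ZMod (p ^ n)) (Submodule.torsionBy ℤ A ((p ^ n : ℕ) : ℤ))]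
    [Module.Finite (ZMod (p ^ n)) (Submodule.torsionBy ℤ A ((p ^ n : ℕ) : ℤ))] :
    LinearMap.charpoly ψ = (LinearMap.charpoly φ).map (PadicInt.toZModPow n) := by
  obtain ⟨f, g, h⟩ := hA.exists_indep
  rw [← LinearMap.charpoly_toMatrix ψ (levelBasis n hA h),
    ← LinearMap.charpoly_toMatrix φ (h.basis hA), toMatrix_level n hA h φ ψ hφψ,
    Matrix.charpoly_map]

theorem det_level (hA : HasTwoRank p A) (φ : TMod p A →ₗ[ℤ_[p]] TMod p A)
    (ψ : Submodule.torsionBy ℤ A ((p ^ n : ℕ) : ℤ) →ₗ[ZMod (p ^ n)]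
      Submodule.torsionBy ℤ A ((p ^ n : ℕ) : ℤ))
    (hφψ : ∀ x, proj n (φ x) = ψ (proj n x)) :
    LinearMap.det ψ = PadicInt.toZModPow n (LinearMap.det φ) := by
  obtain ⟨f, g, h⟩ := hA.exists_indep
  rw [← LinearMap.det_toMatrix (levelBasis n hA h), ← LinearMap.det_toMatrix (h.basis hA),
    toMatrix_level n hA h φ ψ hφψ, RingHom.map_det]
  rfl

theorem trace_level (hA : HasTwoRank p A) (φ : TMod p A →ₗ[ℤ_[p]] TMod p A)
    (ψ : Submodule.torsionBy ℤ A ((p ^ n : ℕ) : ℤ) →ₗ[ZMod (p ^ n)]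
      Submodule.torsionBy ℤ A ((p ^ n : ℕ) : ℤ))
    (hφψ : ∀ x, proj n (φ x) = ψ (proj n x)) :
    LinearMap.trace _ _ ψ = PadicInt.toZModPow n (LinearMap.trace _ _ φ) := by
  obtain ⟨f, g, h⟩ := hA.exists_indep
  rw [LinearMap.trace_eq_matrix_trace _ (levelBasis n hA h),
    LinearMap.trace_eq_matrix_trace _ (h.basis hA), toMatrix_level n hA h φ ψ hφψ]
  simp [Matrix.trace, Fin.sum_univ_two]

theorem free_level (hA : HasTwoRank p A) :
    Module.Free (ZMod (p ^ n)) (Submodule.torsionBy ℤ A ((p ^ n : ℕ) : ℤ)) := by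
  obtain ⟨f, g, h⟩ := hA.exists_indep
  exact Module.Free.of_basis (levelBasis n hA h)

theorem finite_level (hA : HasTwoRank p A) :
    Module.Finite (ZMod (p ^ n)) (Submodule.torsionBy ℤ A ((p ^ n : ℕ) : ℤ)) := by
  obtain ⟨f, g, h⟩ := hA.exists_indep
  exact Module.Finite.of_basis (levelBasis n hA h)

end Level

/-- an equality in `ℤ_p[X]` can be checked modulo all `p^n`. -/
theorem poly_ext {P Q : Polynomial ℤ_[p]}
    (h : ∀ n, P.map (PadicInt.toZModPow n) = Q.map (PadicInt.toZModPow n)) : P = Q := by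
  refine Polynomial.ext fun i => ?_
  refine PadicInt.ext_of_toZModPow.mp fun n => ?_
  have := congrArg (fun R => Polynomial.coeff R i) (h n)
  simpa using this

/-- an element of `ℤ_p` is in `p^n ℤ_p` iff it vanishes mod `p^n`. -/
theorem toZModPow_eq_zero_iff (n : ℕ) (a : ℤ_[p]) :
    PadicInt.toZModPow n a = 0 ↔ a ∈ Ideal.span {((p ^ n : ℕ) : ℤ_[p])} := by
  rw [← RingHom.mem_ker, PadicInt.ker_toZModPow, Nat.cast_pow]

end Fermat.Agent.Tate
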