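import Fermat.Prelude.Def_GaloisRep_Flat
import Fermat.Prelude.Def_GaloisRep_StrictOrdinary
import Fermat.Agent.EC.TateLevel
import Fermat.Agent.Torsion.FiniteLevel

/-!
# The `p`-adic representation of an elliptic curve over `ℚ`
-/

set_option autoImplicit false

noncomputable section

open scoped WeierstrassCurve.Affine
open WeierstrassCurve.Affine.Point Module

namespace Fermat.Agent.Tate

theorem hasTwoRank_curve {W : WeierstrassCurve ℚ} (hΔ : W.Δ ≠ 0) (p : ℕ) [hp : Fact p.Prime] :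
    HasTwoRank p (W⁄(AlgebraicClosure ℚ)).Point := fun n =>
  Fermat.Agent.Torsion.card_torsionBy_rat hΔ (pow_ne_zero n hp.out.ne_zero)

theorem rep_adicContinuous {W : WeierstrassCurve ℚ} (hΔ : W.Δ ≠ 0) (p : ℕ) [hp : Fact p.Prime] :
    GaloisActionIsAdicContinuous ℤ_[p]
      (TMod.rep p (AlgebraicClosure ℚ ≃ₐ[ℚ] AlgebraicClosure ℚ)
        (W⁄(AlgebraicClosure ℚ)).Point) := by
  intro n
  obtain ⟨L, hL, h1⟩ := Fermat.Agent.Torsion.galoisRep_factors hΔ
    (n := p ^ n) (pow_ne_zero n hp.out.ne_zero)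
  refine ⟨L, hL, fun σ hσ v => ?_⟩
  have h2 := h1 σ hσ
  have h3 : σ • v n = v n := by
    have := LinearMap.congr_fun h2 (proj n v)
    rw [galoisRepModuleEnd_apply, Module.End.one_apply] at this
    exact congrArg Subtype.val this
  have h4 : (TMod.rep p (AlgebraicClosure ℚ ≃ₐ[ℚ] AlgebraicClosure ℚ)
      (W⁄(AlgebraicClosure ℚ)).Point σ v - v) n = 0 := by
    rw [TMod.coe_sub_apply, TMod.rep_apply, h3, sub_self]
  obtain ⟨g, hg⟩ := (TMod.apply_eq_zero_iff _ n).mp h4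
  rw [hg]
  refine Submodule.smul_mem_smul (Ideal.pow_mem_pow ?_ n) Submodule.mem_top
  rw [PadicInt.maximalIdeal_eq_span_p]
  exact Ideal.mem_span_singleton_self _

/-- **The `p`-adic Tate module of an elliptic curve**, as a `GaloisRepAdic ℤ_[p]`. -/
def tateRep (W : WeierstrassCurve ℚ) (hΔ : W.Δ ≠ 0) (p : ℕ) [Fact p.Prime] :
    GaloisRepAdic ℤ_[p] where
  V := TMod p (W⁄(AlgebraicClosure ℚ)).Point
  instFree := (hasTwoRank_curve hΔ p).free
  instFinite := (hasTwoRank_curve hΔ p).finite_tmod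
  finrank_eq := (hasTwoRank_curve hΔ p).finrank_eq
  ρ := TMod.rep p _ _
  isAdicContinuous := rep_adicContinuous hΔ p

variable {W : WeierstrassCurve ℚ} (hΔ : W.Δ ≠ 0) (p : ℕ) [hp : Fact p.Prime]

theorem tateRep_ρ : (tateRep W hΔ p).ρ =
    TMod.rep p (AlgebraicClosure ℚ ≃ₐ[ℚ] AlgebraicClosure ℚ)
        (W⁄(AlgebraicClosure ℚ)).Point := rfl

theorem proj_tateRep (σ : AlgebraicClosure ℚ ≃ₐ[ℚ] AlgebraicClosure ℚ)
    (v : TMod p (W⁄(AlgebraicClosure ℚ)).Point) (n : ℕ) :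
    proj n ((tateRep W hΔ p).ρ σ v : TMod p (W⁄(AlgebraicClosure ℚ)).Point) =
      galoisRepModuleEnd (K := AlgebraicClosure ℚ) ℚ W (p ^ n) σ (proj n v) := rfl

include hΔ in
theorem free_torsionBy (n : ℕ) : Module.Free (ZMod (p ^ n))
    (Submodule.torsionBy ℤ (W⁄(AlgebraicClosure ℚ)).Point ((p ^ n : ℕ) : ℤ)) :=
  free_level n (hasTwoRank_curve hΔ p)

include hΔ in
theorem finite_torsionBy (n : ℕ) : Module.Finite (ZMod (p ^ n))
    (Submodule.torsionBy ℤ (W⁄(AlgebraicClosure ℚ)).Point ((p ^ n : ℕ) : ℤ)) :=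
  finite_level n (hasTwoRank_curve hΔ p)

/-- determinants on `T_p E` reduce to determinants on `E[p^n]`. -/
theorem toZModPow_det_tateRep (σ : AlgebraicClosure ℚ ≃ₐ[ℚ] AlgebraicClosure ℚ) (n : ℕ) :
    PadicInt.toZModPow n (LinearMap.det ((tateRep W hΔ p).ρ σ)) =
      LinearMap.det (galoisRepModuleEnd (K := AlgebraicClosure ℚ) ℚ W (p ^ n) σ) :=
  (det_level n (hasTwoRank_curve hΔ p) _ _ (fun v => proj_tateRep hΔ p σ v n)).symm

/-- traces on `T_p E` reduce to traces on `E[p^n]`. -/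
theorem toZModPow_trace_tateRep (σ : AlgebraicClosure ℚ ≃ₐ[ℚ] AlgebraicClosure ℚ) (n : ℕ) :
    PadicInt.toZModPow n (LinearMap.trace _ _ ((tateRep W hΔ p).ρ σ)) =
      galoisTrace (K := AlgebraicClosure ℚ) ℚ W (p ^ n) σ :=
  (trace_level n (hasTwoRank_curve hΔ p) _ _ (fun v => proj_tateRep hΔ p σ v n)).symm

/-- unramifiedness of `T_p E` from unramifiedness of all the `E[p^n]`. -/
theorem tateRep_isUnramifiedAt (q : ℕ)
    (h : ∀ n, GaloisRepUnramifiedAt (K := AlgebraicClosure ℚ) ℚ W (p ^ n) q) :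
    (tateRep W hΔ p).IsUnramifiedAt q := by
  intro P hP σ hσ
  refine LinearMap.ext fun v => TMod.ext fun n => ?_
  exact congrArg Subtype.val (h n P hP σ hσ (proj n v))

end Fermat.Agent.Tate
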