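import Fermat.Agent.EC.MultPlace
import Fermat.Agent.EC.TateRep

/-!
# Counting torsion in the identity component

At a place of multiplicative reduction, `#E₀[p^n] ≥ p^n`, hence there is a nonzero element of the
Tate module all of whose components are in `E₀`.
-/

set_option autoImplicit false

open WeierstrassCurve WeierstrassCurve.Affine FermatAgent.ECVal
open scoped WeierstrassCurve.Affine

namespace Fermat.Agent.ECRed

/-- Abstract counting. -/
theorem card_le_of_values {G : Type*} [AddCommGroup G] [Finite G] (H : AddSubgroup G) (c : G → ℚ)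
    (hc : ∀ x y, c x = c y → x - y ∈ H ∨ x + y ∈ H) (V : Finset ℚ) (hV : ∀ x, c x ∈ V) :
    Nat.card G ≤ 2 * Nat.card H * V.card := by
  classical
  have := Fintype.ofFinite G
  have hcard : Nat.card G = (Finset.univ : Finset G).card := by
    rw [Finset.card_univ, Nat.card_eq_fintype_card]
  have himg : (Finset.univ.image c).card ≤ V.card := by
    apply Finset.card_le_card
    intro a ha
    obtain ⟨x, -, rfl⟩ := Finset.mem_image.mp ha
    exact hV x
  have hHcard : ((Finset.univ : Finset G).filter (fun x => x ∈ H)).card = Nat.card H := by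
    rw [Nat.card_eq_fintype_card, Fintype.card_subtype]
  rw [hcard]
  refine (Finset.card_le_mul_card_image (f := c) (Finset.univ : Finset G)
    (2 * Nat.card H) ?_).trans (Nat.mul_le_mul_left _ himg)
  intro a ha
  obtain ⟨x₀, -, rfl⟩ := Finset.mem_image.mp ha
  have hsub : (Finset.univ.filter (fun x => c x = c x₀)) ⊆
      ((Finset.univ.filter (fun x => x ∈ H)).image (fun z => z + x₀)) ∪
      ((Finset.univ.filter (fun x => x ∈ H)).image (fun z => z - x₀)) := by
    intro x hx
    rw [Finset.mem_filter] at hx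
    rw [Finset.mem_union, Finset.mem_image, Finset.mem_image]
    rcases hc x x₀ hx.2 with h | h
    · left; exact ⟨x - x₀, by simpa using h, by abel⟩
    · right; exact ⟨x + x₀, by simpa using h, by abel⟩
  calc (Finset.univ.filter (fun x => c x = c x₀)).card
      ≤ _ := Finset.card_le_card hsub
    _ ≤ _ := Finset.card_union_le _ _
    _ ≤ Nat.card H + Nat.card H := by
        refine Nat.add_le_add ?_ ?_
        · exact Finset.card_image_le.trans hHcard.le
        · exact Finset.card_image_le.trans hHcard.le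
    _ = 2 * Nat.card H := by ring

variable {W : WeierstrassCurve ℤ} {A : ValuationSubring (AlgebraicClosure ℚ)} {q : ℕ}
  [DecidableEq (IsLocalRing.ResidueField A)]

open Fermat.Agent.Tate

/-- `E₀ ∩ E[N]`, as a subgroup of `E[N]` -/
noncomputable def E0tors (W : WeierstrassCurve ℤ) (A : ValuationSubring (AlgebraicClosure ℚ))
    [DecidableEq (IsLocalRing.ResidueField A)] (N : ℕ) :
    AddSubgroup (Submodule.torsionBy ℤ (EQ W).Point (N : ℤ)) :=
  (E0 (redEk W A) (isPlace_valuationSubring A)).comap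
    (Submodule.torsionBy ℤ (EQ W).Point (N : ℤ)).subtype.toAddMonoidHom

lemma mem_E0tors {N : ℕ} {P : Submodule.torsionBy ℤ (EQ W).Point (N : ℤ)} :
    P ∈ E0tors W A N ↔ (P : (EQ W).Point) ∈ E0 (redEk W A) (isPlace_valuationSubring A) :=
  Iff.rfl

theorem finite_torsionBy_EQ (hΔ : W.Δ ≠ 0) {N : ℕ} (hN : N ≠ 0) :
    Finite (Submodule.torsionBy ℤ (EQ W).Point (N : ℤ)) :=
  Fermat.Agent.Torsion.finite_torsionBy_rat (W := W.map (Int.castRingHom ℚ)) (by
    rw [WeierstrassCurve.map_Δ, eq_intCast, Int.cast_ne_zero]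
    exact hΔ) hN

theorem card_torsionBy_EQ (hΔ : W.Δ ≠ 0) {N : ℕ} (hN : N ≠ 0) :
    Nat.card (Submodule.torsionBy ℤ (EQ W).Point (N : ℤ)) = N ^ 2 :=
  Fermat.Agent.Torsion.card_torsionBy_rat (W := W.map (Int.castRingHom ℚ)) (by
    rw [WeierstrassCurve.map_Δ, eq_intCast, Int.cast_ne_zero]
    exact hΔ) hN

/-- `N² ≤ (N + 1) #E₀[N]`, for odd `N`. -/
theorem sq_le_mul_card_E0tors (hW : IsMultAt W q) (hA : A.LiesOverPrime q) {N : ℕ}
    (hN : Odd N) : N ^ 2 ≤ Nat.card (E0tors W A N) * (N + 1) := by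
  obtain ⟨e, D, NR⟩ := hW.exists_nodeRoot hA
  have ND := NR.nodeData hW.prime hA hW.ne
  set w := valOf hW.prime hA with hw
  set h := w.val D with hh
  have hN0 : N ≠ 0 := hN.pos.ne'
  have hfin := finite_torsionBy_EQ hW.ne hN0
  have hNQ : (0 : ℚ) < N := by exact_mod_cast hN.pos
  let V : Finset ℚ := (Finset.range (N / 2 + 1)).image (fun j : ℕ => (j : ℚ) * (2 * h) / N)
  have hVcard : V.card ≤ N / 2 + 1 := by
    refine Finset.card_image_le.trans ?_
    rw [Finset.card_range]
  have hV : ∀ P : Submodule.torsionBy ℤ (EQ W).Point (N : ℤ),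
      pcomp w e h (P : (EQ W).Point) ∈ V := by
    intro P
    have hP : N • (P : (EQ W).Point) = 0 := mem_torsionBy_nat.mp P.2
    obtain ⟨j, hj⟩ := pcomp_torsion ND hP
    have h0 := pcomp_nonneg ND (P : (EQ W).Point)
    have h1 := pcomp_le ND (P : (EQ W).Point)
    have hh0 := ND.hh
    have hj0 : (0 : ℚ) ≤ j := by
      by_contra hcon
      rw [not_le] at hcon
      have : (j : ℚ) * (2 * h) < 0 := by nlinarith
      nlinarith
    have hj1 : (2 * j : ℚ) ≤ N := by
      by_contra hcon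
      rw [not_le] at hcon
      have : (N : ℚ) * h < 2 * j * h := by nlinarith
      nlinarith
    have hj0' : 0 ≤ j := by exact_mod_cast hj0
    have hj1' : 2 * j ≤ (N : ℤ) := by exact_mod_cast hj1
    obtain ⟨i, rfl⟩ := Int.eq_ofNat_of_zero_le hj0'
    refine Finset.mem_image.mpr ⟨i, Finset.mem_range.mpr (by omega), ?_⟩
    rw [div_eq_iff hNQ.ne']
    have : ((i : ℤ) : ℚ) = (i : ℚ) := by norm_cast
    rw [this] at hj
    rw [← hj]; ring
  have hc : ∀ P Q : Submodule.torsionBy ℤ (EQ W).Point (N : ℤ),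
      pcomp w e h (P : (EQ W).Point) = pcomp w e h (Q : (EQ W).Point) →
        P - Q ∈ E0tors W A N ∨ P + Q ∈ E0tors W A N := by
    intro P Q hPQ
    rw [mem_E0tors, mem_E0tors, mem_E0_iff_pcomp hW.prime hA hW.ne NR,
      mem_E0_iff_pcomp hW.prime hA hW.ne NR]
    exact pcomp_eq_imp ND hPQ
  have key := card_le_of_values (E0tors W A N) (fun P => pcomp w e h (P : (EQ W).Point)) hc V hV
  rw [card_torsionBy_EQ hW.ne hN0] at key
  refine key.trans ?_
  calc 2 * Nat.card (E0tors W A N) * V.card ≤ 2 * Nat.card (E0tors W A N) * (N / 2 + 1) :=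
        Nat.mul_le_mul_left _ hVcard
    _ = Nat.card (E0tors W A N) * (2 * (N / 2 + 1)) := by ring
    _ = Nat.card (E0tors W A N) * (N + 1) := by
        congr 1
        obtain ⟨k, hk⟩ := hN
        omega

/-- `#E₀[p^n] ≥ p^n`. -/
theorem pow_le_card_E0tors (hW : IsMultAt W q) (hA : A.LiesOverPrime q) {p : ℕ}
    [hp : Fact p.Prime] (hp2 : p ≠ 2) (n : ℕ) : p ^ n ≤ Nat.card (E0tors W A (p ^ n)) := by
  have hpodd : Odd (p ^ n) := (hp.out.odd_of_ne_two hp2).pow
  have hN0 : p ^ n ≠ 0 := pow_ne_zero _ hp.out.ne_zero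
  have h1 := sq_le_mul_card_E0tors hW hA hpodd
  have hfin := finite_torsionBy_EQ hW.ne hN0
  -- the order of `E₀[p^n]` is a power of `p`
  have hdvd : Nat.card (E0tors W A (p ^ n)) ∣ (p ^ n) ^ 2 := by
    rw [← card_torsionBy_EQ hW.ne hN0]
    exact AddSubgroup.card_addSubgroup_dvd_card _
  rw [← pow_mul] at hdvd
  obtain ⟨k, -, hk⟩ := (Nat.dvd_prime_pow hp.out).mp hdvd
  rw [hk] at h1 ⊢
  apply Nat.pow_le_pow_right hp.out.pos
  by_contra hcon
  rw [not_le] at hcon
  have h2 : p ^ (k + 1) ≤ p ^ n := Nat.pow_le_pow_right hp.out.pos hcon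
  have h3 : 2 ≤ p := hp.out.two_le
  have h4 : p ^ k * 2 ≤ p ^ n := by
    calc p ^ k * 2 ≤ p ^ k * p := Nat.mul_le_mul_left _ h3
      _ = p ^ (k + 1) := (pow_succ p k).symm
      _ ≤ p ^ n := h2
  have h5 : 1 ≤ p ^ k := Nat.one_le_pow _ _ hp.out.pos
  nlinarith

end Fermat.Agent.ECRed
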