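import Fermat.Agent.EC.MultComp

/-!
# A place of multiplicative reduction of a curve over `ℤ`
-/

set_option autoImplicit false

open WeierstrassCurve WeierstrassCurve.Affine FermatAgent.ECVal
open scoped WeierstrassCurve.Affine

namespace Fermat.Agent.ECRed

/-- `q` is a prime of multiplicative reduction of the integral model `W`. -/
structure IsMultAt (W : WeierstrassCurve ℤ) (q : ℕ) : Prop where
  prime : q.Prime
  dvd : (q : ℤ) ∣ W.Δ
  ndvd : ¬ (q : ℤ) ∣ W.c₄
  ne : W.Δ ≠ 0

/-- the curve over `ℚ̄` -/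
noncomputable abbrev EQ (W : WeierstrassCurve ℤ) : Affine (AlgebraicClosure ℚ) :=
  (W.map (Int.castRingHom ℚ))⁄(AlgebraicClosure ℚ)

/-- the reduced curve -/
noncomputable abbrev Ek (W : WeierstrassCurve ℤ) (A : ValuationSubring (AlgebraicClosure ℚ)) :
    Affine (IsLocalRing.ResidueField A) :=
  (W.map (Int.castRingHom (IsLocalRing.ResidueField A))).toAffine

variable {W : WeierstrassCurve ℤ} {A : ValuationSubring (AlgebraicClosure ℚ)} {q : ℕ}

lemma redEk (W : WeierstrassCurve ℤ) (A : ValuationSubring (AlgebraicClosure ℚ)) :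
    RedCurve (IsLocalRing.residue A) (EQ W) (Ek W A) := redCurve_map_int_rat _ W

lemma EQ_b₂ (W : WeierstrassCurve ℤ) :
    WeierstrassCurve.b₂ (EQ W) = ((W.b₂ : ℤ) : AlgebraicClosure ℚ) := by
  simp only [WeierstrassCurve.baseChange, WeierstrassCurve.map_b₂, eq_intCast, map_intCast]

lemma EQ_b₄ (W : WeierstrassCurve ℤ) :
    WeierstrassCurve.b₄ (EQ W) = ((W.b₄ : ℤ) : AlgebraicClosure ℚ) := by
  simp only [WeierstrassCurve.baseChange, WeierstrassCurve.map_b₄, eq_intCast, map_intCast]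

lemma EQ_b₆ (W : WeierstrassCurve ℤ) :
    WeierstrassCurve.b₆ (EQ W) = ((W.b₆ : ℤ) : AlgebraicClosure ℚ) := by
  simp only [WeierstrassCurve.baseChange, WeierstrassCurve.map_b₆, eq_intCast, map_intCast]

lemma EQ_b₈ (W : WeierstrassCurve ℤ) :
    WeierstrassCurve.b₈ (EQ W) = ((W.b₈ : ℤ) : AlgebraicClosure ℚ) := by
  simp only [WeierstrassCurve.baseChange, WeierstrassCurve.map_b₈, eq_intCast, map_intCast]

lemma EQ_c₄ (W : WeierstrassCurve ℤ) :
    WeierstrassCurve.c₄ (EQ W) = ((W.c₄ : ℤ) : AlgebraicClosure ℚ) := by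
  simp only [WeierstrassCurve.baseChange, WeierstrassCurve.map_c₄, eq_intCast, map_intCast]

lemma EQ_Δ (W : WeierstrassCurve ℤ) :
    WeierstrassCurve.Δ (EQ W) = ((W.Δ : ℤ) : AlgebraicClosure ℚ) := by
  simp only [WeierstrassCurve.baseChange, WeierstrassCurve.map_Δ, eq_intCast, map_intCast]

lemma EQ_a₁ (W : WeierstrassCurve ℤ) :
    WeierstrassCurve.a₁ (EQ W) = ((W.a₁ : ℤ) : AlgebraicClosure ℚ) := by
  simp only [WeierstrassCurve.baseChange, WeierstrassCurve.map_a₁, eq_intCast, map_intCast]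

lemma EQ_a₂ (W : WeierstrassCurve ℤ) :
    WeierstrassCurve.a₂ (EQ W) = ((W.a₂ : ℤ) : AlgebraicClosure ℚ) := by
  simp only [WeierstrassCurve.baseChange, WeierstrassCurve.map_a₂, eq_intCast, map_intCast]

lemma EQ_a₃ (W : WeierstrassCurve ℤ) :
    WeierstrassCurve.a₃ (EQ W) = ((W.a₃ : ℤ) : AlgebraicClosure ℚ) := by
  simp only [WeierstrassCurve.baseChange, WeierstrassCurve.map_a₃, eq_intCast, map_intCast]

lemma EQ_a₄ (W : WeierstrassCurve ℤ) :
    WeierstrassCurve.a₄ (EQ W) = ((W.a₄ : ℤ) : AlgebraicClosure ℚ) := by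
  simp only [WeierstrassCurve.baseChange, WeierstrassCurve.map_a₄, eq_intCast, map_intCast]

lemma EQ_a₆ (W : WeierstrassCurve ℤ) :
    WeierstrassCurve.a₆ (EQ W) = ((W.a₆ : ℤ) : AlgebraicClosure ℚ) := by
  simp only [WeierstrassCurve.baseChange, WeierstrassCurve.map_a₆, eq_intCast, map_intCast]

theorem IsMultAt.exists_nodeRoot (hW : IsMultAt W q) (hA : A.LiesOverPrime q) :
    ∃ e D : AlgebraicClosure ℚ, NodeRoot A.valuation (EQ W) e D := by
  have hv := lt_one_of_liesOver hA
  refine Fermat.Agent.ECRed.exists_nodeRoot A.valuation two_ne_zero (EQ W) ?_ ?_ ?_ ?_ ?_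
  · rw [EQ_b₂]; exact val_intCast_le _ _
  · rw [EQ_b₄]; exact val_intCast_le _ _
  · rw [EQ_b₆]; exact val_intCast_le _ _
  · rw [EQ_c₄]; exact val_intCast_eq_one _ hW.prime hv hW.ndvd
  · rw [EQ_Δ]
    obtain ⟨m, hm⟩ := hW.dvd
    rw [hm, Int.cast_mul, Int.cast_natCast, map_mul, mul_comm]
    exact mul_lt_one_of_le_of_lt₀ (val_intCast_le _ _) hv

/-- The node data. -/
theorem NodeRoot.nodeData (hq : q.Prime) (hA : A.LiesOverPrime q)
    (hΔ : W.Δ ≠ 0) {e D : AlgebraicClosure ℚ} (N : NodeRoot A.valuation (EQ W) e D) :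
    NodeData (valOf hq hA) (EQ W) e D ((valOf hq hA).val D) := by
  have hD : D ≠ 0 := by
    rintro rfl
    have h := N.hΔ
    rw [EQ_Δ] at h
    apply hΔ
    have : ((W.Δ : ℤ) : AlgebraicClosure ℚ) = 0 := by rw [h]; ring
    exact_mod_cast this
  have hgt : (valOf hq hA).Gt 0 D := by
    rw [valOf_gt_zero_iff, A.mem_nonunits_iff]; exact N.vD
  have hB0 : (EQ W).b₂ + 12 * e ≠ 0 := by
    intro h
    have := N.vB
    rw [h, map_zero] at this
    exact zero_ne_one this
  refine ⟨hgt.resolve_left hD, ⟨hD, rfl⟩, ⟨hB0, le_antisymm ?_ ?_⟩, N.h4, N.h6, N.h8⟩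
  · have : ¬ (valOf hq hA).Gt 0 ((EQ W).b₂ + 12 * e) := by
      rw [valOf_gt_zero_iff, A.mem_nonunits_iff, N.vB]; exact lt_irrefl _
    rw [QVal.not_gt_iff] at this
    exact this.2
  · have : (valOf hq hA).Ge 0 ((EQ W).b₂ + 12 * e) := by
      rw [valOf_ge_zero_iff, ← A.valuation_le_one_iff, N.vB]
    exact this.resolve_left hB0

section decomposition

variable {σ : AlgebraicClosure ℚ ≃ₐ[ℚ] AlgebraicClosure ℚ}

/-- elements of the decomposition group preserve `v x ≤ v y`. -/
lemma val_le_iff_of_mem_decomposition (hσ : σ ∈ A.decompositionSubgroup ℚ)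
    {x y : AlgebraicClosure ℚ} : A.valuation (σ x) ≤ A.valuation (σ y) ↔
      A.valuation x ≤ A.valuation y := by
  by_cases hy : y = 0
  · subst hy
    rw [map_zero, map_zero, le_zero_iff, le_zero_iff, Valuation.zero_iff, Valuation.zero_iff,
      map_eq_zero]
  · have hy' : σ y ≠ 0 := (map_ne_zero σ).mpr hy
    have h1 : A.valuation (σ x) ≤ A.valuation (σ y) ↔ σ (x / y) ∈ A := by
      rw [map_div₀ σ, ← A.valuation_le_one_iff, map_div₀,
        div_le_one₀ (zero_lt_iff.mpr ((Valuation.ne_zero_iff _).mpr hy'))]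
    have h2 : A.valuation x ≤ A.valuation y ↔ x / y ∈ A := by
      rw [← A.valuation_le_one_iff, map_div₀,
        div_le_one₀ (zero_lt_iff.mpr ((Valuation.ne_zero_iff _).mpr hy))]
    rw [h1, h2, mem_of_mem_decomposition hσ]

lemma val_lt_iff_of_mem_decomposition (hσ : σ ∈ A.decompositionSubgroup ℚ)
    {x y : AlgebraicClosure ℚ} : A.valuation (σ x) < A.valuation (σ y) ↔
      A.valuation x < A.valuation y := by
  rw [← not_le, ← not_le, val_le_iff_of_mem_decomposition hσ]

/-- elements of the decomposition group preserve the `ℚ`-valued valuation. -/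
lemma valOf_val_of_mem_decomposition (hq : q.Prime) (hA : A.LiesOverPrime q)
    (hσ : σ ∈ A.decompositionSubgroup ℚ) {x : AlgebraicClosure ℚ} (hx : x ≠ 0) :
    (valOf hq hA).val (σ x) = (valOf hq hA).val x := by
  have hv := lt_one_of_liesOver hA
  obtain ⟨n, hn, m, h, he⟩ := qval_spec A.valuation hq hv hx
  have hσx : σ x ≠ 0 := (map_ne_zero σ).mpr hx
  have h2 : A.valuation (σ x) ^ n = A.valuation (q : AlgebraicClosure ℚ) ^ m := by
    rw [← map_pow] at h ⊢
    rw [← map_zpow₀] at h ⊢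
    apply le_antisymm
    · have : A.valuation (σ (x ^ n)) ≤ A.valuation (σ ((q : AlgebraicClosure ℚ) ^ m)) :=
        (val_le_iff_of_mem_decomposition hσ).mpr h.le
      rwa [map_zpow₀ σ, map_natCast, map_pow] at this
    · have : A.valuation (σ ((q : AlgebraicClosure ℚ) ^ m)) ≤ A.valuation (σ (x ^ n)) :=
        (val_le_iff_of_mem_decomposition hσ).mpr h.ge
      rwa [map_zpow₀ σ, map_natCast, map_pow] at this
  change qval A.valuation hq hv (σ x) = qval A.valuation hq hv x
  rw [he, qval_eq_of_pow_eq A.valuation hq hv hσx hn h2]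

lemma comp_of_mem_decomposition (hq : q.Prime) (hA : A.LiesOverPrime q)
    (hσ : σ ∈ A.decompositionSubgroup ℚ) {h : ℚ} {x : AlgebraicClosure ℚ} :
    (valOf hq hA).comp h (σ x) = (valOf hq hA).comp h x := by
  unfold QVal.comp
  by_cases hx : x = 0
  · rw [hx, map_zero]
  · rw [if_neg hx, if_neg ((map_ne_zero σ).mpr hx), valOf_val_of_mem_decomposition hq hA hσ hx]

/-- a conjugate of a node root by an element of the decomposition group is a node root. -/
lemma NodeRoot.smul (hσ : σ ∈ A.decompositionSubgroup ℚ) {e D : AlgebraicClosure ℚ}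
    (N : NodeRoot A.valuation (EQ W) e D) : NodeRoot A.valuation (EQ W) (σ e) (σ D) := by
  have m2 : σ (EQ W).b₂ = (EQ W).b₂ := by rw [EQ_b₂, map_intCast]
  have m4 : σ (EQ W).b₄ = (EQ W).b₄ := by rw [EQ_b₄, map_intCast]
  have m6 : σ (EQ W).b₆ = (EQ W).b₆ := by rw [EQ_b₆, map_intCast]
  have m8 : σ (EQ W).b₈ = (EQ W).b₈ := by rw [EQ_b₈, map_intCast]
  have mc : σ (EQ W).c₄ = (EQ W).c₄ := by rw [EQ_c₄, map_intCast]
  have mΔ : σ (EQ W).Δ = (EQ W).Δ := by rw [EQ_Δ, map_intCast]
  refine ⟨?_, ?_, ?_, ?_, ?_, ?_, ?_, ?_⟩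
  · have := congrArg σ N.h6
    simpa only [map_add, map_mul, map_pow, map_ofNat, m2, m4, m6, map_zero] using this
  · have := congrArg σ N.h4
    simpa only [map_add, map_mul, map_pow, map_ofNat, m2, m4] using this
  · have := congrArg σ N.h8
    simpa only [map_add, map_mul, map_pow, map_ofNat, m2, m4, m6, m8, map_neg] using this
  · have := congrArg σ N.hΔ
    simpa only [map_add, map_sub, map_mul, map_pow, map_ofNat, m2, mΔ] using this
  · have := congrArg σ N.hc
    simpa only [map_add, map_sub, map_mul, map_pow, map_ofNat, m2, mc] using this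
  · have h1 := (val_lt_iff_of_mem_decomposition hσ (x := D) (y := 1)).mpr (by
      rw [map_one]; exact N.vD)
    rwa [map_one, map_one] at h1
  · have h0 : (EQ W).b₂ + 12 * σ e = σ ((EQ W).b₂ + 12 * e) := by
      rw [map_add, map_mul, m2, map_ofNat]
    rw [h0]
    apply le_antisymm
    · have h1 := (val_le_iff_of_mem_decomposition hσ (x := (EQ W).b₂ + 12 * e) (y := 1)).mpr (by
        rw [map_one]; exact N.vB.le)
      rwa [map_one, map_one] at h1
    · have h1 := (val_le_iff_of_mem_decomposition hσ (x := 1) (y := (EQ W).b₂ + 12 * e)).mpr (by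
        rw [map_one]; exact N.vB.ge)
      rwa [map_one, map_one] at h1
  · have h1 := (val_le_iff_of_mem_decomposition hσ (x := e) (y := 1)).mpr (by
      rw [map_one]; exact N.ve)
    rwa [map_one, map_one] at h1

/-- **The component is preserved up to sign by the decomposition group.** -/
theorem pcomp_smul (hq : q.Prime) (hA : A.LiesOverPrime q) (hΔ : W.Δ ≠ 0)
    {e D : AlgebraicClosure ℚ} (N : NodeRoot A.valuation (EQ W) e D)
    (hσ : σ ∈ A.decompositionSubgroup ℚ) (P : (EQ W).Point) :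
    pcomp (valOf hq hA) e ((valOf hq hA).val D) (σ • P) =
      pcomp (valOf hq hA) e ((valOf hq hA).val D) P := by
  have ND := N.nodeData hq hA hΔ
  rcases P with _ | ⟨x, y, h⟩
  · rfl
  · have h1 : σ • (Point.some x y h : (EQ W).Point) = Point.map σ.toAlgHom (Point.some x y h) :=
      rfl
    rw [h1, Point.map_some, pcomp_some, pcomp_some, ← comp_of_mem_decomposition hq hA hσ
      (x := x - e)]
    refine comp_congr ND.hh ?_
    have h2 : (σ.toAlgHom x - e) - σ (x - e) = σ e - e := by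
      rw [map_sub]
      change (σ x - e) - (σ x - σ e) = σ e - e
      ring
    rw [h2]
    exact (qVal_ge_iff A.valuation hq (lt_one_of_liesOver hA) ND.hD.1).mpr
      (N.sub_le two_ne_zero (N.smul hσ))

end decomposition

/-! ### The identity component and the component function -/

section E0

variable [DecidableEq (IsLocalRing.ResidueField A)]

/-- the reduction of a node root is the node. -/
lemma NodeRoot.nonsingular_iff {e D : AlgebraicClosure ℚ}
    (N : NodeRoot A.valuation (EQ W) e D) :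
    ∃ e' : IsLocalRing.ResidueField A, RedTo (IsLocalRing.residue A) e e' ∧
      ∀ a b : IsLocalRing.ResidueField A, (Ek W A).Equation a b →
        ((Ek W A).Nonsingular a b ↔ a ≠ e') := by
  have hp := isPlace_valuationSubring A
  have hE := redEk W A
  obtain ⟨e', he'⟩ := hp.exists_of_le N.ve
  have hD : RedTo (IsLocalRing.residue A) D 0 := hp.redTo_zero_iff.mpr N.vD
  refine ⟨e', he', fun a b hab => ?_⟩
  have h4 := (hE.b₄.add (hE.b₂.mul he')).add ((redTo_ofNat _ 6).mul (he'.pow 2))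
  rw [N.h4] at h4
  have i4 := hp.unique h4 ((redTo_ofNat _ 2).mul hD)
  have h6 := ((hE.b₆.add (((redTo_ofNat _ 2).mul hE.b₄).mul he')).add
    (hE.b₂.mul (he'.pow 2))).add ((redTo_ofNat _ 4).mul (he'.pow 3))
  rw [N.h6] at h6
  have i6 := hp.unique h6 (redTo_zero _)
  have h8 := (((hE.b₈.add (((redTo_ofNat _ 3).mul hE.b₆).mul he')).add
    (((redTo_ofNat _ 3).mul hE.b₄).mul (he'.pow 2))).add (hE.b₂.mul (he'.pow 3))).add
      ((redTo_ofNat _ 3).mul (he'.pow 4))
  rw [N.h8] at h8
  have i8 := hp.unique h8 (hD.pow 2).neg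
  have hB := hE.b₂.add ((redTo_ofNat _ 12).mul he')
  have iB := (hp.eq_one_iff hB).mp N.vB
  exact nonsingular_iff_ne_node (by rw [i4]; ring) i6 (by rw [i8]; ring) iB hab

theorem mem_E0_iff_pcomp (hq : q.Prime) (hA : A.LiesOverPrime q) (hΔ : W.Δ ≠ 0)
    {e D : AlgebraicClosure ℚ} (N : NodeRoot A.valuation (EQ W) e D) (P : (EQ W).Point) :
    P ∈ E0 (redEk W A) (isPlace_valuationSubring A) ↔
      pcomp (valOf hq hA) e ((valOf hq hA).val D) P = 0 := by
  have ND := N.nodeData hq hA hΔ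
  have hp := isPlace_valuationSubring A
  have hE := redEk W A
  obtain ⟨e', he', hns⟩ := N.nonsingular_iff
  rcases P with _ | ⟨x, y, h⟩
  · exact ⟨fun _ => rfl, fun _ => AddSubgroup.zero_mem _⟩
  rw [pcomp_some]
  by_cases hx : A.valuation x ≤ 1
  · obtain ⟨a, b, ha, hb, hab⟩ := exists_redTo_of_integral hE hp
      (P := (Point.some x y h : (EQ W).Point)) (Point.some_ne_zero _) hx
    rw [xc_some] at ha
    rw [yc_some] at hb
    have hsub : (valOf hq hA).Gt 0 (x - e) ↔ a = e' := by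
      rw [valOf_gt_zero_iff, A.mem_nonunits_iff, hp.lt_one_iff (ha.sub he'), sub_eq_zero]
    constructor
    · rintro ⟨Q, hQ⟩
      apply QVal.comp_of_not_gt
      rw [hsub]
      rcases hQ with ⟨hP, -⟩ | ⟨-, hx', -⟩ | ⟨-, hQ0, h1, h2⟩
      · exact absurd hP (Point.some_ne_zero _)
      · rw [xc_some] at hx'
        exact absurd hx' (not_lt.mpr hx)
      · obtain ⟨hQn, -⟩ := exists_eq_some hQ0
        rw [xc_some] at h1
        have : a = xc Q := hp.unique ha h1
        rw [this]
        exact (hns _ _ hQn.1).mp hQn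
    · intro hcomp
      have hne : a ≠ e' := by
        intro h'
        have hgt := hsub.mpr h'
        rcases QVal.comp_cases (w := valOf hq hA) (h := (valOf hq hA).val D) (x - e) with
          ⟨r, hr, h1⟩ | ⟨r, hr, hrh, h1⟩ | h1
        · exact absurd (h1.lt_of_gt hgt) (not_lt.mpr hr)
        · rw [QVal.comp_of_is h1 hr.le hrh.le] at hcomp
          exact hr.ne' hcomp
        · rw [QVal.comp_of_ge ND.hh h1] at hcomp
          exact ND.hh.ne' hcomp
      exact ⟨Point.some a b ((hns a b hab).mpr hne), isRed_some_some_iff.mpr ⟨ha, hb⟩⟩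
  · rw [not_le] at hx
    have hnot : ¬ (valOf hq hA).Gt 0 (x - e) := by
      rw [valOf_gt_zero_iff, A.mem_nonunits_iff, not_lt]
      have : A.valuation e < A.valuation x := lt_of_le_of_lt N.ve hx
      rw [Valuation.map_sub_eq_of_lt_left _ this]
      exact hx.le
    refine ⟨fun _ => QVal.comp_of_not_gt hnot, fun _ => ⟨0, ?_⟩⟩
    rw [isRed_zero_right_iff]
    right
    rw [xc_some]
    exact hx

/-- **Dichotomy**: an element of the decomposition group acts on `E(K)/E₀(K)` by `± 1` on each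
class. -/
theorem smul_sub_or_add_mem_E0 (hW : IsMultAt W q) (hA : A.LiesOverPrime q)
    {σ : AlgebraicClosure ℚ ≃ₐ[ℚ] AlgebraicClosure ℚ} (hσ : σ ∈ A.decompositionSubgroup ℚ)
    (P : (EQ W).Point) :
    σ • P - P ∈ E0 (redEk W A) (isPlace_valuationSubring A) ∨
      σ • P + P ∈ E0 (redEk W A) (isPlace_valuationSubring A) := by
  obtain ⟨e, D, N⟩ := hW.exists_nodeRoot hA
  have ND := N.nodeData hW.prime hA hW.ne
  rw [mem_E0_iff_pcomp hW.prime hA hW.ne N, mem_E0_iff_pcomp hW.prime hA hW.ne N]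
  exact pcomp_eq_imp ND (pcomp_smul hW.prime hA hW.ne N hσ P)

end E0

end Fermat.Agent.ECRed
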