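import Fermat.Agent.EC.RedTorsion
import Fermat.Prelude.Def_FLTPrelim_GaloisRep
import Fermat.Prelude.Def_FLTPrelim_Ramification
import Fermat.Prelude.Def_EllipticCurve_ZeroComponentAt

/-!
# Galois action and reduction
-/

set_option autoImplicit false

open WeierstrassCurve WeierstrassCurve.Affine

namespace Fermat.Agent.ECRed

section subgroups

variable {R K k Γ₀ : Type*} [CommRing R] [Field K] [Algebra R K] [Field k]
  [LinearOrderedCommGroupWithZero Γ₀] {v : Valuation K Γ₀} {φ : R →+* k}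
  [DecidableEq K] [DecidableEq k] {E : Affine K} {E' : Affine k}

/-- `E₀`: points with nonsingular reduction. -/
def E0 (hE : RedCurve φ E E') (hp : IsPlace v φ) : AddSubgroup E.Point where
  carrier := {P | ∃ Q : E'.Point, IsRed v φ P Q}
  zero_mem' := ⟨0, isRed_zero_zero⟩
  add_mem' := by
    rintro P P' ⟨Q, hQ⟩ ⟨Q', hQ'⟩
    exact ⟨Q + Q', hQ.add hE hp hQ'⟩
  neg_mem' := by
    rintro P ⟨Q, hQ⟩
    exact ⟨-Q, hQ.neg hE⟩

lemma mem_E0_iff {hE : RedCurve φ E E'} {hp : IsPlace v φ} {P : E.Point} :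
    P ∈ E0 hE hp ↔ ∃ Q : E'.Point, IsRed v φ P Q := Iff.rfl

/-- `E₁`: the kernel of reduction. -/
def E1 (hE : RedCurve φ E E') (hp : IsPlace v φ) : AddSubgroup E.Point where
  carrier := {P | IsRed v φ P (0 : E'.Point)}
  zero_mem' := isRed_zero_zero
  add_mem' := by
    intro P P' hQ hQ'
    simpa using IsRed.add hE hp hQ hQ'
  neg_mem' := by
    intro P hQ
    simpa using IsRed.neg hE hQ

lemma mem_E1_iff {hE : RedCurve φ E E'} {hp : IsPlace v φ} {P : E.Point} :
    P ∈ E1 hE hp ↔ P = 0 ∨ 1 < v (xc P) := isRed_zero_right_iff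

lemma E1_le_E0 (hE : RedCurve φ E E') (hp : IsPlace v φ) : E1 hE hp ≤ E0 hE hp :=
  fun _ hP => ⟨0, hP⟩

/-- The reduction homomorphism `E₀(K) → E'(k)`. -/
noncomputable def red (hE : RedCurve φ E E') (hp : IsPlace v φ) : E0 hE hp →+ E'.Point where
  toFun P := (mem_E0_iff.mp P.2).choose
  map_zero' := IsRed.unique hp (mem_E0_iff.mp (0 : E0 hE hp).2).choose_spec isRed_zero_zero
  map_add' P Q := IsRed.unique hp (mem_E0_iff.mp (P + Q).2).choose_spec
    ((mem_E0_iff.mp P.2).choose_spec.add hE hp (mem_E0_iff.mp Q.2).choose_spec)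

lemma isRed_red {hE : RedCurve φ E E'} {hp : IsPlace v φ} (P : E0 hE hp) :
    IsRed v φ (P : E.Point) (red hE hp P) := (mem_E0_iff.mp P.2).choose_spec

lemma red_eq_iff {hE : RedCurve φ E E'} {hp : IsPlace v φ} {P : E0 hE hp} {Q : E'.Point} :
    red hE hp P = Q ↔ IsRed v φ (P : E.Point) Q :=
  ⟨fun h => h ▸ isRed_red P, fun h => IsRed.unique hp (isRed_red P) h⟩

lemma red_eq_zero_iff {hE : RedCurve φ E E'} {hp : IsPlace v φ} {P : E0 hE hp} :
    red hE hp P = 0 ↔ (P : E.Point) ∈ E1 hE hp := red_eq_iff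

omit [DecidableEq k] in
/-- With good reduction, every point is in `E₀`. -/
lemma exists_isRed_of_Δ_ne_zero (hE : RedCurve φ E E') (hp : IsPlace v φ) (hΔ : E'.Δ ≠ 0)
    (P : E.Point) : ∃ Q : E'.Point, IsRed v φ P Q := by
  by_cases hP : P = 0
  · exact ⟨0, by rw [hP]; exact isRed_zero_zero⟩
  by_cases hx : v (xc P) ≤ 1
  · obtain ⟨a, b, ha, hb, hab⟩ := exists_redTo_of_integral hE hp hP hx
    exact ⟨Point.some a b ((equation_iff_nonsingular_of_Δ_ne_zero hΔ).mp hab),
      Or.inr (Or.inr ⟨hP, Point.some_ne_zero _, ha, hb⟩)⟩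
  · exact ⟨0, isRed_zero_right_iff.mpr (Or.inr (not_le.mp hx))⟩

/-- Two points of `E₀` with the same reduction, whose difference is killed by a unit, are equal. -/
lemma eq_of_isRed_of_nsmul (hE : RedCurve φ E E') (hp : IsPlace v φ) {n : ℕ}
    (hv : v (n : K) = 1) {P P' : E.Point} {Q : E'.Point} (h : IsRed v φ P Q)
    (h' : IsRed v φ P' Q) (hn : n • (P - P') = 0) : P = P' := by
  have := h.sub hE hp h'
  rw [sub_self] at this
  exact sub_eq_zero.mp (kernel_no_torsion hE hp hv this hn)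

end subgroups

section inertia

open scoped Pointwise

variable {S K : Type*} [CommRing S] [Field K] [Algebra S K]

lemma mem_of_mem_decomposition {S K : Type*} [Field S] [Field K] [Algebra S K]
    {A : ValuationSubring K} {σ : K ≃ₐ[S] K} (hσ : σ ∈ A.decompositionSubgroup S) {x : K} :
    σ x ∈ A ↔ x ∈ A := by
  have h1 : σ • A = A := hσ
  have h2 : σ x ∈ σ • A ↔ x ∈ A := by
    rw [ValuationSubring.mem_smul_pointwise_iff_exists]
    constructor
    · rintro ⟨s, hs, hsx⟩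
      have : s = x := σ.injective hsx
      rwa [← this]
    · intro hx
      exact ⟨x, hx, rfl⟩
  rwa [h1] at h2

lemma mem_decomposition_of_mem_inertia {S K : Type*} [Field S] [Field K] [Algebra S K]
    {A : ValuationSubring K} {σ : K ≃ₐ[S] K} (hσ : σ ∈ A.inertiaSubgroupIn S) :
    σ ∈ A.decompositionSubgroup S := by
  obtain ⟨g, -, rfl⟩ := hσ
  exact g.2

lemma redTo_of_mem_inertia {S K : Type*} [Field S] [Field K] [Algebra S K]
    {A : ValuationSubring K} {σ : K ≃ₐ[S] K} (hσ : σ ∈ A.inertiaSubgroupIn S)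
    {x : K} {a : IsLocalRing.ResidueField A} (h : RedTo (IsLocalRing.residue A) x a) :
    RedTo (IsLocalRing.residue A) (σ x) a := by
  obtain ⟨g, hg, rfl⟩ := hσ
  obtain ⟨r, rfl, rfl⟩ := h
  refine ⟨g • r, rfl, ?_⟩
  have h1 : (MulSemiringAction.toRingAut (A.decompositionSubgroup S)
      (IsLocalRing.ResidueField A)) g = 1 := hg
  have h2 := RingEquiv.congr_fun h1 (IsLocalRing.residue A r)
  exact h2

end inertia

section galois

variable {R₀ S K : Type*} [CommRing R₀] [Field S] [Field K] [DecidableEq K] {W' : Affine R₀}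
  [Algebra R₀ S] [Algebra R₀ K] [Algebra S K] [IsScalarTower R₀ S K]

lemma xc_smul (σ : K ≃ₐ[S] K) (P : (W'⁄K).Point) : xc (σ • P) = σ (xc P) := by
  rcases P with _ | ⟨x, y, h⟩
  · exact (map_zero σ).symm
  · rfl

lemma yc_smul (σ : K ≃ₐ[S] K) (P : (W'⁄K).Point) : yc (σ • P) = σ (yc P) := by
  rcases P with _ | ⟨x, y, h⟩
  · exact (map_zero σ).symm
  · rfl

lemma smul_ne_zero_iff' (σ : K ≃ₐ[S] K) (P : (W'⁄K).Point) : σ • P ≠ 0 ↔ P ≠ 0 := by
  rcases P with _ | ⟨x, y, h⟩
  · exact Iff.rfl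
  · exact ⟨fun _ => Point.some_ne_zero _, fun _ => Point.some_ne_zero _⟩

variable {A : ValuationSubring K} [DecidableEq (IsLocalRing.ResidueField A)]
  {E' : Affine (IsLocalRing.ResidueField A)}

omit [DecidableEq (IsLocalRing.ResidueField A)] in
/-- Inertia does not change the reduction of a point. -/
lemma IsRed.smul_inertia {σ : K ≃ₐ[S] K} (hσ : σ ∈ A.inertiaSubgroupIn S) {P : (W'⁄K).Point}
    {Q : E'.Point} (h : IsRed A.valuation (IsLocalRing.residue A) P Q) :
    IsRed A.valuation (IsLocalRing.residue A) (σ • P) Q := by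
  rcases h with ⟨hP, hQ⟩ | ⟨hP, hx, hQ⟩ | ⟨hP, hQ, hx, hy⟩
  · subst hP hQ
    exact isRed_zero_zero
  · refine Or.inr (Or.inl ⟨(smul_ne_zero_iff' σ P).mpr hP, ?_, hQ⟩)
    rw [xc_smul, ← not_le, A.valuation_le_one_iff,
      mem_of_mem_decomposition (mem_decomposition_of_mem_inertia hσ), ← A.valuation_le_one_iff,
      not_le]
    exact hx
  · refine Or.inr (Or.inr ⟨(smul_ne_zero_iff' σ P).mpr hP, hQ, ?_, ?_⟩)
    · rw [xc_smul]; exact redTo_of_mem_inertia hσ hx
    · rw [yc_smul]; exact redTo_of_mem_inertia hσ hy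

/-- (R2) `σ • P - P` is in the kernel of reduction for `P ∈ E₀` and `σ` in the inertia group. -/
lemma isRed_smul_sub {σ : K ≃ₐ[S] K} (hσ : σ ∈ A.inertiaSubgroupIn S) {P : (W'⁄K).Point}
    {Q : E'.Point} (hE : RedCurve (IsLocalRing.residue A) (W'⁄K) E')
    (h : IsRed A.valuation (IsLocalRing.residue A) P Q) :
    IsRed A.valuation (IsLocalRing.residue A) (σ • P - P) (0 : E'.Point) := by
  have := (h.smul_inertia hσ).sub hE (isPlace_valuationSubring A) h
  rwa [sub_self] at this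

/-- Inertia acts trivially on prime-to-residue-characteristic torsion in `E₀`. -/
theorem smul_eq_of_torsion_of_mem_E0 {σ : K ≃ₐ[S] K} (hσ : σ ∈ A.inertiaSubgroupIn S) {n : ℕ}
    (hn : A.valuation (n : K) = 1) {P : (W'⁄K).Point} {Q : E'.Point}
    (hE : RedCurve (IsLocalRing.residue A) (W'⁄K) E')
    (h : IsRed A.valuation (IsLocalRing.residue A) P Q) (hP : n • P = 0) : σ • P = P := by
  refine eq_of_isRed_of_nsmul hE (isPlace_valuationSubring A) hn (h.smul_inertia hσ) h ?_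
  rw [nsmul_sub, hP, sub_zero, ← natCast_zsmul, ← Point.algEquiv_smul_zsmul, natCast_zsmul, hP,
    smul_zero]

/-- Good reduction implies unramified (prime-to-residue-characteristic torsion). -/
theorem smul_eq_of_torsion_of_good {σ : K ≃ₐ[S] K} (hσ : σ ∈ A.inertiaSubgroupIn S) {n : ℕ}
    (hn : A.valuation (n : K) = 1) {P : (W'⁄K).Point}
    (hE : RedCurve (IsLocalRing.residue A) (W'⁄K) E') (hΔ : E'.Δ ≠ 0) (hP : n • P = 0) :
    σ • P = P := by
  obtain ⟨Q, hQ⟩ := exists_isRed_of_Δ_ne_zero hE (isPlace_valuationSubring A) hΔ P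
  exact smul_eq_of_torsion_of_mem_E0 hσ hn hE hQ hP

end galois

/-! ### Comparison with the frozen definition of the zero component -/

section zeroComponent

open scoped Classical in
lemma inZeroComponentAt_iff (W : WeierstrassCurve ℤ)
    (A : ValuationSubring (AlgebraicClosure ℚ))
    (P : ((W.map (Int.castRingHom ℚ))⁄(AlgebraicClosure ℚ)).Point) :
    W.InZeroComponentAt A P ↔
      ∃ Q : (W.map (Int.castRingHom (IsLocalRing.ResidueField A))).toAffine.Point,
        IsRed A.valuation (IsLocalRing.residue A) P Q := by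
  constructor
  · rintro (rfl | ⟨x, y, h, rfl, hx | ⟨hx, hy, hns⟩⟩)
    · exact ⟨0, isRed_zero_zero⟩
    · refine ⟨0, isRed_zero_right_iff.mpr (Or.inr ?_)⟩
      change 1 < A.valuation x
      rw [← not_le, A.valuation_le_one_iff]
      exact hx
    · exact ⟨Point.some _ _ hns, isRed_some_some_iff.mpr ⟨⟨⟨x, hx⟩, rfl, rfl⟩, ⟨⟨y, hy⟩, rfl, rfl⟩⟩⟩
  · rintro ⟨Q, ⟨hP, hQ⟩ | ⟨hP, hx, hQ⟩ | ⟨hP, hQ, hx, hy⟩⟩
    · exact Or.inl hP
    · right
      obtain ⟨h1, h2⟩ := exists_eq_some hP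
      refine ⟨xc P, yc P, h1, h2, Or.inl ?_⟩
      rw [← A.valuation_le_one_iff, not_le]
      exact hx
    · right
      obtain ⟨h1, h2⟩ := exists_eq_some hP
      obtain ⟨h3, h4⟩ := exists_eq_some hQ
      refine ⟨xc P, yc P, h1, h2, Or.inr ?_⟩
      obtain ⟨⟨r, hr⟩, hr1, hr2⟩ := hx
      obtain ⟨⟨s, hs⟩, hs1, hs2⟩ := hy
      have hr1' : r = xc P := hr1
      have hs1' : s = yc P := hs1
      subst hr1' hs1'
      refine ⟨hr, hs, ?_⟩
      rw [hr2, hs2]
      exact h3

end zeroComponent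

end Fermat.Agent.ECRed
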