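import Fermat.Agent.LatticeFlat.Alg
import Fermat.Agent.EC.RedGalois

/-!
# Algebras of integral functions on a finite set of points

* functions with integral values on a finite set are integral, and a function with unit values is
  invertible in the algebra it generates;
* the coordinates of `R(x) + T` for a constant point `T`, when `x(R(x)) - x(T)` is a unit.
-/

set_option autoImplicit false

open Polynomial WeierstrassCurve WeierstrassCurve.Affine

namespace Fermat.Agent.ECFlat

section alg

variable {K : Type*} [Field K] {A : ValuationSubring K} {M : Type*} [Finite M]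

/-- the characteristic polynomial of a function with integral values -/
lemma exists_monic (w : M → K) (hw : ∀ x, w x ∈ A) :
    ∃ f : A[X], f.Monic ∧ aeval w f = 0 ∧
      ((∀ x, A.valuation (w x) = 1) → IsUnit (f.coeff 0)) := by
  classical
  cases nonempty_fintype M
  refine ⟨∏ x, (X - C ⟨w x, hw x⟩), monic_prod_of_monic _ _ (fun x _ => monic_X_sub_C _), ?_,
    fun hu => ?_⟩
  · funext y
    have h1 : (aeval w (∏ x, (X - C (⟨w x, hw x⟩ : A)))) y =
        aeval (w y) (∏ x, (X - C (⟨w x, hw x⟩ : A))) :=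
      (Polynomial.aeval_algHom_apply (Pi.evalAlgHom A (fun _ : M => K) y) w _).symm
    rw [h1, map_prod, Pi.zero_apply]
    refine Finset.prod_eq_zero (Finset.mem_univ y) ?_
    rw [map_sub, aeval_X, aeval_C]
    exact sub_self (w y)
  · rw [coeff_zero_eq_eval_zero, eval_prod]
    refine (Submonoid.prod_mem (IsUnit.submonoid A) fun x _ => ?_)
    rw [eval_sub, eval_X, eval_C, zero_sub]
    refine IsUnit.neg ?_
    exact (A.valuation_eq_one_iff ⟨w x, hw x⟩).mpr (hu x)

lemma isIntegral_of_values (w : M → K) (hw : ∀ x, w x ∈ A) : IsIntegral A w := by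
  obtain ⟨f, hf, h0, -⟩ := exists_monic w hw
  exact ⟨f, hf, h0⟩

/-- a function with unit values is invertible in any algebra containing it. -/
lemma inv_mem (L : Subalgebra A (M → K)) {w : M → K} (hw : w ∈ L)
    (hu : ∀ x, A.valuation (w x) = 1) : (fun x => (w x)⁻¹) ∈ L := by
  have hwA : ∀ x, w x ∈ A := fun x => (A.valuation_le_one_iff _).mp (hu x).le
  obtain ⟨f, hf, h0, h1⟩ := exists_monic w hwA
  obtain ⟨u, hu'⟩ := h1 hu
  have h2 := congrArg (aeval w) (X_mul_divX_add f)
  rw [h0, map_add, map_mul, aeval_X, aeval_C] at h2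
  have h3 : (fun x => (w x)⁻¹) = (-(((u⁻¹ : Aˣ) : A))) • aeval w f.divX := by
    funext x
    have hwx : w x ≠ 0 := by
      intro h
      have := hu x
      rw [h, map_zero] at this
      exact zero_ne_one this
    have h4 := congrFun h2 x
    have h5 : w x * (aeval w f.divX) x + ((f.coeff 0 : A) : K) = 0 := h4
    rw [← hu'] at h5
    have h6 : (((u⁻¹ : Aˣ) : A) : K) * ((u : A) : K) = 1 := by
      exact congrArg (fun a : A => (a : K)) (u.inv_mul)
    have h7 : ((-(((u⁻¹ : Aˣ) : A))) • aeval w f.divX) x =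
        -((((u⁻¹ : Aˣ) : A) : K)) * (aeval w f.divX) x := by
      rw [Pi.smul_apply]
      rfl
    rw [h7]
    apply mul_left_cancel₀ hwx
    rw [mul_inv_cancel₀ hwx]
    linear_combination -h6 + (((u⁻¹ : Aˣ) : A) : K) * h5
  rw [h3]
  refine L.smul_mem ?_ _
  exact (Algebra.adjoin_le (Set.singleton_subset_iff.mpr hw))
    (Polynomial.aeval_mem_adjoin_singleton A w)

end alg

section chord

open Fermat.Agent.ECRed

variable {K : Type*} [Field K] [DecidableEq K] {A : ValuationSubring K} {M : Type*} [Finite M]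
  {E : Affine K}

/-- the coordinates of a family of points are in the algebra `L`. -/
structure Coord (L : Subalgebra A (M → K)) (R : M → E.Point) : Prop where
  ne : ∀ x, R x ≠ 0
  x_mem : (fun x => xc (R x)) ∈ L
  y_mem : (fun x => yc (R x)) ∈ L

omit [DecidableEq K] [Finite M] in
lemma const_mem (L : Subalgebra A (M → K)) {a : K} (ha : a ∈ A) : (fun _ : M => a) ∈ L :=
  L.algebraMap_mem (⟨a, ha⟩ : A)

/-- adding a constant point. -/
theorem Coord.add_const (ha₁ : E.a₁ ∈ A) (ha₂ : E.a₂ ∈ A) (ha₃ : E.a₃ ∈ A)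
    {L : Subalgebra A (M → K)} {R : M → E.Point} (hR : Coord L R) {T : E.Point} (hT : T ≠ 0)
    (hx : xc T ∈ A) (hy : yc T ∈ A) (hu : ∀ x, A.valuation (xc (R x) - xc T) = 1) :
    Coord L (fun x => R x + T) := by
  have hne : ∀ x, xc (R x) ≠ xc T := by
    intro x h
    have := hu x
    rw [h, sub_self, map_zero] at this
    exact zero_ne_one this
  have hadd : ∀ x, ∃ h, R x + T = Point.some (E.addX (xc (R x)) (xc T)
      (E.slope (xc (R x)) (xc T) (yc (R x)) (yc T)))
      (E.addY (xc (R x)) (xc T) (yc (R x))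
      (E.slope (xc (R x)) (xc T) (yc (R x)) (yc T))) h := by
    intro x
    obtain ⟨hP', eP⟩ := exists_eq_some (hR.ne x)
    obtain ⟨hQ', eQ⟩ := exists_eq_some hT
    refine ⟨nonsingular_add hP' hQ' (fun h' => hne x h'.1), ?_⟩
    conv_lhs => rw [eP, eQ]
    exact Point.add_some (fun h' => hne x h'.1)
  set sl : M → K := fun x => E.slope (xc (R x)) (xc T) (yc (R x)) (yc T) with hsl
  have hslm : sl ∈ L := by
    have h1 : sl = ((fun x => yc (R x)) - (fun _ => yc T)) *
        (fun x => (xc (R x) - xc T)⁻¹) := by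
      funext x
      rw [hsl]
      simp only [Pi.mul_apply, Pi.sub_apply]
      rw [slope_of_X_ne (hne x), div_eq_mul_inv]
    rw [h1]
    exact L.mul_mem (L.sub_mem hR.y_mem (const_mem L hy))
      (inv_mem L (w := fun x => xc (R x) - xc T) (L.sub_mem hR.x_mem (const_mem L hx)) hu)
  have hX : (fun x => E.addX (xc (R x)) (xc T) (sl x)) ∈ L := by
    have h1 : (fun x => E.addX (xc (R x)) (xc T) (sl x)) =
        sl * sl + (fun _ => E.a₁) * sl - (fun _ => E.a₂) - (fun x => xc (R x)) -
          (fun _ => xc T) := by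
      funext x
      simp only [addX, Pi.mul_apply, Pi.sub_apply, Pi.add_apply]
      ring
    rw [h1]
    exact L.sub_mem (L.sub_mem (L.sub_mem (L.add_mem (L.mul_mem hslm hslm)
      (L.mul_mem (const_mem L ha₁) hslm)) (const_mem L ha₂)) hR.x_mem) (const_mem L hx)
  refine ⟨fun x => ?_, ?_, ?_⟩
  · obtain ⟨h, e⟩ := hadd x
    rw [e]
    exact Point.some_ne_zero _
  · have h1 : (fun x => xc (R x + T)) = (fun x => E.addX (xc (R x)) (xc T) (sl x)) := by
      funext x
      obtain ⟨h, e⟩ := hadd x
      rw [e]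
      rfl
    rw [h1]
    exact hX
  · have h1 : (fun x => yc (R x + T)) = - (sl * ((fun x => E.addX (xc (R x)) (xc T) (sl x)) -
        (fun x => xc (R x))) + (fun x => yc (R x))) -
        (fun _ => E.a₁) * (fun x => E.addX (xc (R x)) (xc T) (sl x)) - (fun _ => E.a₃) := by
      funext x
      obtain ⟨h, e⟩ := hadd x
      rw [e]
      simp only [Pi.mul_apply, Pi.sub_apply, Pi.add_apply, Pi.neg_apply, yc_some, addY, negY,
        negAddY, hsl]
    rw [h1]
    refine L.sub_mem (L.sub_mem (L.neg_mem (L.add_mem (L.mul_mem hslm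
      (L.sub_mem hX hR.x_mem)) hR.y_mem)) (L.mul_mem (const_mem L ha₁) hX)) (const_mem L ha₃)

end chord

end Fermat.Agent.ECFlat
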