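import Fermat.Agent.EC.MultNode
import Fermat.Agent.EC.RedGalois

/-!
# The component function at a place of multiplicative reduction, and `E₀`
-/

set_option autoImplicit false

open WeierstrassCurve WeierstrassCurve.Affine FermatAgent.ECVal

namespace Fermat.Agent.ECRed

section nodal

variable {F : Type*} [Field F] {W : Affine F}

lemma psi3_identity' {x y : F} (heq : W.Equation x y) :
    3 * x ^ 4 + W.b₂ * x ^ 3 + 3 * W.b₄ * x ^ 2 + 3 * W.b₆ * x + W.b₈ =
      (W.a₂ + 3 * x) * (2 * y + W.a₁ * x + W.a₃) ^ 2 +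
      W.a₁ * (W.a₁ * y - (3 * x ^ 2 + 2 * W.a₂ * x + W.a₄)) * (2 * y + W.a₁ * x + W.a₃)
      - (W.a₁ * y - (3 * x ^ 2 + 2 * W.a₂ * x + W.a₄)) ^ 2 := by
  rw [Affine.equation_iff] at heq
  simp only [WeierstrassCurve.b₂, WeierstrassCurve.b₄, WeierstrassCurve.b₆,
    WeierstrassCurve.b₈]
  linear_combination (-W.a₁ ^ 2 - 4 * W.a₂ - 12 * x) * heq

/-- on a nodal cubic, the nonsingular points are those with `x ≠ e`. -/
lemma nonsingular_iff_ne_node {e x y : F} (i4 : W.b₄ + W.b₂ * e + 6 * e ^ 2 = 0)
    (i6 : W.b₆ + 2 * W.b₄ * e + W.b₂ * e ^ 2 + 4 * e ^ 3 = 0)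
    (i8 : W.b₈ + 3 * W.b₆ * e + 3 * W.b₄ * e ^ 2 + W.b₂ * e ^ 3 + 3 * e ^ 4 = 0)
    (iB : W.b₂ + 12 * e ≠ 0) (h : W.Equation x y) : W.Nonsingular x y ↔ x ≠ e := by
  have h3 := psi3_identity' h
  have h2 : (2 * y + W.a₁ * x + W.a₃) ^ 2 = 4 * x ^ 3 + W.b₂ * x ^ 2 + 2 * W.b₄ * x + W.b₆ := by
    have := h
    rw [Affine.equation_iff] at this
    simp only [WeierstrassCurve.b₂, WeierstrassCurve.b₄, WeierstrassCurve.b₆]
    linear_combination 4 * this
  rw [Affine.nonsingular_iff']
  constructor
  · rintro ⟨-, hns⟩ rfl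
    have hψ : 2 * y + W.a₁ * x + W.a₃ = 0 := by
      apply (pow_eq_zero_iff (n := 2) (two_ne_zero)).mp
      rw [h2]
      linear_combination i6
    have hG : W.a₁ * y - (3 * x ^ 2 + 2 * W.a₂ * x + W.a₄) = 0 := by
      apply (pow_eq_zero_iff (n := 2) (two_ne_zero)).mp
      rw [hψ] at h3
      linear_combination h3 - i8
    rcases hns with h' | h'
    · exact h' hG
    · exact h' hψ
  · intro hx
    refine ⟨h, ?_⟩
    by_contra hcon
    push Not at hcon
    obtain ⟨hG, hψ⟩ := hcon
    rw [hψ, hG] at h3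
    rw [hψ] at h2
    have hX : x - e ≠ 0 := sub_ne_zero.mpr hx
    have e1 : (x - e) ^ 2 * (4 * (x - e) + (W.b₂ + 12 * e)) = 0 := by
      linear_combination -h2 - 2 * (x - e) * i4 - i6
    have e2 : (x - e) ^ 3 * (3 * (x - e) + (W.b₂ + 12 * e)) = 0 := by
      linear_combination h3 - 3 * (x - e) ^ 2 * i4 - 3 * (x - e) * i6 - i8
    have e1' := (mul_eq_zero.mp e1).resolve_left (pow_ne_zero 2 hX)
    have e2' := (mul_eq_zero.mp e2).resolve_left (pow_ne_zero 3 hX)
    have : x - e = 0 := by linear_combination e1' - e2'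
    exact hX this

end nodal

section comp

variable {K : Type*} [Field K] [DecidableEq K]
  {w : QVal K} {W : Affine K} {e D : K} {h : ℚ}

lemma rel_eq {h a b : ℚ} (hh : 0 < h) (ha0 : 0 ≤ a) (ha : a ≤ h) (hb0 : 0 ≤ b) (hb : b ≤ h)
    (hab : QVal.Rel h a b) : a = b := by
  obtain ⟨j, hj | hj⟩ := hab
  · have h1 : (j : ℚ) < 1 := by
      by_contra hcon
      rw [not_lt] at hcon
      nlinarith
    have h2 : (-1 : ℚ) < j := by
      by_contra hcon
      rw [not_lt] at hcon
      nlinarith
    have h1' : j < 1 := by exact_mod_cast h1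
    have h2' : -1 < j := by exact_mod_cast h2
    have : j = 0 := by omega
    subst this
    simpa using hj
  · have h1 : (j : ℚ) < 2 := by
      by_contra hcon
      rw [not_lt] at hcon
      nlinarith
    have h2 : (-1 : ℚ) < j := by
      by_contra hcon
      rw [not_lt] at hcon
      nlinarith
    have h1' : j < 2 := by exact_mod_cast h1
    have h2' : -1 < j := by exact_mod_cast h2
    have : j = 0 ∨ j = 1 := by omega
    rcases this with rfl | rfl
    · simp at hj; linarith
    · simp at hj; linarith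

/-- equal component values: the sum or the difference is in the identity component. -/
lemma pcomp_eq_imp (N : NodeData w W e D h) {P Q : W.Point}
    (hPQ : pcomp w e h P = pcomp w e h Q) :
    pcomp w e h (P - Q) = 0 ∨ pcomp w e h (P + Q) = 0 := by
  rcases pcomp_pair N P Q with ⟨-, h2⟩ | ⟨h1, -⟩
  · left
    rw [hPQ, sub_self] at h2
    exact rel_eq N.hh (pcomp_nonneg N _) (pcomp_le N _) le_rfl N.hh.le h2
  · right
    rw [hPQ, sub_self] at h1
    exact rel_eq N.hh (pcomp_nonneg N _) (pcomp_le N _) le_rfl N.hh.le h1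

/-- adding a point of the identity component does not change the component value. -/
lemma pcomp_add_of_eq_zero (N : NodeData w W e D h) {P Q : W.Point}
    (hP : pcomp w e h P = 0) : pcomp w e h (P + Q) = pcomp w e h Q := by
  have key : QVal.Rel h (pcomp w e h (P + Q)) (pcomp w e h Q) := by
    rcases pcomp_pair N P Q with ⟨h1, -⟩ | ⟨h1, -⟩
    · rwa [hP, zero_add] at h1
    · rw [hP, zero_sub] at h1
      exact h1.trans ⟨0, Or.inr (by simp)⟩
  exact rel_eq N.hh (pcomp_nonneg N _) (pcomp_le N _) (pcomp_nonneg N _) (pcomp_le N _) key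

end comp

section roots

variable {K : Type*} [Field K] {Γ₀ : Type*} [LinearOrderedCommGroupWithZero Γ₀]
  {v : Valuation K Γ₀}

/-- two roots reducing to the node are close to each other. -/
lemma NodeRoot.sub_le (h2 : (2 : K) ≠ 0) {W : WeierstrassCurve K} {e D e' D' : K}
    (N : NodeRoot v W e D)
    (N' : NodeRoot v W e' D') : v (e' - e) ≤ v D := by
  by_cases hX : e' - e = 0
  · rw [hX, map_zero]; exact zero_le
  set X := e' - e with hXdef
  have he' : e' = e + X := by rw [hXdef]; ring
  set B := W.b₂ + 12 * e with hB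
  have k1 : 4 * X ^ 2 + B * X + 4 * D = 0 := by
    have h6 := N'.h6
    rw [he'] at h6
    have : X * (4 * X ^ 2 + B * X + 4 * D) = 0 := by
      rw [hB]
      linear_combination h6 - N.h6 - 2 * X * N.h4
    exact (mul_eq_zero.mp this).resolve_left hX
  have k2 : X ^ 2 = D + D' := by
    have h4 := N'.h4
    rw [he'] at h4
    apply mul_left_cancel₀ h2
    rw [hB] at k1
    linear_combination h4 - N.h4 - k1
  have hvX : v X < 1 := by
    have : v (X ^ 2) < 1 := by rw [k2]; exact v.map_add_lt N.vD N'.vD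
    rw [map_pow] at this
    by_contra hcon
    rw [not_lt] at hcon
    exact absurd this (not_lt.mpr (one_le_pow₀ hcon))
  have k3 : v X = v (4 * (D + X ^ 2)) := by
    have h1 : B * X = -(4 * (D + X ^ 2)) := by linear_combination k1
    have h2 := congrArg v h1
    rw [map_mul, N.vB, one_mul, Valuation.map_neg] at h2
    exact h2
  have n4 : v (4 : K) ≤ 1 := by
    have := natCast_val_le v (K := K) 4
    push_cast at this; exact this
  have k4 : v X ≤ v (D + X ^ 2) := by
    rw [k3, map_mul]
    exact mul_le_of_le_one_left' n4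
  by_contra hcon
  rw [not_le] at hcon
  have hX0 : v X ≠ 0 := (Valuation.ne_zero_iff v).mpr hX
  have h5 : v (X ^ 2) < v X := by
    rw [map_pow, sq]
    calc v X * v X < 1 * v X := by
          exact mul_lt_mul_of_pos_right hvX (zero_lt_iff.mpr hX0)
      _ = v X := one_mul _
  exact absurd k4 (not_le.mpr (v.map_add_lt hcon h5))

end roots

section qval

variable {K : Type*} [Field K] {w : QVal K}

/-- the component function only depends on the class modulo elements of valuation `≥ h`. -/
lemma comp_congr {h : ℚ} (hh : 0 < h) {a b : K} (hab : w.Ge h (a - b)) :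
    w.comp h a = w.comp h b := by
  rcases QVal.comp_cases (w := w) (h := h) b with ⟨r, hr, hb⟩ | ⟨r, hr, hrh, hb⟩ | hb
  · have ha : w.Is r a := by
      have := hb.add_gt (hab.gt (show r < h by linarith))
      rwa [add_sub_cancel] at this
    rw [QVal.comp_of_is_nonpos ha hr, QVal.comp_of_is_nonpos hb hr]
  · have ha : w.Is r a := by
      have := hb.add_gt (hab.gt hrh)
      rwa [add_sub_cancel] at this
    rw [QVal.comp_of_is ha hr.le hrh.le, QVal.comp_of_is hb hr.le hrh.le]
  · have ha : w.Ge h a := by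
      have := hb.add hab
      rwa [add_sub_cancel] at this
    rw [QVal.comp_of_ge hh ha, QVal.comp_of_ge hh hb]

end qval

end Fermat.Agent.ECRed
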