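import Fermat.Agent.EC.MultPlace

/-!
# Inertia acts trivially on the component group

At a place of multiplicative reduction of odd residue characteristic, `σ P - P ∈ E₀` for all `σ`
in the inertia group.
-/

set_option autoImplicit false

open WeierstrassCurve WeierstrassCurve.Affine FermatAgent.ECVal
open scoped WeierstrassCurve.Affine

namespace Fermat.Agent.ECRed

section formulas

variable {F : Type*} [Field F] [DecidableEq F] {W : Affine F}

/-- `ψ₂ = 2y + a₁x + a₃` -/
def psi (P : W.Point) : F := 2 * yc P + W.a₁ * xc P + W.a₃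

omit [DecidableEq F] in
lemma psi_neg {P : W.Point} (hP : P ≠ 0) : psi (-P) = - psi P := by
  unfold psi
  rw [yc_neg hP, xc_neg]
  simp only [negY]
  ring

omit [DecidableEq F] in
lemma psi_sq {P : W.Point} (hP : P ≠ 0) :
    psi P ^ 2 = 4 * xc P ^ 3 + W.b₂ * xc P ^ 2 + 2 * W.b₄ * xc P + W.b₆ := by
  have h := equation_of_ne_zero hP
  rw [← sub_negY_sq h]
  unfold psi negY
  ring

/-- `x(P+Q) - x(P-Q)` -/
lemma xc_add_sub_xc_sub {P Q : W.Point} (hP : P ≠ 0) (hQ : Q ≠ 0) (h : xc P ≠ xc Q) :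
    (xc (P + Q) - xc (P - Q)) * (xc P - xc Q) ^ 2 = - (psi P * psi Q) := by
  obtain ⟨hP', eP⟩ := exists_eq_some hP
  obtain ⟨hQ', eQ⟩ := exists_eq_some hQ
  have hx' : xc P - xc Q ≠ 0 := sub_ne_zero.mpr h
  have e1 : P + Q = Point.some _ _ (nonsingular_add hP' hQ' (fun h' => h h'.1)) := by
    conv_lhs => rw [eP, eQ]
    exact Point.add_some (fun h' => h h'.1)
  have hnQ' := (nonsingular_neg (xc Q) (yc Q)).mpr hQ'
  have e2 : P - Q = Point.some _ _ (nonsingular_add hP' hnQ' (fun h' => h h'.1)) := by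
    conv_lhs => rw [sub_eq_add_neg, eP, eQ, Point.neg_some]
    exact Point.add_some (fun h' => h h'.1)
  rw [e1, e2, xc_some, xc_some, slope_of_X_ne h, slope_of_X_ne h]
  unfold psi
  simp only [addX, negY]
  field_simp
  ring

end formulas

section dir

open QVal

variable {K : Type*} [Field K] [DecidableEq K] {w : QVal K} {W : Affine K} {e D : K} {h : ℚ}

omit [DecidableEq K] in
lemma psi_sq_node (N : NodeData w W e D h) {P : W.Point} (hP : P ≠ 0) :
    psi P ^ 2 = 4 * (xc P - e) ^ 3 + (W.b₂ + 12 * e) * (xc P - e) ^ 2 +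
      4 * D * (xc P - e) := by
  rw [psi_sq hP]
  linear_combination 2 * (xc P - e) * N.h4 + N.h6

omit [DecidableEq K] in
/-- `v(ψ) = v(x - e)` if `0 < v(x - e) < h`. -/
lemma psi_is (N : NodeData w W e D h) {P : W.Point} (hP : P ≠ 0) {c : ℚ} (hc0 : 0 < c)
    (hch : c < h) (hX : w.Is c (xc P - e)) : w.Is c (psi P) := by
  have h1 : w.Is (2 * c) (psi P ^ 2) := by
    rw [psi_sq_node N hP]
    have e1 : w.Gt (2 * c) (4 * (xc P - e) ^ 3) :=
      (ge_four.mul (hX.pow 3).ge).gt (by push_cast; linarith)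
    have e2 : w.Is (2 * c) ((W.b₂ + 12 * e) * (xc P - e) ^ 2) :=
      (N.hB.mul hX.sq).congr (by ring)
    have e3 : w.Gt (2 * c) (4 * D * (xc P - e)) :=
      ((ge_four.mul N.hD.ge).mul hX.ge).gt (by linarith)
    exact (e1.add_is e2).add_gt e3
  have h0 : psi P ≠ 0 := by
    intro h0
    rw [h0] at h1
    exact h1.1 (by ring)
  refine ⟨h0, ?_⟩
  have h2 : w.Is (2 * w.val (psi P)) (psi P ^ 2) := (Is.of_ne h0).sq
  have := h1.unique h2
  linarith

/-- Two points whose direction agree (and of the same component value, `0 < c < h`) differ by a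
point of the identity component. -/
lemma pcomp_sub_eq_zero_of_dir (N : NodeData w W e D h) (h2 : w.Is 0 (2 : K)) {P Q : W.Point}
    {c : ℚ} (hc0 : 0 < c) (hch : c < h) (hP : P ≠ 0) (hQ : Q ≠ 0) (hXP : w.Is c (xc P - e))
    (hXQ : w.Is c (xc Q - e))
    (hdir : w.Gt (2 * c) ((xc P - e) * psi Q - (xc Q - e) * psi P)) :
    pcomp w e h (P - Q) = 0 := by
  by_contra hne
  have hpc : ∀ {R : W.Point}, R ≠ 0 → pcomp w e h R = w.comp h (xc R - e) := by
    intro R hR
    obtain ⟨hR', eR⟩ := exists_eq_some hR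
    conv_lhs => rw [eR]
    rfl
  have hsum : pcomp w e h (P + Q) = 0 := by
    refine (pcomp_eq_imp N (P := P) (Q := Q) ?_).resolve_left hne
    rw [hpc hP, hpc hQ, QVal.comp_of_is hXP hc0.le hch.le, QVal.comp_of_is hXQ hc0.le hch.le]
  have hψP := psi_is N hP hc0 hch hXP
  have hψQ := psi_is N hQ hc0 hch hXQ
  by_cases hx : xc P = xc Q
  · rcases eq_or_eq_neg_of_xc_eq hP hQ hx with h' | h'
    · apply hne
      rw [h', sub_self, pcomp_zero]
    · -- opposite points have opposite directions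
      have h1 : psi P = - psi Q := by rw [h', psi_neg hQ]
      rw [h1, ← hx] at hdir
      have h3 : w.Is (0 + (c + c)) (2 * ((xc P - e) * psi Q)) := h2.mul (hXP.mul hψQ)
      have h4 : (xc P - e) * psi Q - (xc P - e) * -psi Q = 2 * ((xc P - e) * psi Q) := by ring
      rw [h4] at hdir
      have := h3.lt_of_gt hdir
      linarith
  · have hPQ : P + Q ≠ 0 := by
      intro h0
      apply hx
      rw [eq_neg_of_add_eq_zero_left h0, xc_neg]
    have hPQ' : P - Q ≠ 0 := by
      intro h0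
      apply hx
      rw [sub_eq_zero.mp h0]
    have fs := shift_sum e hP hQ hx
    have hd := xc_add_sub_xc_sub hP hQ hx
    have i4 : W.b₄ + e * W.b₂ + 6 * e ^ 2 = 2 * D := by rw [← N.h4]; ring
    have i6 : W.b₆ + 2 * e * W.b₄ + e ^ 2 * W.b₂ + 4 * e ^ 3 = 0 := by rw [← N.h6]; ring
    rw [i4, i6, add_zero] at fs
    rw [hpc hPQ] at hsum
    rw [hpc hPQ'] at hne
    set X := xc P - e with hX
    set Y := xc Q - e with hY
    set s := xc (P + Q) - e with hs
    set t := xc (P - Q) - e with ht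
    have hXY : xc P - xc Q = X - Y := by rw [hX, hY]; ring
    have hst : xc (P + Q) - xc (P - Q) = s - t := by rw [hs, ht]; ring
    rw [hXY] at fs hd
    rw [hst] at hd
    -- valuation of `X - Y`
    have hXY0 : X - Y ≠ 0 := by
      rw [← hXY]; exact sub_ne_zero.mpr hx
    have hd' := Is.of_ne (w := w) hXY0
    set d := w.val (X - Y) with hdd
    -- `s` has valuation `r ≤ 0`
    obtain ⟨r, hr, hsr⟩ : ∃ r ≤ 0, w.Is r s := by
      rcases QVal.comp_cases (w := w) (h := h) s with ⟨r, hr, h1⟩ | ⟨r, hr, hrh, h1⟩ | h1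
      · exact ⟨r, hr, h1⟩
      · rw [QVal.comp_of_is h1 hr.le hrh.le] at hsum
        exact absurd hsum hr.ne'
      · rw [QVal.comp_of_ge N.hh h1] at hsum
        exact absurd hsum N.hh.ne'
    have htgt : w.Gt 0 t := by
      by_contra hcon
      exact hne (QVal.comp_of_not_gt hcon)
    -- the sum
    have f1 : w.Gt (2 * c) ((X + Y) * (2 * X * Y + 2 * D)) := by
      have a1 : w.Gt (2 * c) ((X + Y) * (2 * X * Y)) :=
        ((hXP.ge.add hXQ.ge).mul ((ge_two.mul hXP.ge).mul hXQ.ge)).gt (by linarith)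
      have a2 : w.Gt (2 * c) ((X + Y) * (2 * D)) :=
        ((hXP.ge.add hXQ.ge).mul (ge_two.mul N.hD.ge)).gt (by linarith)
      have : (X + Y) * (2 * X * Y + 2 * D) = (X + Y) * (2 * X * Y) + (X + Y) * (2 * D) := by ring
      rw [this]
      exact a1.add a2
    have f2 : w.Is (2 * c) ((W.b₂ + 12 * e) * X * Y) :=
      ((N.hB.mul hXP).mul hXQ).congr (by ring)
    have f3 : w.Is (2 * c) ((s + t) * (X - Y) ^ 2) := by
      rw [fs]
      exact f1.add_is f2
    have f4 : w.Is (r + 2 * d) ((s + t) * (X - Y) ^ 2) :=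
      (hsr.add_gt (htgt.mono hr)).mul hd'.sq
    have f5 : r + 2 * d = 2 * c := f4.unique f3
    -- `B X Y - ψψ'` is small
    have f6 : w.Gt (2 * c) ((W.b₂ + 12 * e) * X * Y - psi P * psi Q) := by
      have g1 : X * ((W.b₂ + 12 * e) * X * Y - psi P * psi Q) =
          -(psi P * (X * psi Q - Y * psi P)) - Y * (4 * X ^ 3 + 4 * D * X) := by
        have := psi_sq_node N hP
        rw [← hX] at this
        linear_combination -Y * this
      have g2 : w.Gt (3 * c) (X * ((W.b₂ + 12 * e) * X * Y - psi P * psi Q)) := by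
        rw [g1]
        have k1 : w.Gt (3 * c) (psi P * (X * psi Q - Y * psi P)) :=
          (hψP.ge.mul_gt hdir).mono (by linarith)
        have k2 : w.Gt (3 * c) (Y * (4 * X ^ 3 + 4 * D * X)) := by
          have l1 : w.Gt (2 * c) (4 * X ^ 3) :=
            (ge_four.mul (hXP.pow 3).ge).gt (by push_cast; linarith)
          have l2 : w.Gt (2 * c) (4 * D * X) :=
            ((ge_four.mul N.hD.ge).mul hXP.ge).gt (by linarith)
          exact (hXQ.ge.mul_gt (l1.add l2)).mono (by linarith)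
        exact k1.neg.sub k2
      exact (g2.of_mul hXP).mono (by linarith)
    have f7 : 2 * s * (X - Y) ^ 2 = (X + Y) * (2 * X * Y + 2 * D) +
        ((W.b₂ + 12 * e) * X * Y - psi P * psi Q) := by
      linear_combination fs + hd
    have f8 : w.Is (0 + r + 2 * d) (2 * s * (X - Y) ^ 2) := (h2.mul hsr).mul hd'.sq
    rw [f7] at f8
    have := f8.lt_of_gt (f1.add f6)
    linarith

end dir

end Fermat.Agent.ECRed
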