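import Fermat.Agent.ECVal.Component
import Fermat.Agent.ECVal.QbarVal
import Mathlib.Algebra.CubicDiscriminant
import Mathlib.AlgebraicGeometry.EllipticCurve.Weierstrass

/-!
# Existence of node data at a place of multiplicative reduction
-/

set_option autoImplicit false

open WeierstrassCurve WeierstrassCurve.Affine FermatAgent.ECVal

namespace Fermat.Agent.ECRed

/-- the three `x`-coordinates of the `2`-torsion points -/
theorem exists_three_roots {K : Type*} [Field K] [IsAlgClosed K] (h2 : (2 : K) ≠ 0)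
    (W : WeierstrassCurve K) :
    ∃ x y z : K, W.b₂ = -4 * (x + y + z) ∧ W.b₄ = 2 * (x * y + x * z + y * z) ∧
      W.b₆ = -4 * (x * y * z) ∧ W.Δ = 16 * ((x - y) * (x - z) * (y - z)) ^ 2 := by
  have h4 : (4 : K) ≠ 0 := by
    have : (4 : K) = 2 * 2 := by norm_num
    rw [this]; exact mul_ne_zero h2 h2
  set P := W.twoTorsionPolynomial with hP
  have ha : P.a ≠ 0 := h4
  obtain ⟨x, y, z, h3⟩ := (Cubic.splits_iff_roots_eq_three (φ := RingHom.id K) ha).mp
    (IsAlgClosed.splits _)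
  have hb := Cubic.b_eq_three_roots ha h3
  have hc := Cubic.c_eq_three_roots ha h3
  have hd := Cubic.d_eq_three_roots ha h3
  simp only [RingHom.id_apply] at hb hc hd
  have a1 : P.a = 4 := rfl
  have a2 : P.b = W.b₂ := rfl
  have a3 : P.c = 2 * W.b₄ := rfl
  have a4 : P.d = W.b₆ := rfl
  rw [a1, a2] at hb
  rw [a1, a3] at hc
  rw [a1, a4] at hd
  have e4 : W.b₄ = 2 * (x * y + x * z + y * z) := by
    apply mul_left_cancel₀ h2
    linear_combination hc
  refine ⟨x, y, z, by linear_combination hb, e4, by linear_combination hd, ?_⟩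
  have hrel := W.b_relation
  have h8 : W.b₈ = (-4 * (x + y + z)) * (-(x * y * z)) - (x * y + x * z + y * z) ^ 2 := by
    apply mul_left_cancel₀ h4
    rw [hrel, hb, e4, hd]
    ring
  rw [WeierstrassCurve.Δ, h8, hb, e4, hd]
  ring

section val

variable {K : Type*} [Field K] {Γ₀ : Type*} [LinearOrderedCommGroupWithZero Γ₀]
  (v : Valuation K Γ₀)

/-- if `|D| ≥ 1`, `|D²(B²-64D)| < 1`, `|B²-48D| = 1` then `|16D| = 1`. -/
lemma aux_D {B D : K} (hc : v (B ^ 2 - 48 * D) = 1) (hΔ : v (D ^ 2 * (B ^ 2 - 64 * D)) < 1)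
    (hD : 1 ≤ v D) : v (16 * D) = 1 := by
  have h1 : v (B ^ 2 - 64 * D) < 1 := by
    by_contra hcon
    rw [not_lt] at hcon
    rw [map_mul, map_pow] at hΔ
    exact absurd hΔ (not_lt.mpr (one_le_mul (one_le_pow₀ hD) hcon))
  have h2 : 16 * D = (B ^ 2 - 48 * D) - (B ^ 2 - 64 * D) := by ring
  rw [h2, Valuation.map_sub_eq_of_lt_left, hc]
  rw [hc]; exact h1

/-- The data of a `2`-torsion `x`-coordinate reducing to the node. -/
structure NodeRoot (W : WeierstrassCurve K) (e D : K) : Prop where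
  h6 : W.b₆ + 2 * W.b₄ * e + W.b₂ * e ^ 2 + 4 * e ^ 3 = 0
  h4 : W.b₄ + W.b₂ * e + 6 * e ^ 2 = 2 * D
  h8 : W.b₈ + 3 * W.b₆ * e + 3 * W.b₄ * e ^ 2 + W.b₂ * e ^ 3 + 3 * e ^ 4 = - D ^ 2
  hΔ : W.Δ = D ^ 2 * ((W.b₂ + 12 * e) ^ 2 - 64 * D)
  hc : W.c₄ = (W.b₂ + 12 * e) ^ 2 - 48 * D
  vD : v D < 1
  vB : v (W.b₂ + 12 * e) = 1
  ve : v e ≤ 1

/-- algebra of one root -/
lemma nodeRoot_of_roots (h2 : (2 : K) ≠ 0) {W : WeierstrassCurve K} {x y z : K}
    (e2 : W.b₂ = -4 * (x + y + z)) (e4 : W.b₄ = 2 * (x * y + x * z + y * z))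
    (e6 : W.b₆ = -4 * (x * y * z)) :
    W.b₆ + 2 * W.b₄ * x + W.b₂ * x ^ 2 + 4 * x ^ 3 = 0 ∧
    W.b₄ + W.b₂ * x + 6 * x ^ 2 = 2 * ((x - y) * (x - z)) ∧
    W.b₈ + 3 * W.b₆ * x + 3 * W.b₄ * x ^ 2 + W.b₂ * x ^ 3 + 3 * x ^ 4 =
      - ((x - y) * (x - z)) ^ 2 ∧
    W.Δ = ((x - y) * (x - z)) ^ 2 * ((W.b₂ + 12 * x) ^ 2 - 64 * ((x - y) * (x - z))) ∧
    W.c₄ = (W.b₂ + 12 * x) ^ 2 - 48 * ((x - y) * (x - z)) := by
  have h4 : (4 : K) ≠ 0 := by
    have : (4 : K) = 2 * 2 := by norm_num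
    rw [this]; exact mul_ne_zero h2 h2
  have hrel := W.b_relation
  have h8 : W.b₈ = (-4 * (x + y + z)) * (-(x * y * z)) - (x * y + x * z + y * z) ^ 2 := by
    apply mul_left_cancel₀ h4
    rw [hrel, e2, e4, e6]
    ring
  refine ⟨by rw [e2, e4, e6]; ring, by rw [e2, e4]; ring, by rw [h8, e2, e4, e6]; ring, ?_, ?_⟩
  · rw [WeierstrassCurve.Δ, h8, e2, e4, e6]; ring
  · rw [WeierstrassCurve.c₄, e2, e4]; ring

lemma mul_lt_one_of_le_of_lt₀ {a b : Γ₀} (ha : a ≤ 1) (hb : b < 1) : a * b < 1 :=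
  lt_of_le_of_lt (mul_le_of_le_one_left' ha) hb

lemma natCast_val_le (n : ℕ) : v (n : K) ≤ 1 := by
  have : ((n : v.integer) : K) = n := by push_cast; rfl
  rw [← this]; exact (n : v.integer).2

theorem exists_nodeRoot [IsAlgClosed K] (h2 : (2 : K) ≠ 0) (W : WeierstrassCurve K)
    (hb2 : v W.b₂ ≤ 1) (hb4 : v W.b₄ ≤ 1) (hb6 : v W.b₆ ≤ 1)
    (hc : v W.c₄ = 1) (hΔ : v W.Δ < 1) : ∃ e D : K, NodeRoot v W e D := by
  obtain ⟨x, y, z, e2, e4, e6, eΔ⟩ := exists_three_roots h2 W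
  -- one of the three `D`'s is small
  have key : ∃ x y z : K, W.b₂ = -4 * (x + y + z) ∧ W.b₄ = 2 * (x * y + x * z + y * z) ∧
      W.b₆ = -4 * (x * y * z) ∧ v ((x - y) * (x - z)) < 1 := by
    by_contra hcon
    push Not at hcon
    have hx := hcon x y z e2 e4 e6
    have hy := hcon y x z (by rw [e2]; ring) (by rw [e4]; ring) (by rw [e6]; ring)
    have hz := hcon z x y (by rw [e2]; ring) (by rw [e4]; ring) (by rw [e6]; ring)
    obtain ⟨-, -, -, f1, f2⟩ := nodeRoot_of_roots h2 e2 e4 e6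
    obtain ⟨-, -, -, g1, g2⟩ := nodeRoot_of_roots (x := y) (y := x) (z := z) h2
      (by rw [e2]; ring) (by rw [e4]; ring) (by rw [e6]; ring)
    obtain ⟨-, -, -, k1, k2⟩ := nodeRoot_of_roots (x := z) (y := x) (z := y) h2
      (by rw [e2]; ring) (by rw [e4]; ring) (by rw [e6]; ring)
    have d1 := aux_D v (by rw [← f2]; exact hc) (by rw [← f1]; exact hΔ) hx
    have d2 := aux_D v (by rw [← g2]; exact hc) (by rw [← g1]; exact hΔ) hy
    have d3 := aux_D v (by rw [← k2]; exact hc) (by rw [← k1]; exact hΔ) hz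
    have hprod : (16 * ((x - y) * (x - z))) * (16 * ((y - x) * (y - z))) *
        (16 * ((z - x) * (z - y))) = -((16 : K) ^ 2 * W.Δ) := by
      rw [eΔ]; ring
    have h1 : v ((16 * ((x - y) * (x - z))) * (16 * ((y - x) * (y - z))) *
        (16 * ((z - x) * (z - y)))) = 1 := by
      rw [map_mul, map_mul, d1, d2, d3, one_mul, one_mul]
    rw [hprod, Valuation.map_neg, map_mul] at h1
    have h16 : v ((16 : K) ^ 2) ≤ 1 := by
      have := natCast_val_le v (K := K) (16 ^ 2)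
      rwa [Nat.cast_pow, Nat.cast_ofNat] at this
    exact absurd h1 (mul_lt_one_of_le_of_lt₀ h16 hΔ).ne
  obtain ⟨x, y, z, e2, e4, e6, hD⟩ := key
  obtain ⟨i1, i2, i3, i4, i5⟩ := nodeRoot_of_roots h2 e2 e4 e6
  set D := (x - y) * (x - z) with hDdef
  have v48 : v (48 * D) < 1 := by
    rw [map_mul]
    have := natCast_val_le v (K := K) 48
    push_cast at this
    exact mul_lt_one_of_le_of_lt₀ this hD
  have vB2 : v ((W.b₂ + 12 * x) ^ 2) = 1 := by
    have : (W.b₂ + 12 * x) ^ 2 = W.c₄ + 48 * D := by rw [i5]; ring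
    rw [this, Valuation.map_add_eq_of_lt_left, hc]
    rw [hc]; exact v48
  have vB : v (W.b₂ + 12 * x) = 1 := by
    rw [map_pow] at vB2
    exact (pow_eq_one_iff.mp vB2).resolve_right two_ne_zero
  refine ⟨x, D, ⟨i1, i2, i3, i4, i5, hD, vB, ?_⟩⟩
  -- integrality of `x`
  by_contra hx
  rw [not_le] at hx
  have hvx0 : v x ≠ 0 := (zero_lt_one.trans hx).ne'
  have hx0 : x ≠ 0 := by
    intro h
    rw [h, map_zero] at hvx0
    exact hvx0 rfl
  have n2 : v (2 : K) ≤ 1 := by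
    have := natCast_val_le v (K := K) 2
    push_cast at this; exact this
  have n4 : v (4 : K) ≤ 1 := by
    have := natCast_val_le v (K := K) 4
    push_cast at this; exact this
  have n12 : v (12 : K) ≤ 1 := by
    have := natCast_val_le v (K := K) 12
    push_cast at this; exact this
  have n3 : v (3 : K) ≤ 1 := by
    have := natCast_val_le v (K := K) 3
    push_cast at this; exact this
  -- `x (4 x + b₂) = - (2 b₄ + b₆ / x)`
  have k1 : x * (4 * x + W.b₂) = -(2 * W.b₄ + W.b₆ / x) := by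
    field_simp
    linear_combination i1
  have k2 : v (W.b₆ / x) ≤ 1 := by
    rw [map_div₀]
    exact div_le_one_of_le₀ (hb6.trans hx.le) zero_le
  have k3 : v (x * (4 * x + W.b₂)) ≤ 1 := by
    rw [k1, Valuation.map_neg]
    refine v.map_add_le ?_ k2
    rw [map_mul]; exact mul_le_one' n2 hb4
  have k4 : v (4 * x + W.b₂) < 1 := by
    rw [map_mul] at k3
    by_contra hcon
    rw [not_lt] at hcon
    exact absurd k3 (not_le.mpr (lt_of_lt_of_le hx (le_mul_of_one_le_right' hcon)))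
  -- `2 x²` is integral
  have k5 : 2 * x ^ 2 = 2 * D - W.b₄ - x * (4 * x + W.b₂) := by
    linear_combination i2
  have k6 : v (2 * x ^ 2) ≤ 1 := by
    rw [k5]
    refine v.map_sub_le (v.map_sub_le ?_ hb4) k3
    rw [map_mul]; exact mul_le_one' n2 hD.le
  -- the valuation of `4 x`
  have k7 : v (4 * x) < 1 := by
    have : 4 * x = 2 * (2 * x) := by ring
    rw [map_mul, map_pow] at k6
    rw [this, map_mul, map_mul]
    -- `|2| |x|² ≤ 1` so `|2| ≤ |x|⁻²`, `|2|²|x| ≤ |x|⁻³ < 1`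
    have h5 : v (2 : K) * v x < 1 := by
      have h6 : (v (2 : K) * v x) * v x ≤ 1 := by
        calc (v (2 : K) * v x) * v x = v 2 * v x ^ 2 := by rw [mul_assoc, ← sq]
          _ ≤ 1 := k6
      by_contra hcon
      rw [not_lt] at hcon
      exact absurd h6 (not_le.mpr (lt_of_lt_of_le hx (le_mul_of_one_le_left' hcon)))
    exact mul_lt_one_of_le_of_lt₀ n2 h5
  have k8 : v W.b₂ < 1 := by
    have : W.b₂ = (4 * x + W.b₂) - 4 * x := by ring
    rw [this]
    exact v.map_sub_lt k4 k7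
  have k9 : v (12 * x) < 1 := by
    have : 12 * x = 3 * (4 * x) := by ring
    rw [this, map_mul]
    exact mul_lt_one_of_le_of_lt₀ n3 k7
  exact absurd vB (v.map_add_lt k8 k9).ne

end val

end Fermat.Agent.ECRed
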