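import Fermat.Agent.EC.MultOrdA
import Fermat.Agent.EC.MultInertia

/-!
# `T_p E` is strictly ordinary at `p` for multiplicative reduction
-/

set_option autoImplicit false

noncomputable section

open WeierstrassCurve WeierstrassCurve.Affine FermatAgent.ECVal Fermat.Agent.ECRed Polynomial
open scoped WeierstrassCurve.Affine

namespace Fermat.Agent.Tate

/-- determinant of a triangular endomorphism -/
theorem det_of_triangular {R M : Type*} [CommRing R] [Nontrivial R] [AddCommGroup M] [Module R M]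
    (b : Module.Basis (Fin 2) R M) (φ : M →ₗ[R] M) {x z c : R}
    (h0 : φ (b 0) = x • b 0) (h1 : φ (b 1) = z • b 1 + c • b 0) : LinearMap.det φ = x * z := by
  have h00 : LinearMap.toMatrix b b φ 0 0 = x := by
    rw [LinearMap.toMatrix_apply, h0, map_smul, Module.Basis.repr_self]; simp
  have h10 : LinearMap.toMatrix b b φ 1 0 = 0 := by
    rw [LinearMap.toMatrix_apply, h0, map_smul, Module.Basis.repr_self]; simp
  have h11 : LinearMap.toMatrix b b φ 1 1 = z := by
    rw [LinearMap.toMatrix_apply, h1, map_add, map_smul, map_smul, Module.Basis.repr_self,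
      Module.Basis.repr_self]; simp
  rw [← LinearMap.det_toMatrix b, Matrix.det_fin_two, h00, h10, h11]
  ring

variable {p : ℕ} [hp : Fact p.Prime] {A : Type} [AddCommGroup A]

omit hp in
/-- uniform sign for an element of the Tate module -/
theorem exists_sign (σ : A →+ A) (B : AddSubgroup A)
    (h : ∀ x : A, σ x - x ∈ B ∨ σ x + x ∈ B) (g : TMod p A) :
    (∀ n, σ (g n) - g n ∈ B) ∨ (∀ n, σ (g n) + g n ∈ B) := by
  by_contra hcon
  push Not at hcon
  obtain ⟨⟨m, hm⟩, ⟨n, hn⟩⟩ := hcon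
  have e1 : p ^ n • g (m + n) = g m := TMod.pow_smul_apply_add g m n
  have e2 : p ^ m • g (m + n) = g n := by
    rw [add_comm]; exact TMod.pow_smul_apply_add g n m
  rcases h (g (m + n)) with h1 | h1
  · apply hm
    rw [← e1, map_nsmul, ← nsmul_sub]
    exact AddSubgroup.nsmul_mem B h1 _
  · apply hn
    rw [← e2, map_nsmul, ← nsmul_add]
    exact AddSubgroup.nsmul_mem B h1 _

variable {W : WeierstrassCurve ℤ} (hΔ : (W.map (Int.castRingHom ℚ)).Δ ≠ 0)

/-- the underlying element of the Tate module -/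
def toT (v : (tateRep (W.map (Int.castRingHom ℚ)) hΔ p).V) : TMod p (EQ W).Point := v

/-- **Multiplicative reduction at `p` odd: `T_p E` is strictly ordinary at `p`.** -/
theorem tateRep_strictOrdinary (hW : IsMultAt W p) (hp2 : p ≠ 2) :
    (tateRep (W.map (Int.castRingHom ℚ)) hΔ p).IsStrictOrdinaryAt p := by
  classical
  refine ⟨natCast_mem_maximalIdeal p, fun P hP => ?_⟩
  have hT := hasTwoRank_curve hΔ p
  set B := E0 (redEk W P) (isPlace_valuationSubring P) with hB
  obtain ⟨f, hf1, hf⟩ := hT.exists_tmod_in B (fun n => pow_le_card_E0tors hW hP hp2 n)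
  obtain ⟨x, hx, hxB⟩ := exists_torsion_notMem_E0 hW hp2 hP
  obtain ⟨g, hg⟩ := hT.exists_apply_eq (n := 1) (x := x) (by rw [pow_one]; exact hx)
  have hg1 : g 1 ∉ B := by rw [hg]; exact hxB
  have hfg : Indep f g := indep_of_notMem hf1 (fun h => hg1 (by
    obtain ⟨k, hk⟩ := AddSubgroup.mem_zmultiples_iff.mp h
    rw [← hk]
    exact AddSubgroup.zsmul_mem B (hf 1) k))
  let b : Module.Basis (Fin 2) ℤ_[p] (tateRep (W.map (Int.castRingHom ℚ)) hΔ p).V :=
    hfg.basis hT
  have hb0 : b 0 = f := hfg.basis_zero hT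
  have hb1 : b 1 = g := hfg.basis_one hT
  -- membership in `L`
  have hL : ∀ v : (tateRep (W.map (Int.castRingHom ℚ)) hΔ p).V, (∀ n, toT hΔ v n ∈ B) →
      v ∈ Submodule.span ℤ_[p] {b 0} := by
    intro v hv
    obtain ⟨a, ha⟩ := exists_smul_eq_of_mem hT hfg B hf hg1 hv
    rw [Submodule.mem_span_singleton, hb0]
    exact ⟨a, ha.symm⟩
  have hBσ : ∀ σ ∈ P.decompositionSubgroup ℚ, ∀ y : (EQ W).Point, y ∈ B → σ • y ∈ B := by
    intro σ hσ y hy
    obtain ⟨e, D, NR⟩ := hW.exists_nodeRoot hP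
    rw [hB, mem_E0_iff_pcomp hW.prime hP hW.ne NR] at hy ⊢
    rw [pcomp_smul hW.prime hP hW.ne NR hσ, hy]
  -- the action on `f`
  have hxσ : ∀ σ ∈ P.decompositionSubgroup ℚ, ∃ x : ℤ_[p],
      (tateRep (W.map (Int.castRingHom ℚ)) hΔ p).ρ σ (b 0) = x • b 0 := by
    intro σ hσ
    have h1 := hL ((tateRep (W.map (Int.castRingHom ℚ)) hΔ p).ρ σ (b 0)) (by
      intro n
      rw [hb0]
      exact hBσ σ hσ _ (hf n))
    obtain ⟨a, ha⟩ := Submodule.mem_span_singleton.mp h1
    exact ⟨a, ha.symm⟩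
  have hxL : ∀ σ (x : ℤ_[p]), (tateRep (W.map (Int.castRingHom ℚ)) hΔ p).ρ σ (b 0) = x • b 0 →
      ∀ w ∈ Submodule.span ℤ_[p] {b 0},
        (tateRep (W.map (Int.castRingHom ℚ)) hΔ p).ρ σ w = x • w := by
    intro σ x hx w hw
    obtain ⟨a, rfl⟩ := Submodule.mem_span_singleton.mp hw
    rw [map_smul, hx, smul_comm]
  refine ⟨Submodule.span ℤ_[p] {b 0}, ⟨b, rfl⟩, ?_, ?_, ?_⟩
  · intro σ hσ v hv
    obtain ⟨x, hx⟩ := hxσ σ hσ
    rw [hxL σ x hx v hv]
    exact Submodule.smul_mem _ _ hv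
  · intro σ hσ v
    exact hL _ (fun n => inertia_smul_sub_mem_E0 hW hp2 hP hσ _)
  · intro σ hσ
    obtain ⟨x, hx⟩ := hxσ σ hσ
    -- the sign
    obtain ⟨z, hz, hzz⟩ : ∃ z : ℤ_[p], (tateRep (W.map (Int.castRingHom ℚ)) hΔ p).ρ σ (b 1) -
        z • b 1 ∈ Submodule.span ℤ_[p] {b 0} ∧ z * z = 1 := by
      rcases exists_sign (DistribSMul.toAddMonoidHom (EQ W).Point σ) B
        (fun y => smul_sub_or_add_mem_E0 hW hP hσ y) g with h1 | h1
      · refine ⟨1, ?_, one_mul 1⟩
        rw [one_smul, hb1]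
        exact hL _ h1
      · refine ⟨-1, ?_, by norm_num⟩
        rw [neg_one_smul, sub_neg_eq_add, hb1]
        exact hL _ h1
    refine ⟨x, z, hxL σ x hx, ?_, ?_⟩
    · intro v
      have hv := b.sum_repr v
      rw [Fin.sum_univ_two] at hv
      rw [← hv, map_add, map_smul, map_smul, hx]
      have e1 : (b.repr v) 0 • x • b 0 + (b.repr v) 1 •
          (tateRep (W.map (Int.castRingHom ℚ)) hΔ p).ρ σ (b 1) -
          z • ((b.repr v) 0 • b 0 + (b.repr v) 1 • b 1) =
          ((b.repr v) 0 * x - z * (b.repr v) 0) • b 0 + (b.repr v) 1 •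
            ((tateRep (W.map (Int.castRingHom ℚ)) hΔ p).ρ σ (b 1) - z • b 1) := by
        module
      rw [e1]
      exact Submodule.add_mem _
        (Submodule.smul_mem _ _ (Submodule.mem_span_singleton_self _))
        (Submodule.smul_mem _ _ hz)
    · intro n a ha
      obtain ⟨c, hc⟩ := Submodule.mem_span_singleton.mp hz
      have h2 : (tateRep (W.map (Int.castRingHom ℚ)) hΔ p).ρ σ (b 1) = z • b 1 + c • b 0 := by
        rw [hc]; abel
      have hdet := det_of_triangular b _ hx h2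
      rw [det_tateRep hΔ p σ] at hdet
      have h3 : x - (a : ℤ_[p]) * z =
          (((Fermat.Agent.S30aux.cyc p σ : ℤ_[p]ˣ) : ℤ_[p]) - (a : ℤ_[p])) * z := by
        rw [hdet]
        linear_combination -x * hzz
      rw [h3]
      exact Ideal.mul_mem_right _ _ (cyc_sub_mem p ha)

end Fermat.Agent.Tate
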