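import Fermat.Agent.EC.RedPlace

/-!
# The reduction homomorphism `E₀(K) → E'(k)`

`E'` is the (possibly singular) reduced curve; `E'.Point` is its group of nonsingular points.
-/

set_option autoImplicit false

open WeierstrassCurve WeierstrassCurve.Affine

namespace Fermat.Agent.ECRed

variable {R K k Γ₀ : Type*} [CommRing R] [Field K] [Algebra R K] [Field k]
  [LinearOrderedCommGroupWithZero Γ₀] {v : Valuation K Γ₀} {φ : R →+* k}

section RedCurve
variable {E : Affine K} {E' : Affine k} {x y x₁ y₁ x₂ y₂ ℓ : K} {a b a₁ b₁ a₂ b₂ m : k}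

lemma RedCurve.negY (h : RedCurve φ E E') (hx : RedTo φ x a) (hy : RedTo φ y b) :
    RedTo φ (E.negY x y) (E'.negY a b) :=
  (hy.neg.sub (h.a₁.mul hx)).sub h.a₃

lemma RedCurve.addX (h : RedCurve φ E E') (hx₁ : RedTo φ x₁ a₁) (hx₂ : RedTo φ x₂ a₂)
    (hl : RedTo φ ℓ m) : RedTo φ (E.addX x₁ x₂ ℓ) (E'.addX a₁ a₂ m) :=
  ((((hl.pow 2).add (h.a₁.mul hl)).sub h.a₂).sub hx₁).sub hx₂

lemma RedCurve.addY (h : RedCurve φ E E') (hx₁ : RedTo φ x₁ a₁) (hx₂ : RedTo φ x₂ a₂)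
    (hy₁ : RedTo φ y₁ b₁) (hl : RedTo φ ℓ m) :
    RedTo φ (E.addY x₁ x₂ y₁ ℓ) (E'.addY a₁ a₂ b₁ m) :=
  h.negY (h.addX hx₁ hx₂ hl) ((hl.mul ((h.addX hx₁ hx₂ hl).sub hx₁)).add hy₁)

lemma RedCurve.equation (h : RedCurve φ E E') (hp : IsPlace v φ) (hx : RedTo φ x a)
    (hy : RedTo φ y b) (hE : E.Equation x y) : E'.Equation a b := by
  rw [equation_iff] at hE ⊢
  have h1 := ((hy.pow 2).add ((h.a₁.mul hx).mul hy)).add (h.a₃.mul hy)
  have h2 := (((hx.pow 3).add (h.a₂.mul (hx.pow 2))).add (h.a₄.mul hx)).add h.a₆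
  rw [hE] at h1
  exact hp.unique h1 h2

lemma RedCurve.v_y_le_one (h : RedCurve φ E E') (hp : IsPlace v φ) (hE : E.Equation x y)
    (hx : v x ≤ 1) : v y ≤ 1 := by
  rw [equation_iff] at hE
  by_contra hy
  rw [not_le] at hy
  have e : y ^ 2 = x ^ 3 + E.a₂ * x ^ 2 + E.a₄ * x + E.a₆ - E.a₁ * x * y - E.a₃ * y := by
    linear_combination hE
  have h1 := hp.le_one h.a₁
  have h2 := hp.le_one h.a₂
  have h3 := hp.le_one h.a₃
  have h4 := hp.le_one h.a₄
  have h6 := hp.le_one h.a₆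
  have hy0 : v y ≤ v y := le_rfl
  have b1 : v (x ^ 3) ≤ v y := by
    rw [map_pow]; exact (pow_le_one₀ zero_le hx).trans hy.le
  have b2 : v (E.a₂ * x ^ 2) ≤ v y := by
    rw [map_mul, map_pow]
    exact (mul_le_one' h2 (pow_le_one₀ zero_le hx)).trans hy.le
  have b3 : v (E.a₄ * x) ≤ v y := by
    rw [map_mul]
    exact (mul_le_one' h4 hx).trans hy.le
  have b4 : v E.a₆ ≤ v y := h6.trans hy.le
  have b5 : v (E.a₁ * x * y) ≤ v y := by
    rw [map_mul, map_mul]
    exact (mul_le_mul' (mul_le_one' h1 hx) le_rfl).trans (one_mul _).le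
  have b6 : v (E.a₃ * y) ≤ v y := by
    rw [map_mul]
    exact (mul_le_mul' h3 le_rfl).trans (one_mul _).le
  have : v (y ^ 2) ≤ v y := by
    rw [e]
    exact v.map_sub_le (v.map_sub_le (v.map_add_le (v.map_add_le (v.map_add_le b1 b2) b3) b4) b5) b6
  rw [map_pow, pow_two] at this
  have hlt : v y * 1 < v y * v y := by
    apply mul_lt_mul_of_pos_left hy (zero_lt_one.trans hy)
  rw [mul_one] at hlt
  exact absurd this (not_le.mpr hlt)

/-- for a nonintegral point: `v y ^ 2 = v x ^ 3`. -/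
lemma RedCurve.v_y_sq (h : RedCurve φ E E') (hp : IsPlace v φ) (hE : E.Equation x y)
    (hx : 1 < v x) : v y ^ 2 = v x ^ 3 ∧ v x < v y := by
  rw [equation_iff] at hE
  have h1 := hp.le_one h.a₁
  have h2 := hp.le_one h.a₂
  have h3 := hp.le_one h.a₃
  have h4 := hp.le_one h.a₄
  have h6 := hp.le_one h.a₆
  have hx0 : 0 < v x := zero_lt_one.trans hx
  have hx12 : v x < v x ^ 2 := by
    have := mul_lt_mul_of_pos_left hx hx0
    rwa [mul_one, ← pow_two] at this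
  have hx23 : v x ^ 2 < v x ^ 3 := by
    have := mul_lt_mul_of_pos_left hx (pow_pos hx0 2)
    rwa [mul_one, ← pow_succ] at this
  -- RHS
  have e1 : v (x ^ 3 + E.a₂ * x ^ 2 + E.a₄ * x + E.a₆) = v x ^ 3 := by
    have c2 : v (E.a₂ * x ^ 2) < v x ^ 3 := by
      rw [map_mul, map_pow]
      exact ((mul_le_mul' h2 le_rfl).trans (one_mul _).le).trans_lt hx23
    have c4 : v (E.a₄ * x) < v x ^ 3 := by
      rw [map_mul]
      exact ((mul_le_mul' h4 le_rfl).trans (one_mul _).le).trans_lt (hx12.trans hx23)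
    have c6 : v (E.a₆) < v x ^ 3 := h6.trans_lt (hx.trans (hx12.trans hx23))
    have d3 : v (x ^ 3) = v x ^ 3 := map_pow _ _ _
    have d2 : v (x ^ 3 + E.a₂ * x ^ 2) = v x ^ 3 := by
      rw [← d3] at c2
      rw [v.map_add_eq_of_lt_left c2, d3]
    have d4 : v (x ^ 3 + E.a₂ * x ^ 2 + E.a₄ * x) = v x ^ 3 := by
      rw [← d2] at c4
      rw [v.map_add_eq_of_lt_left c4, d2]
    rw [← d4] at c6
    rw [v.map_add_eq_of_lt_left c6, d4]
  have hxy : v x < v y := by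
    by_contra hcon
    rw [not_lt] at hcon
    have : v (y ^ 2 + E.a₁ * x * y + E.a₃ * y) ≤ v x ^ 2 := by
      refine v.map_add_le (v.map_add_le ?_ ?_) ?_
      · rw [map_pow]; exact pow_le_pow_left' hcon 2
      · rw [map_mul, map_mul, pow_two]
        exact mul_le_mul' ((mul_le_mul' h1 le_rfl).trans (one_mul _).le) hcon
      · rw [map_mul]
        exact (mul_le_mul' h3 hcon).trans ((one_mul _).le.trans hx12.le)
    rw [hE, e1] at this
    exact absurd this (not_le.mpr hx23)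
  refine ⟨?_, hxy⟩
  have hy0 : 0 < v y := hx0.trans hxy
  have hyy : v y < v y ^ 2 := by
    have := mul_lt_mul_of_pos_left (hx.trans hxy) hy0
    rwa [mul_one, ← pow_two] at this
  have e2 : v (y ^ 2 + E.a₁ * x * y + E.a₃ * y) = v y ^ 2 := by
    have c1 : v (E.a₁ * x * y) < v (y ^ 2) := by
      rw [map_mul, map_mul, map_pow, pow_two]
      have := mul_lt_mul_of_pos_right hxy hy0
      exact (mul_le_mul' ((mul_le_mul' h1 le_rfl).trans (one_mul _).le) le_rfl).trans_lt this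
    have c3 : v (E.a₃ * y) < v (y ^ 2 + E.a₁ * x * y) := by
      rw [v.map_add_eq_of_lt_left c1, map_mul, map_pow]
      exact ((mul_le_mul' h3 le_rfl).trans (one_mul _).le).trans_lt hyy
    rw [v.map_add_eq_of_lt_left c3, v.map_add_eq_of_lt_left c1, map_pow]
  rw [← e2, hE, e1]

end RedCurve

section point

variable [DecidableEq K] [DecidableEq k] {E : Affine K} {E' : Affine k}

/-- `IsRed v φ P Q`: the point `P` of `E` lies in `E₀` and reduces to the nonsingular point `Q`. -/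
def IsRed (v : Valuation K Γ₀) (φ : R →+* k) (P : E.Point) (Q : E'.Point) : Prop :=
  (P = 0 ∧ Q = 0) ∨ (P ≠ 0 ∧ 1 < v (xc P) ∧ Q = 0) ∨
    (P ≠ 0 ∧ Q ≠ 0 ∧ RedTo φ (xc P) (xc Q) ∧ RedTo φ (yc P) (yc Q))

omit [DecidableEq K] [DecidableEq k] in
lemma isRed_zero_zero : IsRed v φ (0 : E.Point) (0 : E'.Point) := Or.inl ⟨rfl, rfl⟩

omit [DecidableEq K] [DecidableEq k] in
lemma isRed_zero_left_iff {Q : E'.Point} : IsRed v φ (0 : E.Point) Q ↔ Q = 0 := by
  refine ⟨?_, fun h => Or.inl ⟨rfl, h⟩⟩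
  rintro (⟨-, h⟩ | ⟨h, -⟩ | ⟨h, -⟩)
  · exact h
  · exact absurd rfl h
  · exact absurd rfl h

omit [DecidableEq K] [DecidableEq k] in
lemma isRed_zero_right_iff {P : E.Point} :
    IsRed v φ P (0 : E'.Point) ↔ P = 0 ∨ 1 < v (xc P) := by
  constructor
  · rintro (⟨h, -⟩ | ⟨-, h, -⟩ | ⟨-, h, -⟩)
    · exact Or.inl h
    · exact Or.inr h
    · exact absurd rfl h
  · rintro (h | h)
    · exact Or.inl ⟨h, rfl⟩
    · by_cases hP : P = 0
      · exact Or.inl ⟨hP, rfl⟩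
      · exact Or.inr (Or.inl ⟨hP, h, rfl⟩)

omit [DecidableEq K] [DecidableEq k] in
lemma isRed_some_some_iff {x y : K} {a b : k} {h : E.Nonsingular x y} {h' : E'.Nonsingular a b} :
    IsRed v φ (Point.some x y h) (Point.some a b h') ↔ RedTo φ x a ∧ RedTo φ y b := by
  constructor
  · rintro (⟨h, -⟩ | ⟨-, -, h⟩ | ⟨-, -, h⟩)
    · exact absurd h (Point.some_ne_zero _)
    · exact absurd h (Point.some_ne_zero _)
    · exact h
  · intro h
    exact Or.inr (Or.inr ⟨Point.some_ne_zero _, Point.some_ne_zero _, h⟩)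

omit [DecidableEq K] [DecidableEq k] in
lemma point_ext {P Q : E.Point} (hP : P ≠ 0) (hQ : Q ≠ 0) (hx : xc P = xc Q) (hy : yc P = yc Q) :
    P = Q := by
  rcases P with _ | ⟨x, y, h⟩
  · exact absurd rfl hP
  rcases Q with _ | ⟨x', y', h'⟩
  · exact absurd rfl hQ
  simp only [xc_some, yc_some] at hx hy
  subst hx hy
  rfl

omit [DecidableEq K] [DecidableEq k] in
lemma IsRed.unique (hp : IsPlace v φ) {P : E.Point} {Q Q' : E'.Point} (h : IsRed v φ P Q)
    (h' : IsRed v φ P Q') : Q = Q' := by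
  rcases h with ⟨hP, hQ⟩ | ⟨hP, hx, hQ⟩ | ⟨hP, hQ, hx, hy⟩
  · subst hP
    rw [isRed_zero_left_iff] at h'
    rw [hQ, h']
  · rcases h' with ⟨hP', hQ'⟩ | ⟨hP', hx', hQ'⟩ | ⟨hP', hQ', hx', hy'⟩
    · rw [hQ, hQ']
    · rw [hQ, hQ']
    · exact absurd (hp.le_one hx') (not_le.mpr hx)
  · rcases h' with ⟨hP', hQ'⟩ | ⟨hP', hx', hQ'⟩ | ⟨hP', hQ', hx', hy'⟩
    · exact absurd hP' hP
    · exact absurd (hp.le_one hx) (not_le.mpr hx')
    · exact point_ext hQ hQ' (hp.unique hx hx') (hp.unique hy hy')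

lemma IsRed.neg (hE : RedCurve φ E E') {P : E.Point} {Q : E'.Point} (h : IsRed v φ P Q) :
    IsRed v φ (-P) (-Q) := by
  rcases h with ⟨hP, hQ⟩ | ⟨hP, hx, hQ⟩ | ⟨hP, hQ, hx, hy⟩
  · subst hP hQ
    exact isRed_zero_zero
  · subst hQ
    refine Or.inr (Or.inl ⟨neg_ne_zero.mpr hP, by rwa [xc_neg], neg_zero⟩)
  · refine Or.inr (Or.inr ⟨neg_ne_zero.mpr hP, neg_ne_zero.mpr hQ, ?_, ?_⟩)
    · rwa [xc_neg, xc_neg]
    · rw [yc_neg hP, yc_neg hQ]
      exact hE.negY hx hy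

omit [DecidableEq k] in
/-- Translating by a point of the kernel of reduction does not change the reduction of `x`. -/
lemma v_xc_add_sub_lt_one (hE : RedCurve φ E E') (hp : IsPlace v φ) {P Q : E.Point} (hP : P ≠ 0)
    (hQ : Q ≠ 0) (hxP : 1 < v (xc P)) (hxQ : v (xc Q) ≤ 1) :
    v (xc (P + Q) - xc Q) < 1 ∧ v (xc (P - Q) - xc Q) < 1 := by
  have hne : xc P ≠ xc Q := fun h => by rw [h] at hxP; exact absurd hxP (not_lt.mpr hxQ)
  have hs := xc_add_add_xc_sub hP hQ hne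
  have ht := xc_add_mul_xc_sub hP hQ hne
  set s := xc (P + Q) with hs_def
  set t := xc (P - Q) with ht_def
  set x := xc P with hx_def
  set z := xc Q with hz_def
  have hx0 : 0 < v x := zero_lt_one.trans hxP
  have hvxz : v (x - z) = v x := v.map_sub_eq_of_lt_left (hxQ.trans_lt hxP)
  -- sum
  have e1 : (x - z) ^ 2 * ((s - z) + (t - z)) =
      x * (6 * z ^ 2 + E.b₄ + E.b₂ * z) + (E.b₄ * z + E.b₆ - 2 * z ^ 3) := by
    linear_combination hs
  have e2 : (x - z) ^ 2 * ((s - z) * (t - z)) =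
      x * (-4 * z ^ 3 - 2 * E.b₄ * z - E.b₂ * z ^ 2 - E.b₆) +
        (z ^ 4 - 2 * E.b₆ * z - E.b₈ - E.b₄ * z ^ 2) := by
    linear_combination ht - z * hs
  have hb2 : E.b₂ ∈ v.integer := hp.le_one hE.b₂
  have hb4 : E.b₄ ∈ v.integer := hp.le_one hE.b₄
  have hb6 : E.b₆ ∈ v.integer := hp.le_one hE.b₆
  have hb8 : E.b₈ ∈ v.integer := hp.le_one hE.b₈
  have hz : z ∈ v.integer := hxQ
  have h2 : (2 : K) ∈ v.integer := ofNat_mem _ 2
  have h4 : (4 : K) ∈ v.integer := ofNat_mem _ 4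
  have h6 : (6 : K) ∈ v.integer := ofNat_mem _ 6
  have f1 : (6 * z ^ 2 + E.b₄ + E.b₂ * z) ∈ v.integer := by
    apply_rules [add_mem, sub_mem, mul_mem, pow_mem, neg_mem]
  have f2 : (E.b₄ * z + E.b₆ - 2 * z ^ 3) ∈ v.integer := by
    apply_rules [add_mem, sub_mem, mul_mem, pow_mem, neg_mem]
  have f3 : (-4 * z ^ 3 - 2 * E.b₄ * z - E.b₂ * z ^ 2 - E.b₆) ∈ v.integer := by
    apply_rules [add_mem, sub_mem, mul_mem, pow_mem, neg_mem]
  have f4 : (z ^ 4 - 2 * E.b₆ * z - E.b₈ - E.b₄ * z ^ 2) ∈ v.integer := by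
    apply_rules [add_mem, sub_mem, mul_mem, pow_mem, neg_mem]
  rw [Valuation.mem_integer_iff] at f1 f2 f3 f4
  have key : ∀ w A B : K, v A ≤ 1 → v B ≤ 1 → (x - z) ^ 2 * w = x * A + B → v w < 1 := by
    intro w A B hA hB hw
    have h1 : v ((x - z) ^ 2 * w) ≤ v x := by
      rw [hw]
      refine v.map_add_le ?_ (hB.trans hxP.le)
      rw [map_mul]
      exact (mul_le_mul' le_rfl hA).trans (mul_one _).le
    rw [map_mul, map_pow, hvxz] at h1
    by_contra hcon
    rw [not_lt] at hcon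
    have h2 : v x ^ 2 ≤ v x := le_trans (by simpa using mul_le_mul' (le_refl (v x ^ 2)) hcon) h1
    have h3 : v x * 1 < v x * v x := mul_lt_mul_of_pos_left hxP hx0
    rw [mul_one, ← pow_two] at h3
    exact absurd h2 (not_le.mpr h3)
  have k1 := key _ _ _ f1 f2 e1
  have k2 := key _ _ _ f3 f4 e2
  -- both `s - z` and `t - z` are roots of a monic quadratic with coefficients in the maximal ideal
  have quad : ∀ p q : K, v (p + q) < 1 → v (p * q) < 1 → v p < 1 := by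
    intro p q hpq hpq'
    by_contra hcon
    rw [not_lt] at hcon
    have hq : v q < 1 := by
      by_contra hq
      rw [not_lt] at hq
      rw [map_mul] at hpq'
      have : (1 : Γ₀) ≤ v p * v q := by simpa using mul_le_mul' hcon hq
      exact absurd hpq' (not_lt.mpr this)
    have : v (p + q) = v p := v.map_add_eq_of_lt_left (hq.trans_le hcon)
    rw [this] at hpq
    exact absurd hpq (not_lt.mpr hcon)
  exact ⟨quad _ _ k1 k2, quad _ _ (by rwa [add_comm]) (by rwa [mul_comm])⟩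

/-- The slope reduces to the slope. -/
lemma RedCurve.slope (hE : RedCurve φ E E') (hp : IsPlace v φ) {x₁ x₂ y₁ y₂ : K} {a₁ a₂ b₁ b₂ : k}
    (h₁ : E.Equation x₁ y₁) (h₂ : E.Equation x₂ y₂) (hx₁ : RedTo φ x₁ a₁) (hx₂ : RedTo φ x₂ a₂)
    (hy₁ : RedTo φ y₁ b₁) (hy₂ : RedTo φ y₂ b₂) (hab : ¬(a₁ = a₂ ∧ b₁ = E'.negY a₂ b₂)) :
    ¬(x₁ = x₂ ∧ y₁ = E.negY x₂ y₂) ∧
      RedTo φ (E.slope x₁ x₂ y₁ y₂) (E'.slope a₁ a₂ b₁ b₂) := by
  have hxy : ¬(x₁ = x₂ ∧ y₁ = E.negY x₂ y₂) := by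
    rintro ⟨rfl, rfl⟩
    exact hab ⟨hp.unique hx₁ hx₂, hp.unique hy₁ (hE.negY hx₂ hy₂)⟩
  refine ⟨hxy, ?_⟩
  have h₁' := hE.equation hp hx₁ hy₁ h₁
  have h₂' := hE.equation hp hx₂ hy₂ h₂
  have e1 := slope_mul_sub h₁ h₂ hxy
  have e2 := slope_mul_sub_negY h₁ h₂ hxy
  have e1' := slope_mul_sub h₁' h₂' hab
  have e2' := slope_mul_sub_negY h₁' h₂' hab
  by_cases ha : a₁ = a₂
  · have hb : b₁ - E'.negY a₂ b₂ ≠ 0 := fun h => hab ⟨ha, sub_eq_zero.mp h⟩
    have hr := hy₁.sub (hE.negY hx₂ hy₂)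
    have hne : y₁ - E.negY x₂ y₂ ≠ 0 := fun h => by
      rw [h] at hr
      exact hb (hp.unique hr (redTo_zero φ))
    rw [eq_div_of_mul_eq hne e2, eq_div_of_mul_eq hb e2']
    refine hp.div ?_ hr hb
    exact ((((((hx₁.pow 2).add (hx₁.mul hx₂)).add (hx₂.pow 2)).add
      (hE.a₂.mul (hx₁.add hx₂))).add hE.a₄).sub (hE.a₁.mul hy₁))
  · have hb : a₁ - a₂ ≠ 0 := sub_ne_zero.mpr ha
    have hr := hx₁.sub hx₂
    have hne : x₁ - x₂ ≠ 0 := fun h => by
      rw [h] at hr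
      exact hb (hp.unique hr (redTo_zero φ))
    rw [eq_div_of_mul_eq hne e1, eq_div_of_mul_eq hb e1']
    exact hp.div (hy₁.sub hy₂) hr hb

/-- Additivity for integral points. -/
lemma IsRed.add_of_integral (hE : RedCurve φ E E') (hp : IsPlace v φ) {x₁ x₂ y₁ y₂ : K}
    {a₁ a₂ b₁ b₂ : k} {h₁ : E.Nonsingular x₁ y₁} {h₂ : E.Nonsingular x₂ y₂}
    {h₁' : E'.Nonsingular a₁ b₁} {h₂' : E'.Nonsingular a₂ b₂} (hx₁ : RedTo φ x₁ a₁)
    (hx₂ : RedTo φ x₂ a₂) (hy₁ : RedTo φ y₁ b₁) (hy₂ : RedTo φ y₂ b₂) :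
    IsRed v φ (Point.some x₁ y₁ h₁ + Point.some x₂ y₂ h₂)
      (Point.some a₁ b₁ h₁' + Point.some a₂ b₂ h₂') := by
  by_cases hab : a₁ = a₂ ∧ b₁ = E'.negY a₂ b₂
  · rw [Point.add_of_Y_eq hab.1 hab.2]
    by_cases hxy : x₁ = x₂ ∧ y₁ = E.negY x₂ y₂
    · rw [Point.add_of_Y_eq hxy.1 hxy.2]
      exact isRed_zero_zero
    · rw [Point.add_some hxy, isRed_zero_right_iff]
      right
      have e1 := slope_mul_sub h₁.1 h₂.1 hxy
      have e2 := slope_mul_sub_negY h₁.1 h₂.1 hxy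
      set l := E.slope x₁ x₂ y₁ y₂ with hl
      have hl1 : 1 < v l := by
        by_contra hcon
        rw [not_lt] at hcon
        obtain ⟨m, hm⟩ := hp.exists_of_le hcon
        have f1 := hm.mul (hx₁.sub hx₂)
        rw [e1] at f1
        have f1' := hp.unique f1 (hy₁.sub hy₂)
        have f2 := hm.mul (hy₁.sub (hE.negY hx₂ hy₂))
        rw [e2] at f2
        have f2' := hp.unique f2 ((((((hx₁.pow 2).add (hx₁.mul hx₂)).add (hx₂.pow 2)).add
          (hE.a₂.mul (hx₁.add hx₂))).add hE.a₄).sub (hE.a₁.mul hy₁))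
        rw [sub_eq_zero.mpr hab.2, mul_zero] at f2'
        rw [sub_eq_zero.mpr hab.1, mul_zero] at f1'
        rw [← hab.1] at f2'
        have hb12 : b₂ = b₁ := (sub_eq_zero.mp f1'.symm).symm
        have hb := hab.2
        rw [← hab.1, hb12] at hb
        have hns := h₁'.2
        rw [evalEval_polynomialX, evalEval_polynomialY] at hns
        rcases hns with hns | hns
        · exact hns (by linear_combination f2')
        · exact hns (by
            simp only [Affine.negY] at hb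
            linear_combination hb)
      simp only [xc_some, Affine.addX]
      have hl2 : v l < v (l ^ 2) := by
        rw [map_pow, pow_two]
        have := mul_lt_mul_of_pos_left hl1 (zero_lt_one.trans hl1)
        rwa [mul_one] at this
      have d1 : v (l ^ 2 + E.a₁ * l) = v (l ^ 2) := by
        apply v.map_add_eq_of_lt_left
        rw [map_mul]
        exact ((mul_le_mul' (hp.le_one hE.a₁) le_rfl).trans (one_mul _).le).trans_lt hl2
      have d2 : v (l ^ 2 + E.a₁ * l - E.a₂) = v (l ^ 2) := by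
        rw [← d1]
        apply v.map_sub_eq_of_lt_left
        rw [d1]
        exact (hp.le_one hE.a₂).trans_lt (hl1.trans hl2)
      have d3 : v (l ^ 2 + E.a₁ * l - E.a₂ - x₁) = v (l ^ 2) := by
        rw [← d2]
        apply v.map_sub_eq_of_lt_left
        rw [d2]
        exact (hp.le_one hx₁).trans_lt (hl1.trans hl2)
      have d4 : v (l ^ 2 + E.a₁ * l - E.a₂ - x₁ - x₂) = v (l ^ 2) := by
        rw [← d3]
        apply v.map_sub_eq_of_lt_left
        rw [d3]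
        exact (hp.le_one hx₂).trans_lt (hl1.trans hl2)
      rw [d4]
      exact hl1.trans hl2
  · obtain ⟨hxy, hl⟩ := hE.slope hp h₁.1 h₂.1 hx₁ hx₂ hy₁ hy₂ hab
    rw [Point.add_some hxy, Point.add_some hab, isRed_some_some_iff]
    exact ⟨hE.addX hx₁ hx₂ hl, hE.addY hx₁ hx₂ hy₁ hl⟩

omit [DecidableEq K] [DecidableEq k] in
/-- Every point with integral `x` has integral `y`; both reduce. -/
lemma exists_redTo_of_integral (hE : RedCurve φ E E') (hp : IsPlace v φ) {P : E.Point} (hP : P ≠ 0)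
    (hx : v (xc P) ≤ 1) : ∃ a b, RedTo φ (xc P) a ∧ RedTo φ (yc P) b ∧ E'.Equation a b := by
  obtain ⟨a, ha⟩ := hp.exists_of_le hx
  obtain ⟨b, hb⟩ := hp.exists_of_le (hE.v_y_le_one hp (equation_of_ne_zero hP) hx)
  exact ⟨a, b, ha, hb, hE.equation hp ha hb (equation_of_ne_zero hP)⟩

lemma IsRed.add_kernel (hE : RedCurve φ E E') (hp : IsPlace v φ) {P P' : E.Point} {Q' : E'.Point}
    (h : IsRed v φ P (0 : E'.Point)) (h' : IsRed v φ P' Q') : IsRed v φ (P + P') Q' := by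
  rw [isRed_zero_right_iff] at h
  by_cases hP : P = 0
  · rwa [hP, zero_add]
  have hx := h.resolve_left hP
  by_cases hP' : P' = 0
  · rw [hP'] at h' ⊢
    rw [isRed_zero_left_iff] at h'
    rw [h', add_zero, isRed_zero_right_iff]
    exact Or.inr hx
  rcases h' with ⟨h', -⟩ | ⟨-, hx', hQ'⟩ | ⟨-, hQ', hx', hy'⟩
  · exact absurd h' hP'
  · rw [hQ', isRed_zero_right_iff]
    by_cases h0 : P + P' = 0
    · exact Or.inl h0
    right
    by_contra hcon
    rw [not_lt] at hcon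
    have := (v_xc_add_sub_lt_one hE hp (neg_ne_zero.mpr hP) h0 (by rwa [xc_neg]) hcon).1
    rw [neg_add_cancel_left] at this
    have h2 : v (xc P') = v (xc P' - xc (P + P')) :=
      (v.map_sub_eq_of_lt_left (hcon.trans_lt hx')).symm
    rw [← h2] at this
    exact absurd this (not_lt.mpr hx'.le)
  · have hx'1 := hp.le_one hx'
    have h1 := (v_xc_add_sub_lt_one hE hp hP hP' hx hx'1).1
    have h0 : P + P' ≠ 0 := fun h0 => by
      have : P' = - P := by rw [eq_neg_iff_add_eq_zero, add_comm]; exact h0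
      rw [this, xc_neg] at hx'1
      exact absurd hx (not_lt.mpr hx'1)
    have hxPP : RedTo φ (xc (P + P')) (xc Q') := by
      have := hx'.add (hp.redTo_zero_iff.mpr h1)
      rwa [add_zero, add_sub_cancel] at this
    obtain ⟨a, b, ha, hb, hab⟩ := exists_redTo_of_integral hE hp h0 (hp.le_one hxPP)
    obtain rfl := hp.unique ha hxPP
    have hQeq := equation_of_ne_zero hQ'
    rcases Y_eq_of_X_eq hab hQeq rfl with hbb | hbb
    · subst hbb
      exact Or.inr (Or.inr ⟨h0, hQ', ha, hb⟩)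
    · -- `P + P'` reduces to `-Q'`; then `P = (P + P') - P'` reduces to `-2Q'` and to `0`
      have hneg : IsRed v φ (P + P') (-Q') := by
        refine Or.inr (Or.inr ⟨h0, neg_ne_zero.mpr hQ', by rwa [xc_neg], ?_⟩)
        rw [yc_neg hQ', ← hbb]
        exact hb
      have hneg' : IsRed v φ (-P') (-Q') :=
        IsRed.neg hE (Or.inr (Or.inr ⟨hP', hQ', hx', hy'⟩))
      have hsum : IsRed v φ ((P + P') + -P') (-Q' + -Q') := by
        obtain ⟨e1, e1'⟩ := exists_eq_some h0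
        obtain ⟨e2, e2'⟩ := exists_eq_some (neg_ne_zero.mpr hP')
        obtain ⟨e3, e3'⟩ := exists_eq_some (neg_ne_zero.mpr hQ')
        rw [e1', e3'] at hneg
        rw [e2', e3'] at hneg'
        rw [isRed_some_some_iff] at hneg hneg'
        have := IsRed.add_of_integral hE hp (h₁ := e1) (h₂ := e2) (h₁' := e3) (h₂' := e3)
          hneg.1 hneg'.1 hneg.2 hneg'.2
        rwa [← e1', ← e2', ← e3'] at this
      rw [add_neg_cancel_right] at hsum
      have hPred : IsRed v φ P (0 : E'.Point) := isRed_zero_right_iff.mpr (Or.inr hx)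
      have h2Q : -Q' + -Q' = 0 := IsRed.unique hp hsum hPred
      have : -Q' = Q' := by rw [← sub_eq_zero, sub_eq_add_neg]; exact h2Q
      rwa [this] at hneg

/-- Additivity of reduction. -/
theorem IsRed.add (hE : RedCurve φ E E') (hp : IsPlace v φ) {P P' : E.Point} {Q Q' : E'.Point}
    (h : IsRed v φ P Q) (h' : IsRed v φ P' Q') : IsRed v φ (P + P') (Q + Q') := by
  by_cases hQ : Q = 0
  · subst hQ
    rw [zero_add]
    exact h.add_kernel hE hp h'
  by_cases hQ' : Q' = 0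
  · subst hQ'
    rw [add_zero, add_comm]
    exact h'.add_kernel hE hp h
  rcases h with ⟨-, h⟩ | ⟨-, -, h⟩ | ⟨hP, -, hx, hy⟩
  · exact absurd h hQ
  · exact absurd h hQ
  rcases h' with ⟨-, h'⟩ | ⟨-, -, h'⟩ | ⟨hP', -, hx', hy'⟩
  · exact absurd h' hQ'
  · exact absurd h' hQ'
  obtain ⟨e1, e1'⟩ := exists_eq_some hP
  obtain ⟨e2, e2'⟩ := exists_eq_some hP'
  obtain ⟨e3, e3'⟩ := exists_eq_some hQ
  obtain ⟨e4, e4'⟩ := exists_eq_some hQ'
  have := IsRed.add_of_integral hE hp (h₁ := e1) (h₂ := e2) (h₁' := e3) (h₂' := e4) hx hx' hy hy'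
  rwa [← e1', ← e2', ← e3', ← e4'] at this

end point

end Fermat.Agent.ECRed
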