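import Fermat.Agent.EC.XFormulas
import Mathlib.RingTheory.Valuation.Integers
import Mathlib.RingTheory.Valuation.ValuationSubring

/-!
# Places and reduction of elements

`IsPlace v φ`: `v` is a valuation on a field `K` with ring of integers `R`, and `φ : R →+* k` is a
local ring homomorphism to a field.  `RedTo φ x a`: the element `x : K` is integral and reduces
to `a : k`.
-/

set_option autoImplicit false

open WeierstrassCurve WeierstrassCurve.Affine

namespace Fermat.Agent.ECRed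

variable {R K k Γ₀ : Type*} [CommRing R] [Field K] [Algebra R K] [Field k]
  [LinearOrderedCommGroupWithZero Γ₀]

/-- A place of `K` with values in `k`: a valuation `v` with ring of integers `R` and a local
homomorphism `φ : R →+* k`. -/
structure IsPlace (v : Valuation K Γ₀) (φ : R →+* k) : Prop where
  integers : v.Integers R
  isLocalHom : IsLocalHom φ

/-- `x : K` is integral and reduces to `a : k`. -/
def RedTo (φ : R →+* k) (x : K) (a : k) : Prop :=
  ∃ r : R, algebraMap R K r = x ∧ φ r = a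

section RedTo

variable {φ : R →+* k} {x y : K} {a b : k}

lemma redTo_algebraMap (φ : R →+* k) (r : R) : RedTo φ (algebraMap R K r) (φ r) := ⟨r, rfl, rfl⟩

lemma RedTo.add (h : RedTo φ x a) (h' : RedTo φ y b) : RedTo φ (x + y) (a + b) := by
  obtain ⟨r, rfl, rfl⟩ := h
  obtain ⟨s, rfl, rfl⟩ := h'
  exact ⟨r + s, by simp, by simp⟩

lemma RedTo.mul (h : RedTo φ x a) (h' : RedTo φ y b) : RedTo φ (x * y) (a * b) := by
  obtain ⟨r, rfl, rfl⟩ := h
  obtain ⟨s, rfl, rfl⟩ := h'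
  exact ⟨r * s, by simp, by simp⟩

lemma RedTo.neg (h : RedTo φ x a) : RedTo φ (-x) (-a) := by
  obtain ⟨r, rfl, rfl⟩ := h
  exact ⟨-r, by simp, by simp⟩

lemma RedTo.sub (h : RedTo φ x a) (h' : RedTo φ y b) : RedTo φ (x - y) (a - b) := by
  obtain ⟨r, rfl, rfl⟩ := h
  obtain ⟨s, rfl, rfl⟩ := h'
  exact ⟨r - s, by simp, by simp⟩

lemma RedTo.pow (h : RedTo φ x a) (n : ℕ) : RedTo φ (x ^ n) (a ^ n) := by
  obtain ⟨r, rfl, rfl⟩ := h
  exact ⟨r ^ n, by simp, by simp⟩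

lemma redTo_zero (φ : R →+* k) : RedTo φ (0 : K) 0 := ⟨0, by simp, by simp⟩

lemma redTo_one (φ : R →+* k) : RedTo φ (1 : K) 1 := ⟨1, by simp, by simp⟩

lemma redTo_natCast (φ : R →+* k) (n : ℕ) : RedTo φ (n : K) n := ⟨n, by simp, by simp⟩

lemma redTo_intCast (φ : R →+* k) (n : ℤ) : RedTo φ (n : K) n := ⟨n, by simp, by simp⟩

lemma redTo_ofNat (φ : R →+* k) (n : ℕ) [n.AtLeastTwo] :
    RedTo φ (OfNat.ofNat n : K) (OfNat.ofNat n) :=
  ⟨OfNat.ofNat n, map_ofNat _ n, map_ofNat _ n⟩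

variable {v : Valuation K Γ₀}

lemma IsPlace.algebraMap_injective (hp : IsPlace v φ) : Function.Injective (algebraMap R K) :=
  hp.integers.hom_inj

lemma IsPlace.unique (hp : IsPlace v φ) (h : RedTo φ x a) (h' : RedTo φ x b) : a = b := by
  obtain ⟨r, rfl, rfl⟩ := h
  obtain ⟨s, hs, rfl⟩ := h'
  rw [hp.algebraMap_injective hs]

lemma IsPlace.exists_of_le (hp : IsPlace v φ) (hx : v x ≤ 1) : ∃ a, RedTo φ x a := by
  obtain ⟨r, rfl⟩ := hp.integers.exists_of_le_one hx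
  exact ⟨φ r, r, rfl, rfl⟩

lemma IsPlace.le_one (hp : IsPlace v φ) (h : RedTo φ x a) : v x ≤ 1 := by
  obtain ⟨r, rfl, rfl⟩ := h
  exact hp.integers.map_le_one r

lemma IsPlace.lt_one_iff (hp : IsPlace v φ) (h : RedTo φ x a) : v x < 1 ↔ a = 0 := by
  obtain ⟨r, rfl, rfl⟩ := h
  have := hp.isLocalHom
  constructor
  · intro h
    by_contra h0
    have hu : IsUnit r := isUnit_of_map_unit φ r (isUnit_iff_ne_zero.mpr h0)
    exact absurd (hp.integers.one_of_isUnit hu) h.ne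
  · intro h
    refine lt_of_le_of_ne (hp.integers.map_le_one r) fun h1 => ?_
    have hu : IsUnit r := hp.integers.isUnit_of_one' h1
    exact (hu.map φ).ne_zero h

lemma IsPlace.lt_one (hp : IsPlace v φ) (h : RedTo φ x 0) : v x < 1 := (hp.lt_one_iff h).mpr rfl

lemma IsPlace.redTo_zero_iff (hp : IsPlace v φ) : RedTo φ x 0 ↔ v x < 1 := by
  refine ⟨hp.lt_one, fun h => ?_⟩
  obtain ⟨a, ha⟩ := hp.exists_of_le h.le
  rwa [(hp.lt_one_iff ha).mp h] at ha

lemma IsPlace.eq_one_iff (hp : IsPlace v φ) (h : RedTo φ x a) : v x = 1 ↔ a ≠ 0 := by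
  rw [Ne, ← hp.lt_one_iff h, not_lt]
  exact ⟨fun h => h.ge, fun h' => le_antisymm (hp.le_one h) h'⟩

lemma IsPlace.inv (hp : IsPlace v φ) (h : RedTo φ x a) (ha : a ≠ 0) : RedTo φ x⁻¹ a⁻¹ := by
  have h1 : v x⁻¹ ≤ 1 := by rw [map_inv₀, (hp.eq_one_iff h).mpr ha, inv_one]
  have hx : x ≠ 0 := fun h0 => by
    have := (hp.eq_one_iff h).mpr ha
    rw [h0, map_zero] at this
    exact zero_ne_one this
  obtain ⟨b, hb⟩ := hp.exists_of_le h1
  have h2 := h.mul hb
  rw [mul_inv_cancel₀ hx] at h2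
  have h3 := hp.unique h2 (redTo_one φ)
  rwa [eq_inv_of_mul_eq_one_right h3] at hb

lemma IsPlace.div (hp : IsPlace v φ) (h : RedTo φ x a) (h' : RedTo φ y b) (hb : b ≠ 0) :
    RedTo φ (x / y) (a / b) := by
  rw [div_eq_mul_inv, div_eq_mul_inv]
  exact h.mul (hp.inv h' hb)

end RedTo

/-- The standard place attached to a valuation subring. -/
lemma isPlace_valuationSubring (A : ValuationSubring K) :
    IsPlace A.valuation (IsLocalRing.residue A) where
  integers :=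
    { hom_inj := Subtype.coe_injective
      map_le_one := fun r => A.valuation_le_one r
      exists_of_le_one := fun {r} hr => ⟨⟨r, (A.valuation_le_one_iff r).mp hr⟩, rfl⟩ }
  isLocalHom := inferInstance

/-- The coefficients of `E` are integral and reduce to those of `E'`. -/
structure RedCurve (φ : R →+* k) (E : WeierstrassCurve K) (E' : WeierstrassCurve k) : Prop where
  a₁ : RedTo φ E.a₁ E'.a₁
  a₂ : RedTo φ E.a₂ E'.a₂
  a₃ : RedTo φ E.a₃ E'.a₃
  a₄ : RedTo φ E.a₄ E'.a₄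
  a₆ : RedTo φ E.a₆ E'.a₆

lemma redCurve_map (φ : R →+* k) (W : WeierstrassCurve R) :
    RedCurve φ (W.map (algebraMap R K)) (W.map φ) :=
  ⟨redTo_algebraMap _ _, redTo_algebraMap _ _, redTo_algebraMap _ _, redTo_algebraMap _ _,
    redTo_algebraMap _ _⟩

lemma redCurve_map_int (φ : R →+* k) (W : WeierstrassCurve ℤ) :
    RedCurve φ (W.map (Int.castRingHom K)) (W.map (Int.castRingHom k)) :=
  ⟨redTo_intCast _ _, redTo_intCast _ _, redTo_intCast _ _, redTo_intCast _ _,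
    redTo_intCast _ _⟩

/-- If `W` is a curve over `ℤ`, seen as a curve over `ℚ`, then over `K`. -/
lemma redCurve_map_int_rat [Algebra ℚ K] (φ : R →+* k) (W : WeierstrassCurve ℤ) :
    RedCurve φ ((W.map (Int.castRingHom ℚ)).baseChange K) (W.map (Int.castRingHom k)) := by
  refine ⟨?_, ?_, ?_, ?_, ?_⟩ <;>
  · simp only [WeierstrassCurve.baseChange, WeierstrassCurve.map, eq_intCast, map_intCast]
    exact redTo_intCast _ _

section RedCurve

variable {φ : R →+* k} {E : WeierstrassCurve K} {E' : WeierstrassCurve k}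

lemma RedCurve.b₂ (h : RedCurve φ E E') : RedTo φ E.b₂ E'.b₂ :=
  (h.a₁.pow 2).add ((redTo_ofNat φ 4).mul h.a₂)

lemma RedCurve.b₄ (h : RedCurve φ E E') : RedTo φ E.b₄ E'.b₄ :=
  ((redTo_ofNat φ 2).mul h.a₄).add (h.a₁.mul h.a₃)

lemma RedCurve.b₆ (h : RedCurve φ E E') : RedTo φ E.b₆ E'.b₆ :=
  (h.a₃.pow 2).add ((redTo_ofNat φ 4).mul h.a₆)

lemma RedCurve.b₈ (h : RedCurve φ E E') : RedTo φ E.b₈ E'.b₈ :=
  (((((h.a₁.pow 2).mul h.a₆).add (((redTo_ofNat φ 4).mul h.a₂).mul h.a₆)).sub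
    ((h.a₁.mul h.a₃).mul h.a₄)).add (h.a₂.mul (h.a₃.pow 2))).sub (h.a₄.pow 2)

lemma RedCurve.Δ (h : RedCurve φ E E') : RedTo φ E.Δ E'.Δ :=
  (((((h.b₂.pow 2).neg.mul h.b₈).sub ((redTo_ofNat φ 8).mul (h.b₄.pow 3))).sub
    ((redTo_ofNat φ 27).mul (h.b₆.pow 2))).add
    ((((redTo_ofNat φ 9).mul h.b₂).mul h.b₄).mul h.b₆))

end RedCurve

end Fermat.Agent.ECRed
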