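import Fermat.Agent.EC.RedHom
import Mathlib.NumberTheory.Padics.PadicVal.Basic

/-!
# Torsion and the kernel of reduction

The kernel of reduction has no torsion prime to the residue characteristic.
-/

set_option autoImplicit false

open WeierstrassCurve WeierstrassCurve.Affine

namespace Fermat.Agent.ECRed

variable {R K k Γ₀ : Type*} [CommRing R] [Field K] [Algebra R K] [Field k]
  [LinearOrderedCommGroupWithZero Γ₀] {v : Valuation K Γ₀} {φ : R →+* k}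
  [DecidableEq K] [DecidableEq k] {E : Affine K} {E' : Affine k}

lemma isRed_nsmul (hE : RedCurve φ E E') (hp : IsPlace v φ) {P : E.Point} {Q : E'.Point}
    (h : IsRed v φ P Q) (n : ℕ) : IsRed v φ (n • P) (n • Q) := by
  induction n with
  | zero => simpa using isRed_zero_zero
  | succ n ih =>
    rw [succ_nsmul, succ_nsmul]
    exact ih.add hE hp h

lemma isRed_zsmul (hE : RedCurve φ E E') (hp : IsPlace v φ) {P : E.Point} {Q : E'.Point}
    (h : IsRed v φ P Q) (n : ℤ) : IsRed v φ (n • P) (n • Q) := by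
  obtain ⟨m, rfl | rfl⟩ := n.eq_nat_or_neg
  · simpa using isRed_nsmul hE hp h m
  · simpa using (isRed_nsmul hE hp h m).neg hE

lemma IsRed.sub (hE : RedCurve φ E E') (hp : IsPlace v φ) {P P' : E.Point} {Q Q' : E'.Point}
    (h : IsRed v φ P Q) (h' : IsRed v φ P' Q') : IsRed v φ (P - P') (Q - Q') := by
  rw [sub_eq_add_neg, sub_eq_add_neg]
  exact h.add hE hp (h'.neg hE)

lemma omega_identity {P Q : E.Point} (hP : P ≠ 0) (hQ : Q ≠ 0) (hx : xc P ≠ xc Q)
    (h1 : xc P ≠ 0) (h2 : xc Q ≠ 0) (h3 : xc (P + Q) ≠ 0) (h4 : xc (P - Q) ≠ 0) :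
    ((xc (P + Q))⁻¹ + (xc (P - Q))⁻¹) * (1 - E.b₄ * (xc P)⁻¹ * (xc Q)⁻¹ -
      E.b₆ * ((xc P)⁻¹ + (xc Q)⁻¹) * (xc P)⁻¹ * (xc Q)⁻¹ - E.b₈ * (xc P)⁻¹ ^ 2 * (xc Q)⁻¹ ^ 2) =
    ((xc P)⁻¹ + (xc Q)⁻¹) * (2 + E.b₄ * (xc P)⁻¹ * (xc Q)⁻¹) + E.b₂ * (xc P)⁻¹ * (xc Q)⁻¹ +
      E.b₆ * (xc P)⁻¹ ^ 2 * (xc Q)⁻¹ ^ 2 := by
  have hs := xc_add_add_xc_sub hP hQ hx
  have ht := xc_add_mul_xc_sub hP hQ hx
  set s := xc (P + Q)
  set t := xc (P - Q)
  set x := xc P
  set z := xc Q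
  have key : (s + t) * (x ^ 2 * z ^ 2 - E.b₄ * x * z - E.b₆ * (x + z) - E.b₈) =
      s * t * ((x + z) * (2 * x * z + E.b₄) + E.b₂ * x * z + E.b₆) := by
    rw [← hs, ← ht]; ring
  field_simp
  linear_combination key

lemma omega_double_identity {P : E.Point} (h2P : P + P ≠ 0)
    (h1 : xc P ≠ 0) (h2 : xc (P + P) ≠ 0) :
    (xc (P + P))⁻¹ * (1 - E.b₄ * (xc P)⁻¹ ^ 2 - 2 * E.b₆ * (xc P)⁻¹ ^ 3 - E.b₈ * (xc P)⁻¹ ^ 4) =
      4 * (xc P)⁻¹ + E.b₂ * (xc P)⁻¹ ^ 2 + 2 * E.b₄ * (xc P)⁻¹ ^ 3 + E.b₆ * (xc P)⁻¹ ^ 4 := by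
  have key := xc_double h2P
  set s := xc (P + P)
  set x := xc P
  field_simp
  linear_combination -key

omit [DecidableEq k] in
/-- quasi-parallelogram law for `1/x` in the kernel of reduction. -/
lemma omega_step (hE : RedCurve φ E E') (hp : IsPlace v φ) {P Q : E.Point} (hP : P ≠ 0)
    (hQ : Q ≠ 0) (hx : xc P ≠ xc Q) {M : Γ₀} (hM : M ≤ 1)
    (h1 : xc P ≠ 0) (h2 : xc Q ≠ 0) (h3 : xc (P + Q) ≠ 0) (h4 : xc (P - Q) ≠ 0)
    (h1' : v (xc P)⁻¹ ≤ M) (h2' : v (xc Q)⁻¹ ≤ M) (h3' : v (xc (P + Q))⁻¹ ≤ M)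
    (h4' : v (xc (P - Q))⁻¹ ≤ M) :
    v ((xc (P + Q))⁻¹ + (xc (P - Q))⁻¹ - 2 * ((xc P)⁻¹ + (xc Q)⁻¹)) ≤ M ^ 2 := by
  have key := omega_identity hP hQ hx h1 h2 h3 h4
  set s := (xc (P + Q))⁻¹
  set t := (xc (P - Q))⁻¹
  set x := (xc P)⁻¹
  set z := (xc Q)⁻¹
  have hb2 : E.b₂ ∈ v.integer := hp.le_one hE.b₂
  have hb4 : E.b₄ ∈ v.integer := hp.le_one hE.b₄
  have hb6 : E.b₆ ∈ v.integer := hp.le_one hE.b₆
  have hb8 : E.b₈ ∈ v.integer := hp.le_one hE.b₈
  have hxi : x ∈ v.integer := h1'.trans hM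
  have hzi : z ∈ v.integer := h2'.trans hM
  have hsi : s ∈ v.integer := h3'.trans hM
  have hti : t ∈ v.integer := h4'.trans hM
  have e : s + t - 2 * (x + z) = x * z * ((s + t) * (E.b₄ + E.b₆ * (x + z) + E.b₈ * x * z) +
      (x + z) * E.b₄ + E.b₂ + E.b₆ * x * z) := by
    linear_combination key
  have f : ((s + t) * (E.b₄ + E.b₆ * (x + z) + E.b₈ * x * z) +
      (x + z) * E.b₄ + E.b₂ + E.b₆ * x * z) ∈ v.integer := by
    apply_rules [add_mem, sub_mem, mul_mem, pow_mem, neg_mem]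
  rw [Valuation.mem_integer_iff] at f
  rw [e, map_mul, map_mul, pow_two]
  exact (mul_le_mul' (mul_le_mul' h1' h2') f).trans (mul_one _).le

omit [DecidableEq k] in
lemma omega_double (hE : RedCurve φ E E') (hp : IsPlace v φ) {P : E.Point} (h2P : P + P ≠ 0)
    {M : Γ₀} (hM : M ≤ 1) (h1 : xc P ≠ 0) (h2 : xc (P + P) ≠ 0)
    (h1' : v (xc P)⁻¹ ≤ M) (h2' : v (xc (P + P))⁻¹ ≤ M) :
    v ((xc (P + P))⁻¹ - 4 * (xc P)⁻¹) ≤ M ^ 2 := by
  have key := omega_double_identity h2P h1 h2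
  set s := (xc (P + P))⁻¹
  set x := (xc P)⁻¹
  have hb2 : E.b₂ ∈ v.integer := hp.le_one hE.b₂
  have hb4 : E.b₄ ∈ v.integer := hp.le_one hE.b₄
  have hb6 : E.b₆ ∈ v.integer := hp.le_one hE.b₆
  have hb8 : E.b₈ ∈ v.integer := hp.le_one hE.b₈
  have hxi : x ∈ v.integer := h1'.trans hM
  have hsi : s ∈ v.integer := h2'.trans hM
  have hi2 : (2 : K) ∈ v.integer := ofNat_mem _ 2
  have e : s - 4 * x = x * x * (s * (E.b₄ + 2 * E.b₆ * x + E.b₈ * x ^ 2) +
      E.b₂ + 2 * E.b₄ * x + E.b₆ * x ^ 2) := by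
    linear_combination key
  have f : (s * (E.b₄ + 2 * E.b₆ * x + E.b₈ * x ^ 2) +
      E.b₂ + 2 * E.b₄ * x + E.b₆ * x ^ 2) ∈ v.integer := by
    apply_rules [add_mem, sub_mem, mul_mem, pow_mem, neg_mem]
  rw [Valuation.mem_integer_iff] at f
  rw [e, map_mul, map_mul, pow_two M]
  exact (mul_le_mul' (mul_le_mul' h1' h1') f).trans (mul_one _).le

/-- No odd prime torsion in the kernel of reduction, when the prime is a unit. -/
lemma kernel_no_odd_prime_torsion (hE : RedCurve φ E E') (hp : IsPlace v φ) {h : ℕ} (hh : 1 ≤ h)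
    (hprime : (2 * h + 1).Prime) (hv : v ((2 * h + 1 : ℕ) : K) = 1) {P : E.Point}
    (hP : IsRed v φ P (0 : E'.Point)) (hn : (2 * h + 1) • P = 0) : P = 0 := by
  by_contra hP0
  -- multiples of `P`
  have hmul : ∀ k : ℕ, ¬ (2 * h + 1) ∣ k → k • P ≠ 0 := by
    intro k hk h0
    have hcop : Nat.Coprime k (2 * h + 1) :=
      ((Nat.Prime.coprime_iff_not_dvd hprime).mpr hk).symm
    have h1 : addOrderOf P ∣ k := addOrderOf_dvd_of_nsmul_eq_zero h0
    have h2 : addOrderOf P ∣ (2 * h + 1) := addOrderOf_dvd_of_nsmul_eq_zero hn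
    have h3 : addOrderOf P = 1 := Nat.eq_one_of_dvd_coprimes hcop h1 h2
    exact hP0 (AddMonoid.addOrderOf_eq_one_iff.mp h3)
  have hker : ∀ k : ℕ, IsRed v φ (k • P) (0 : E'.Point) := by
    intro k
    simpa using isRed_nsmul hE hp hP k
  have hlarge : ∀ k : ℕ, ¬ (2 * h + 1) ∣ k → 1 < v (xc (k • P)) := by
    intro k hk
    exact (isRed_zero_right_iff.mp (hker k)).resolve_left (hmul k hk)
  -- choose the multiple with maximal `v (1/x)`
  obtain ⟨k₀, hk₀, hmax⟩ : ∃ k₀ : ℕ, ¬ (2 * h + 1) ∣ k₀ ∧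
      ∀ k : ℕ, ¬ (2 * h + 1) ∣ k → v (xc (k • P))⁻¹ ≤ v (xc (k₀ • P))⁻¹ := by
    obtain ⟨k₀, hk₀, hmax⟩ := Finset.exists_max_image (Finset.Icc 1 (2 * h))
      (fun k => v (xc (k • P))⁻¹) ⟨1, by simp; omega⟩
    rw [Finset.mem_Icc] at hk₀
    refine ⟨k₀, fun hd => ?_, fun k hk => ?_⟩
    · exact absurd (Nat.le_of_dvd (by omega) hd) (by omega)
    · have h1 : k • P = (k % (2 * h + 1)) • P := by
        conv_lhs => rw [← Nat.mod_add_div k (2 * h + 1), add_nsmul, mul_nsmul]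
        rw [hn, nsmul_zero, add_zero]
      rw [h1]
      apply hmax
      rw [Finset.mem_Icc]
      have := Nat.mod_lt k (show 0 < 2 * h + 1 by omega)
      have h0 : k % (2 * h + 1) ≠ 0 := fun h0 => hk (Nat.dvd_of_mod_eq_zero h0)
      omega
  set Q := k₀ • P with hQ
  have hQk : ∀ k : ℕ, k • Q = (k₀ * k) • P := fun k => by rw [hQ, mul_nsmul]
  have hndvd : ∀ k : ℕ, ¬ (2 * h + 1) ∣ k → ¬ (2 * h + 1) ∣ k₀ * k := fun k hk hd =>
    ((Nat.Prime.dvd_mul hprime).mp hd).elim hk₀ hk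
  have hQne : ∀ k : ℕ, ¬ (2 * h + 1) ∣ k → k • Q ≠ 0 := fun k hk => by
    rw [hQk]; exact hmul _ (hndvd k hk)
  have hQl : ∀ k : ℕ, ¬ (2 * h + 1) ∣ k → 1 < v (xc (k • Q)) := fun k hk => by
    rw [hQk]; exact hlarge _ (hndvd k hk)
  have hQ0 : ∀ k : ℕ, ¬ (2 * h + 1) ∣ k → xc (k • Q) ≠ 0 := fun k hk h0 => by
    have := hQl k hk
    rw [h0, map_zero] at this
    exact absurd this (not_lt.mpr zero_le_one)
  set M := v (xc Q)⁻¹ with hM
  have hQM : ∀ k : ℕ, ¬ (2 * h + 1) ∣ k → v (xc (k • Q))⁻¹ ≤ M := fun k hk => by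
    rw [hQk]; exact hmax _ (hndvd k hk)
  have h1nd : ¬ (2 * h + 1) ∣ 1 := fun hd => absurd (Nat.le_of_dvd one_pos hd) (by omega)
  have hM1 : M < 1 := by
    have := hQl 1 h1nd
    rw [one_nsmul] at this
    rw [hM, map_inv₀]
    exact inv_lt_one_of_one_lt₀ this
  have hM0 : 0 < M := by
    rw [hM]
    refine (v.pos_iff).mpr (inv_ne_zero ?_)
    have := hQ0 1 h1nd
    rwa [one_nsmul] at this
  -- the main recursion
  have hsmall : ∀ k : ℕ, 1 ≤ k → k ≤ 2 * h → ¬ (2 * h + 1) ∣ k := fun k h1 h2 hd =>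
    absurd (Nat.le_of_dvd (by omega) hd) (by omega)
  have hint : ∀ n : ℕ, v (n : K) ≤ 1 := fun n => hp.le_one (redTo_natCast φ n)
  have main : ∀ k : ℕ, 1 ≤ k → k + 1 ≤ 2 * h →
      v ((xc (k • Q))⁻¹ - (k : K) ^ 2 * (xc Q)⁻¹) ≤ M ^ 2 ∧
      v ((xc ((k + 1) • Q))⁻¹ - ((k + 1 : ℕ) : K) ^ 2 * (xc Q)⁻¹) ≤ M ^ 2 := by
    intro k hk
    induction k, hk using Nat.le_induction with
    | base =>
      intro h2
      refine ⟨by simp, ?_⟩
      have e : (1 + 1) • Q = Q + Q := by rw [add_nsmul, one_nsmul]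
      have h2n := hsmall 2 (by norm_num) h2
      have := omega_double hE hp (P := Q) (M := M) (by rw [← e]; exact hQne 2 h2n) hM1.le
        (by have := hQ0 1 h1nd; rwa [one_nsmul] at this) (by rw [← e]; exact hQ0 2 h2n)
        le_rfl (by rw [← e]; exact hQM 2 h2n)
      rw [e]
      convert this using 3
      norm_num
    | succ k hk ih =>
      intro h2
      obtain ⟨ih1, ih2⟩ := ih (by omega)
      refine ⟨ih2, ?_⟩
      have n1 := hsmall (k + 1) (by omega) (by omega)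
      have n2 := hsmall (k + 1 + 1) (by omega) (by omega)
      have n0 := hsmall k (by omega) (by omega)
      have e1 : (k + 1) • Q + Q = (k + 1 + 1) • Q := (succ_nsmul _ _).symm
      have e2 : (k + 1) • Q - Q = k • Q := by rw [succ_nsmul, add_sub_cancel_right]
      have hQne1 : Q ≠ 0 := by have := hQne 1 h1nd; rwa [one_nsmul] at this
      have hxne : xc ((k + 1) • Q) ≠ xc Q := by
        intro hx
        rcases eq_or_eq_neg_of_xc_eq (hQne _ n1) hQne1 hx with h' | h'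
        · apply hQne _ n0
          rw [← e2, h', sub_self]
        · apply hQne _ n2
          rw [← e1, h', neg_add_cancel]
      have step := omega_step hE hp (P := (k + 1) • Q) (Q := Q) (M := M) (hQne _ n1) hQne1 hxne
        hM1.le (hQ0 _ n1) (by have := hQ0 1 h1nd; rwa [one_nsmul] at this)
        (by rw [e1]; exact hQ0 _ n2) (by rw [e2]; exact hQ0 _ n0)
        (hQM _ n1) le_rfl
        (by rw [e1]; exact hQM _ n2) (by rw [e2]; exact hQM _ n0)
      rw [e1, e2] at step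
      have e3 : (xc ((k + 1 + 1) • Q))⁻¹ - ((k + 1 + 1 : ℕ) : K) ^ 2 * (xc Q)⁻¹ =
          ((xc ((k + 1 + 1) • Q))⁻¹ + (xc (k • Q))⁻¹ - 2 * ((xc ((k + 1) • Q))⁻¹ + (xc Q)⁻¹)) -
          ((xc (k • Q))⁻¹ - (k : K) ^ 2 * (xc Q)⁻¹) +
          2 * ((xc ((k + 1) • Q))⁻¹ - ((k + 1 : ℕ) : K) ^ 2 * (xc Q)⁻¹) := by
        push_cast
        ring
      rw [e3]
      refine v.map_add_le (v.map_sub_le step ih1) ?_
      rw [map_mul]
      refine (mul_le_mul' (a := v (2 : K)) (b := 1) (by simpa using hint 2) ih2).trans ?_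
      rw [one_mul]
  -- compare `h` and `h + 1`
  obtain ⟨m1, m2⟩ := main h hh (by omega)
  have hneg : (h + 1) • Q = - (h • Q) := by
    rw [eq_neg_iff_add_eq_zero, ← add_nsmul, hQk]
    have : k₀ * (h + 1 + h) = (2 * h + 1) * k₀ := by ring
    rw [this, mul_nsmul, hn, nsmul_zero]
  rw [hneg, xc_neg] at m2
  have hdiff : v (((2 * h + 1 : ℕ) : K) * (xc Q)⁻¹) ≤ M ^ 2 := by
    have e : ((2 * h + 1 : ℕ) : K) * (xc Q)⁻¹ =
        ((xc (h • Q))⁻¹ - (h : K) ^ 2 * (xc Q)⁻¹) -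
        ((xc (h • Q))⁻¹ - ((h + 1 : ℕ) : K) ^ 2 * (xc Q)⁻¹) := by
      push_cast
      ring
    rw [e]
    exact v.map_sub_le m1 m2
  rw [map_mul, hv, one_mul, ← hM, pow_two] at hdiff
  have : M * M < M * 1 := mul_lt_mul_of_pos_left hM1 hM0
  rw [mul_one] at this
  exact absurd hdiff (not_le.mpr this)

omit [DecidableEq k] in
lemma kernel_no_two_torsion (hE : RedCurve φ E E') (hp : IsPlace v φ)
    (hv : v (2 : K) = 1) {P : E.Point}
    (hP : IsRed v φ P (0 : E'.Point)) (hn : P + P = 0) : P = 0 := by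
  by_contra hP0
  have hx := (isRed_zero_right_iff.mp hP).resolve_left hP0
  have h0 := psi_eq_zero hP0 hn
  set x := xc P
  have hx0 : 0 < v x := zero_lt_one.trans hx
  have hx12 : v x < v x ^ 2 := by
    have := mul_lt_mul_of_pos_left hx hx0
    rwa [mul_one, ← pow_two] at this
  have hx23 : v x ^ 2 < v x ^ 3 := by
    have := mul_lt_mul_of_pos_left hx (pow_pos hx0 2)
    rwa [mul_one, ← pow_succ] at this
  have h4 : v (4 * x ^ 3) = v x ^ 3 := by
    have : (4 : K) = 2 * 2 := by norm_num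
    rw [this, map_mul, map_mul, hv, one_mul, one_mul, map_pow]
  have e : 4 * x ^ 3 = -(E.b₂ * x ^ 2 + 2 * E.b₄ * x + E.b₆) := by linear_combination h0
  have : v (4 * x ^ 3) ≤ v x ^ 2 := by
    rw [e, Valuation.map_neg]
    refine v.map_add_le (v.map_add_le ?_ ?_) ?_
    · rw [map_mul, map_pow]
      exact (mul_le_mul' (hp.le_one hE.b₂) le_rfl).trans (one_mul _).le
    · rw [map_mul, map_mul, hv, one_mul]
      exact (mul_le_mul' (hp.le_one hE.b₄) le_rfl).trans ((one_mul _).le.trans hx12.le)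
    · exact (hp.le_one hE.b₆).trans (hx.le.trans hx12.le)
  rw [h4] at this
  exact absurd this (not_le.mpr hx23)

/-- **The kernel of reduction has no `n`-torsion when `n` is a unit at the place.** -/
theorem kernel_no_torsion (hE : RedCurve φ E E') (hp : IsPlace v φ) {n : ℕ}
    (hv : v (n : K) = 1) {P : E.Point}
    (hP : IsRed v φ P (0 : E'.Point)) (hn : n • P = 0) : P = 0 := by
  induction n using Nat.recOnMul generalizing P with
  | zero =>
    rw [Nat.cast_zero, map_zero] at hv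
    exact absurd hv zero_ne_one
  | one => rwa [one_nsmul] at hn
  | prime p hprime =>
    rcases hprime.eq_two_or_odd' with rfl | ⟨h, rfl⟩
    · exact kernel_no_two_torsion hE hp (by simpa using hv) hP (by rwa [two_nsmul] at hn)
    · refine kernel_no_odd_prime_torsion hE hp ?_ hprime hv hP hn
      rcases Nat.eq_zero_or_pos h with rfl | h0
      · exact absurd hprime (by norm_num)
      · exact h0
  | mul a b iha ihb =>
    have hint : ∀ n : ℕ, v (n : K) ≤ 1 := fun n => hp.le_one (redTo_natCast φ n)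
    rw [Nat.cast_mul, map_mul] at hv
    have ha : v (a : K) = 1 := by
      refine le_antisymm (hint a) ?_
      rw [← hv]
      exact (mul_le_mul' le_rfl (hint b)).trans (mul_one _).le
    have hb : v (b : K) = 1 := by rwa [ha, one_mul] at hv
    rw [mul_comm, mul_nsmul] at hn
    have hbP : IsRed v φ (b • P) (0 : E'.Point) := by simpa using isRed_nsmul hE hp hP b
    exact ihb hb hP (iha ha hbP hn)

end Fermat.Agent.ECRed
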