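import Fermat.Agent.EC.FlatTors
import Fermat.Agent.FlatGS.BaseChange
import Fermat.Agent.EC.MultOrd

/-!
# `T_p E` is flat at `p` (good reduction)
-/

set_option autoImplicit false

noncomputable section

open WeierstrassCurve WeierstrassCurve.Affine FermatAgent.ECVal Fermat.Agent.ECRed
open Fermat.Agent.FlatGS
open scoped WeierstrassCurve.Affine

namespace Fermat.Agent.Tate

variable {W : WeierstrassCurve ℤ} (hΔ : (W.map (Int.castRingHom ℚ)).Δ ≠ 0)
  (p : ℕ) [hp : Fact p.Prime]

/-- evaluation at level `n` -/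
def evT (n : ℕ) : (tateRep (W.map (Int.castRingHom ℚ)) hΔ p).V →+ (EQ W).Point where
  toFun v := toT hΔ v n
  map_zero' := rfl
  map_add' _ _ := rfl

theorem toT_zsmul_sum (y : GQ →₀ ℤ) (v : (tateRep (W.map (Int.castRingHom ℚ)) hΔ p).V) (n : ℕ) :
    toT hΔ (y.sum fun g c => c • (tateRep (W.map (Int.castRingHom ℚ)) hΔ p).ρ g v) n =
      y.sum fun g c => c • (g • (toT hΔ v n)) := by
  have h1 := map_finsuppSum (evT hΔ p n) y
    (fun g c => c • (tateRep (W.map (Int.castRingHom ℚ)) hΔ p).ρ g v)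
  refine Eq.trans h1 ?_
  refine Finsupp.sum_congr fun g _ => ?_
  rw [map_zsmul]
  rfl

/-- **Good reduction at `p`: `T_p E` is flat at `p`.** -/
theorem tateRep_isFlatAt (hgood : W.IsGoodPrimeFor p) :
    (tateRep (W.map (Int.castRingHom ℚ)) hΔ p).IsFlatAt p := by
  have hres : Finite (IsLocalRing.ResidueField ℤ_[p]) :=
    Finite.of_equiv (ZMod p) (PadicInt.residueField (p := p)).symm.toEquiv
  refine isFlatAt_of_transfer _ hres (natCast_mem_maximalIdeal p) (J := (EQ W).Point)
    (fun m => ?_) (fun n => ⟨n, fun y hy v => ?_⟩)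
  · exact Fermat.Agent.ECFlat.isFlatModule_torsion hp.out hgood m (by push_cast; rfl)
  · obtain ⟨w, hw⟩ := (TMod.apply_eq_zero_iff (p := p) (A := (EQ W).Point)
      (toT hΔ (y.sum fun g c => c • (tateRep (W.map (Int.castRingHom ℚ)) hΔ p).ρ g v)) n).mp (by
        rw [toT_zsmul_sum]
        exact hy _ (TMod.pow_smul_apply (toT hΔ v) n))
    have hw' : (y.sum fun g c => c • (tateRep (W.map (Int.castRingHom ℚ)) hΔ p).ρ g v) =
        ((p : ℤ_[p]) ^ n) • w := hw
    rw [hw']
    exact Submodule.smul_mem_smul (Ideal.mem_span_singleton_self _) Submodule.mem_top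

end Fermat.Agent.Tate
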