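import Mathlib

/-!
# The `p`-adic Tate module of an abelian group

`TMod p A` is the `ℤ_[p]`-module of sequences `(x_n)` in `A` with `x_0 = 0` and
`p • x_{n+1} = x_n`.  If `A[p^n]` has exactly `(p^n)^2` elements for all `n`, it is free
of rank two and `TMod p A ⧸ p^n ≃ A[p^n]`.
-/

set_option autoImplicit false

noncomputable section

namespace Fermat.Agent.Tate

section Defs

variable (p : ℕ) (A : Type*) [AddCommGroup A]

/-- sequences `(x_n)` with `x_0 = 0` and `p • x_{n+1} = x_n`. -/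
def TMod : AddSubgroup (ℕ → A) where
  carrier := {f | f 0 = 0 ∧ ∀ n, p • f (n + 1) = f n}
  add_mem' := by
    rintro f g ⟨hf0, hf⟩ ⟨hg0, hg⟩
    refine ⟨by simp [hf0, hg0], fun n => ?_⟩
    simp only [Pi.add_apply, smul_add, hf n, hg n]
  zero_mem' := ⟨rfl, fun n => by simp⟩
  neg_mem' := by
    rintro f ⟨hf0, hf⟩
    refine ⟨by simp [hf0], fun n => ?_⟩
    simp only [Pi.neg_apply, smul_neg, hf n]

variable {p A}

instance : CoeFun (TMod p A) (fun _ => ℕ → A) := ⟨fun f => f.1⟩

namespace TMod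

@[ext] theorem ext {f g : TMod p A} (h : ∀ n, f n = g n) : f = g := Subtype.ext (funext h)

@[simp] theorem apply_zero (f : TMod p A) : f 0 = 0 := f.2.1

theorem p_smul_apply_succ (f : TMod p A) (n : ℕ) : p • f (n + 1) = f n := f.2.2 n

theorem pow_smul_apply_add (f : TMod p A) (n k : ℕ) : p ^ k • f (n + k) = f n := by
  induction k with
  | zero => simp
  | succ k ih =>
    rw [pow_succ, mul_smul, ← Nat.add_assoc, p_smul_apply_succ, ih]

theorem pow_smul_apply (f : TMod p A) (n : ℕ) : p ^ n • f n = 0 := by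
  have := pow_smul_apply_add f 0 n
  simpa using this

@[simp] theorem coe_add_apply (f g : TMod p A) (n : ℕ) : (f + g : TMod p A) n = f n + g n := rfl

@[simp] theorem coe_neg_apply (f : TMod p A) (n : ℕ) : (-f : TMod p A) n = -f n := rfl

@[simp] theorem coe_sub_apply (f g : TMod p A) (n : ℕ) : (f - g : TMod p A) n = f n - g n := rfl

@[simp] theorem coe_zero_apply (n : ℕ) : (0 : TMod p A) n = 0 := rfl

@[simp] theorem coe_nsmul_apply (m : ℕ) (f : TMod p A) (n : ℕ) :
    (m • f : TMod p A) n = m • f n := rfl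

end TMod

/-- on `N`-torsion, the action of integers only depends on the class mod `N`. -/
theorem nsmul_congr_of_torsion {N : ℕ} {x : A} (hx : N • x = 0) {a b : ℕ}
    (h : (a : ZMod N) = (b : ZMod N)) : a • x = b • x := by
  have hd : addOrderOf x ∣ N := addOrderOf_dvd_of_nsmul_eq_zero hx
  have h1 : a ≡ b [MOD N] := (ZMod.natCast_eq_natCast_iff a b N).mp h
  exact (nsmul_eq_nsmul_iff_modEq).mpr (h1.of_dvd hd)

end Defs

section Module

variable {p : ℕ} [hp : Fact p.Prime] {A : Type*} [AddCommGroup A]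

theorem toZModPow_eq_appr (a : ℤ_[p]) (n : ℕ) :
    PadicInt.toZModPow n a = ((a.appr n : ℕ) : ZMod (p ^ n)) := rfl

/-- a natural number representing `a` mod `p^n` may be used to compute `a • f`. -/
theorem appr_smul_eq {x : A} {n : ℕ} (hx : p ^ n • x = 0) (a : ℤ_[p]) {b : ℕ}
    (h : PadicInt.toZModPow n a = (b : ZMod (p ^ n))) : a.appr n • x = b • x :=
  nsmul_congr_of_torsion hx (by rw [← h, toZModPow_eq_appr])

instance TMod.instSMul : SMul ℤ_[p] (TMod p A) where
  smul a f := ⟨fun n => a.appr n • f n, by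
    refine ⟨by simp, fun n => ?_⟩
    rw [← mul_smul, mul_comm, mul_smul, TMod.p_smul_apply_succ]
    refine nsmul_congr_of_torsion (TMod.pow_smul_apply f n) ?_
    rw [← toZModPow_eq_appr, ← PadicInt.cast_toZModPow n (n + 1) (Nat.le_succ n) a,
      toZModPow_eq_appr, ZMod.cast_natCast (pow_dvd_pow p (Nat.le_succ n))]⟩

theorem TMod.smul_apply (a : ℤ_[p]) (f : TMod p A) (n : ℕ) : (a • f) n = a.appr n • f n := rfl

/-- the value of `a • f` at `n`, computed with any natural number congruent to `a` mod `p^n`. -/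
theorem TMod.smul_apply_of_eq (a : ℤ_[p]) (f : TMod p A) (n : ℕ) {b : ℕ}
    (h : PadicInt.toZModPow n a = (b : ZMod (p ^ n))) : (a • f) n = b • f n :=
  appr_smul_eq (TMod.pow_smul_apply f n) a h

instance TMod.instModule : Module ℤ_[p] (TMod p A) where
  one_smul f := TMod.ext fun n => by
    rw [TMod.smul_apply_of_eq (1 : ℤ_[p]) f n (b := 1) (by simp), one_smul]
  mul_smul a b f := TMod.ext fun n => by
    rw [TMod.smul_apply_of_eq (a * b) f n (b := a.appr n * b.appr n)
      (by rw [map_mul, toZModPow_eq_appr, toZModPow_eq_appr, Nat.cast_mul]), mul_smul]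
    rfl
  smul_zero a := TMod.ext fun n => by simp [TMod.smul_apply]
  smul_add a f g := TMod.ext fun n => by simp [TMod.smul_apply]
  add_smul a b f := TMod.ext fun n => by
    rw [TMod.smul_apply_of_eq (a + b) f n (b := a.appr n + b.appr n)
      (by rw [map_add, toZModPow_eq_appr, toZModPow_eq_appr, Nat.cast_add]), add_smul]
    rfl
  zero_smul f := TMod.ext fun n => by
    rw [TMod.smul_apply_of_eq (0 : ℤ_[p]) f n (b := 0) (by simp), zero_smul]
    rfl

theorem TMod.natCast_smul_apply (m : ℕ) (f : TMod p A) (n : ℕ) :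
    (((m : ℕ) : ℤ_[p]) • f) n = m • f n :=
  TMod.smul_apply_of_eq _ f n (by simp)

theorem TMod.pow_smul_apply' (k : ℕ) (f : TMod p A) (n : ℕ) :
    (((p : ℤ_[p]) ^ k) • f) n = p ^ k • f n := by
  have := TMod.natCast_smul_apply (p ^ k) f n
  rwa [Nat.cast_pow] at this

/-- functoriality. -/
def TMod.map {B : Type*} [AddCommGroup B] (φ : A →+ B) : TMod p A →ₗ[ℤ_[p]] TMod p B where
  toFun f := ⟨fun n => φ (f n), by
    refine ⟨by simp, fun n => ?_⟩
    rw [← map_nsmul, TMod.p_smul_apply_succ]⟩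
  map_add' f g := TMod.ext fun n => by
    show φ (f n + g n) = φ (f n) + φ (g n)
    exact map_add _ _ _
  map_smul' a f := TMod.ext fun n => by
    show φ (a.appr n • f n) = a.appr n • φ (f n)
    exact map_nsmul _ _ _

@[simp] theorem TMod.map_apply {B : Type*} [AddCommGroup B] (φ : A →+ B) (f : TMod p A) (n : ℕ) :
    TMod.map (p := p) φ f n = φ (f n) := rfl

/-- the representation of a group acting on `A` on the Tate module of `A`. -/
def TMod.rep (p : ℕ) [Fact p.Prime] (G A : Type*) [Group G] [AddCommGroup A]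
    [DistribMulAction G A] : G →* Module.End ℤ_[p] (TMod p A) where
  toFun σ := TMod.map (DistribSMul.toAddMonoidHom A σ)
  map_one' := LinearMap.ext fun f => TMod.ext fun n => by simp
  map_mul' σ τ := LinearMap.ext fun f => TMod.ext fun n => by simp [mul_smul]

@[simp] theorem TMod.rep_apply {G : Type*} [Group G] [DistribMulAction G A] (σ : G)
    (f : TMod p A) (n : ℕ) : TMod.rep p G A σ f n = σ • f n := rfl

/-! ### kernel and image of the projections -/

/-- the kernel of `f ↦ f n` is `p ^ n T`. -/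
theorem TMod.apply_eq_zero_iff (f : TMod p A) (n : ℕ) :
    f n = 0 ↔ ∃ g : TMod p A, f = ((p : ℤ_[p]) ^ n) • g := by
  constructor
  · intro h
    refine ⟨⟨fun k => f (k + n), by simpa using h, fun k => ?_⟩, ?_⟩
    · have := TMod.p_smul_apply_succ f (k + n)
      rwa [show k + n + 1 = k + 1 + n by ring] at this
    · refine TMod.ext fun k => ?_
      rw [TMod.pow_smul_apply']
      exact (TMod.pow_smul_apply_add f k n).symm
  · rintro ⟨g, rfl⟩
    rw [TMod.pow_smul_apply', TMod.pow_smul_apply]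

theorem TMod.eq_zero_of_pow_smul_eq_zero (f : TMod p A) (k : ℕ)
    (h : ((p : ℤ_[p]) ^ k) • f = 0) : f = 0 := by
  refine TMod.ext fun n => ?_
  have := congrArg (fun g : TMod p A => g (n + k)) h
  simp only [TMod.pow_smul_apply', TMod.pow_smul_apply_add] at this
  rw [this]; rfl

omit hp in
/-- if the `p`-power torsion of `A` is `p`-divisible, all projections are onto. -/
theorem TMod.exists_apply_eq (hdiv : ∀ (x : A) (n : ℕ), p ^ n • x = 0 → ∃ y : A, p • y = x)
    {n : ℕ} {x : A} (hx : p ^ n • x = 0) : ∃ f : TMod p A, f n = x := by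
  classical
  have step : ∀ y : {y : A // ∃ k, p ^ k • y = 0}, ∃ z : {y : A // ∃ k, p ^ k • y = 0},
      p • z.1 = y.1 := by
    rintro ⟨y, k, hk⟩
    obtain ⟨z, hz⟩ := hdiv y k hk
    exact ⟨⟨z, k + 1, by rw [pow_succ, mul_smul, hz, hk]⟩, hz⟩
  choose nxt hnxt using step
  let g : ℕ → {y : A // ∃ k, p ^ k • y = 0} := fun k => Nat.rec ⟨x, n, hx⟩ (fun _ y => nxt y) k
  have hg0 : (g 0).1 = x := rfl
  have hgs : ∀ k, p • (g (k + 1)).1 = (g k).1 := fun k => hnxt (g k)
  have hpow : ∀ k, p ^ k • (g k).1 = x := by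
    intro k
    induction k with
    | zero => simp [hg0]
    | succ k ih => rw [pow_succ, mul_smul, hgs, ih]
  refine ⟨⟨fun k => p ^ n • (g k).1, by simp [hg0, hx], fun k => ?_⟩, hpow n⟩
  show p • p ^ n • (g (k + 1)).1 = p ^ n • (g k).1
  rw [← mul_smul, mul_comm, mul_smul, hgs]

end Module

/-! ### counting -/

section Count

variable {p : ℕ} [hp : Fact p.Prime] {A : Type*} [AddCommGroup A]

variable (p A) in
/-- the hypothesis `#A[p^n] = (p^n)^2`, for all `n`. -/
def HasTwoRank : Prop :=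
  ∀ n : ℕ, Nat.card (Submodule.torsionBy ℤ A ((p ^ n : ℕ) : ℤ)) = (p ^ n) ^ 2

theorem mem_torsionBy_nat {N : ℕ} {x : A} :
    x ∈ Submodule.torsionBy ℤ A (N : ℤ) ↔ N • x = 0 := by
  rw [Submodule.mem_torsionBy_iff, natCast_zsmul]

theorem HasTwoRank.finite (h : HasTwoRank p A) (n : ℕ) :
    Finite (Submodule.torsionBy ℤ A ((p ^ n : ℕ) : ℤ)) :=
  Nat.finite_of_card_ne_zero (by rw [h n]; exact (pow_pos (pow_pos hp.out.pos n) 2).ne')

theorem HasTwoRank.exists_smul_eq (h : HasTwoRank p A) {n : ℕ} {x : A} (hx : p ^ n • x = 0) :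
    ∃ y : A, p • y = x := by
  -- the map `A[p^(n+1)] → A[p^n]`, `y ↦ p y`, is onto by counting
  have hf1 := h.finite (n + 1)
  have hf0 := h.finite n
  have hf := h.finite 1
  let φ : Submodule.torsionBy ℤ A ((p ^ (n + 1) : ℕ) : ℤ) →+
      Submodule.torsionBy ℤ A ((p ^ n : ℕ) : ℤ) :=
    { toFun := fun y => ⟨p • (y : A), by
        have hy := mem_torsionBy_nat.mp y.2
        rw [mem_torsionBy_nat, ← mul_smul, ← pow_succ, hy]⟩
      map_zero' := by ext; simp
      map_add' := fun y z => by ext; simp }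
  have hker : Nat.card φ.ker ≤ p ^ 2 := by
    have hle : Nat.card φ.ker ≤ Nat.card (Submodule.torsionBy ℤ A ((p ^ 1 : ℕ) : ℤ)) := by
      refine Nat.card_le_card_of_injective (fun y : φ.ker => ⟨(y.1 : A), by
        rw [mem_torsionBy_nat, pow_one]
        exact congrArg Subtype.val (AddMonoidHom.mem_ker.mp y.2)⟩) ?_
      intro y z hyz
      have := congrArg Subtype.val hyz
      exact Subtype.ext (Subtype.ext this)
    rw [h 1, pow_one] at hle
    exact hle
  have hmul : Nat.card φ.ker * Nat.card φ.range =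
      Nat.card (Submodule.torsionBy ℤ A ((p ^ (n + 1) : ℕ) : ℤ)) := by
    rw [AddSubgroup.card_eq_card_quotient_mul_card_addSubgroup φ.ker, mul_comm]
    congr 1
    exact (Nat.card_congr (QuotientAddGroup.quotientKerEquivRange φ).toEquiv).symm
  have hrange : (p ^ n) ^ 2 ≤ Nat.card φ.range := by
    have hpp : 0 < p ^ 2 := pow_pos hp.out.pos 2
    by_contra hlt
    push Not at hlt
    have h1 : Nat.card φ.ker * Nat.card φ.range < p ^ 2 * (p ^ n) ^ 2 := by
      calc Nat.card φ.ker * Nat.card φ.range ≤ p ^ 2 * Nat.card φ.range :=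
            Nat.mul_le_mul_right _ hker
        _ < p ^ 2 * (p ^ n) ^ 2 := Nat.mul_lt_mul_of_pos_left hlt hpp
    rw [hmul, h (n + 1)] at h1
    exact absurd h1 (by rw [pow_succ]; ring_nf; exact lt_irrefl _)
  have htop : φ.range = ⊤ := by
    apply AddSubgroup.eq_top_of_card_eq
    refine le_antisymm ?_ ?_
    · exact Nat.card_le_card_of_injective _ Subtype.val_injective
    · rw [h n]; exact hrange
  have hxm : (⟨x, mem_torsionBy_nat.mpr hx⟩ : Submodule.torsionBy ℤ A ((p ^ n : ℕ) : ℤ)) ∈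
      φ.range := by rw [htop]; trivial
  obtain ⟨y, hy⟩ := hxm
  exact ⟨y, congrArg Subtype.val hy⟩

theorem HasTwoRank.exists_apply_eq (h : HasTwoRank p A) {n : ℕ} {x : A} (hx : p ^ n • x = 0) :
    ∃ f : TMod p A, f n = x :=
  TMod.exists_apply_eq (fun _ _ hx => h.exists_smul_eq hx) hx

/-! ### bases -/

/-- two elements of the Tate module that are independent mod `p`. -/
def Indep (f g : TMod p A) : Prop :=
  ∀ a b : ℤ, a • f 1 + b • g 1 = 0 → (p : ℤ) ∣ a ∧ (p : ℤ) ∣ b

omit hp in
theorem Indep.dvd {f g : TMod p A} (h : Indep f g) (n : ℕ) :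
    ∀ a b : ℤ, a • f n + b • g n = 0 → ((p : ℤ) ^ n) ∣ a ∧ ((p : ℤ) ^ n) ∣ b := by
  induction n with
  | zero => intro a b _; simp
  | succ n ih =>
    intro a b hab
    have h1 : a • f n + b • g n = 0 := by
      rw [← TMod.p_smul_apply_succ f n, ← TMod.p_smul_apply_succ g n, smul_comm a p, smul_comm b p,
        ← smul_add, hab, smul_zero]
    obtain ⟨⟨a', rfl⟩, ⟨b', rfl⟩⟩ := ih a b h1
    have hf : ((p : ℤ) ^ n) • f (n + 1) = f 1 := by
      have := TMod.pow_smul_apply_add f 1 n
      rw [show 1 + n = n + 1 by ring] at this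
      rw [← this, ← natCast_zsmul, Nat.cast_pow]
    have hg : ((p : ℤ) ^ n) • g (n + 1) = g 1 := by
      have := TMod.pow_smul_apply_add g 1 n
      rw [show 1 + n = n + 1 by ring] at this
      rw [← this, ← natCast_zsmul, Nat.cast_pow]
    have h2 : a' • f 1 + b' • g 1 = 0 := by
      rw [← hf, ← hg, ← mul_smul, ← mul_smul, mul_comm a', mul_comm b']
      exact hab
    obtain ⟨ha, hb⟩ := h a' b' h2
    rw [pow_succ]
    exact ⟨mul_dvd_mul_left _ ha, mul_dvd_mul_left _ hb⟩

/-- at level `n`, every element of `A[p^n]` is uniquely `a • f n + b • g n`. -/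
theorem Indep.exists_level (hA : HasTwoRank p A) {f g : TMod p A} (h : Indep f g) (n : ℕ) {x : A}
    (hx : p ^ n • x = 0) : ∃ a b : ℕ, x = a • f n + b • g n := by
  have hf := hA.finite n
  let φ : Fin (p ^ n) × Fin (p ^ n) → Submodule.torsionBy ℤ A ((p ^ n : ℕ) : ℤ) :=
    fun c => ⟨(c.1 : ℕ) • f n + (c.2 : ℕ) • g n, by
      rw [mem_torsionBy_nat, smul_add, smul_comm (p ^ n) (c.1 : ℕ), smul_comm (p ^ n) (c.2 : ℕ),
        TMod.pow_smul_apply, TMod.pow_smul_apply]
      simp⟩
  have hinj : Function.Injective φ := by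
    rintro ⟨a, b⟩ ⟨c, d⟩ hcd
    have h1 : (a : ℕ) • f n + (b : ℕ) • g n = (c : ℕ) • f n + (d : ℕ) • g n :=
      congrArg Subtype.val hcd
    have h2 : ((a : ℤ) - (c : ℤ)) • f n + ((b : ℤ) - (d : ℤ)) • g n = 0 := by
      rw [sub_smul, sub_smul, natCast_zsmul, natCast_zsmul, natCast_zsmul, natCast_zsmul,
        sub_add_sub_comm, h1, sub_self]
    obtain ⟨h3, h4⟩ := h.dvd n _ _ h2
    have key : ∀ u v : Fin (p ^ n), ((p : ℤ) ^ n) ∣ (u : ℤ) - (v : ℤ) → u = v := by
      intro u v huv
      have hlt : |(u : ℤ) - (v : ℤ)| < (p : ℤ) ^ n := by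
        have hu := u.2
        have hv := v.2
        have : ((p ^ n : ℕ) : ℤ) = (p : ℤ) ^ n := by push_cast; rfl
        rw [← this, abs_lt]
        omega
      have := Int.eq_zero_of_abs_lt_dvd huv hlt
      exact Fin.ext (by omega)
    rw [key a c h3, key b d h4]
  have hcard : Nat.card (Fin (p ^ n) × Fin (p ^ n)) =
      Nat.card (Submodule.torsionBy ℤ A ((p ^ n : ℕ) : ℤ)) := by
    rw [hA n, Nat.card_prod, Nat.card_fin, sq]
  have hbij : Function.Bijective φ :=
    (Nat.bijective_iff_injective_and_card φ).mpr ⟨hinj, hcard⟩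
  obtain ⟨⟨a, b⟩, hab⟩ := hbij.2 ⟨x, mem_torsionBy_nat.mpr hx⟩
  exact ⟨a, b, (congrArg Subtype.val hab).symm⟩

/-- the map `ℤ_p² → T`. -/
def pairMap (f g : TMod p A) : (Fin 2 → ℤ_[p]) →ₗ[ℤ_[p]] TMod p A :=
  Fintype.linearCombination ℤ_[p] ![f, g]

theorem pairMap_apply (f g : TMod p A) (c : Fin 2 → ℤ_[p]) :
    pairMap f g c = c 0 • f + c 1 • g := by
  simp [pairMap, Fintype.linearCombination_apply, Fin.sum_univ_two]

theorem Indep.injective {f g : TMod p A} (h : Indep f g) : Function.Injective (pairMap f g) := by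
  rw [injective_iff_map_eq_zero]
  intro c hc
  rw [pairMap_apply] at hc
  have key : ∀ n, PadicInt.toZModPow n (c 0) = 0 ∧ PadicInt.toZModPow n (c 1) = 0 := by
    intro n
    have h1 : (c 0).appr n • f n + (c 1).appr n • g n = 0 :=
      congrArg (fun g : TMod p A => g n) hc
    have h2 := h.dvd n ((c 0).appr n) ((c 1).appr n) (by simpa using h1)
    have h3 : ∀ m : ℕ, ((p : ℤ) ^ n) ∣ (m : ℤ) → ((m : ℕ) : ZMod (p ^ n)) = 0 := by
      intro m hm
      rw [ZMod.natCast_eq_zero_iff]
      exact_mod_cast hm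
    exact ⟨h3 _ h2.1, h3 _ h2.2⟩
  funext i
  fin_cases i
  · exact PadicInt.ext_of_toZModPow.mp fun n => by simpa using (key n).1
  · exact PadicInt.ext_of_toZModPow.mp fun n => by simpa using (key n).2

theorem Indep.surjective (hA : HasTwoRank p A) {f g : TMod p A} (h : Indep f g) :
    Function.Surjective (pairMap f g) := by
  intro x
  choose a b hab using fun n => h.exists_level hA n (TMod.pow_smul_apply x n)
  have hstep : ∀ n, ((p : ℤ) ^ n) ∣ (a (n + 1) : ℤ) - a n ∧
      ((p : ℤ) ^ n) ∣ (b (n + 1) : ℤ) - b n := by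
    intro n
    apply h.dvd n
    rw [sub_smul, sub_smul, sub_add_sub_comm, natCast_zsmul, natCast_zsmul, natCast_zsmul,
      natCast_zsmul, ← hab n, ← TMod.p_smul_apply_succ f n, ← TMod.p_smul_apply_succ g n,
      smul_comm _ p, smul_comm _ p, ← smul_add, ← hab (n + 1), TMod.p_smul_apply_succ, sub_self]
  let α : ℤ_[p] := PadicInt.ofIntSeq _
    (PadicInt.isCauSeq_padicNorm_of_pow_dvd_sub (fun n => (a n : ℤ)) p fun n => (hstep n).1)
  let β : ℤ_[p] := PadicInt.ofIntSeq _
    (PadicInt.isCauSeq_padicNorm_of_pow_dvd_sub (fun n => (b n : ℤ)) p fun n => (hstep n).2)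
  have hα : ∀ n, PadicInt.toZModPow n α = (a n : ZMod (p ^ n)) := fun n => by
    have := PadicInt.toZModPow_ofIntSeq_of_pow_dvd_sub (fun n => (a n : ℤ)) p
      (fun n => (hstep n).1) n
    simpa using this
  have hβ : ∀ n, PadicInt.toZModPow n β = (b n : ZMod (p ^ n)) := fun n => by
    have := PadicInt.toZModPow_ofIntSeq_of_pow_dvd_sub (fun n => (b n : ℤ)) p
      (fun n => (hstep n).2) n
    simpa using this
  refine ⟨![α, β], ?_⟩
  rw [pairMap_apply]
  refine TMod.ext fun n => ?_
  show (α • f + β • g : TMod p A) n = x n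
  rw [TMod.coe_add_apply, TMod.smul_apply_of_eq α f n (hα n), TMod.smul_apply_of_eq β g n (hβ n),
    ← hab n]

/-- an independent pair is a basis. -/
def Indep.basis (hA : HasTwoRank p A) {f g : TMod p A} (h : Indep f g) :
    Module.Basis (Fin 2) ℤ_[p] (TMod p A) :=
  Module.Basis.ofEquivFun (LinearEquiv.ofBijective (pairMap f g) ⟨h.injective, h.surjective hA⟩).symm

theorem Indep.basis_zero (hA : HasTwoRank p A) {f g : TMod p A} (h : Indep f g) :
    h.basis hA 0 = f := by
  classical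
  rw [Indep.basis, Module.Basis.coe_ofEquivFun]
  simp [pairMap_apply]

theorem Indep.basis_one (hA : HasTwoRank p A) {f g : TMod p A} (h : Indep f g) :
    h.basis hA 1 = g := by
  classical
  rw [Indep.basis, Module.Basis.coe_ofEquivFun]
  simp [pairMap_apply]

/-- criterion of independence. -/
theorem indep_of_notMem {f g : TMod p A} (hf : f 1 ≠ 0) (hg : g 1 ∉ AddSubgroup.zmultiples (f 1)) :
    Indep f g := by
  intro a b hab
  have hpf : (p : ℤ) • f 1 = 0 := by
    have := TMod.pow_smul_apply f 1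
    rw [pow_one] at this
    rw [natCast_zsmul, this]
  have hpg : (p : ℤ) • g 1 = 0 := by
    have := TMod.pow_smul_apply g 1
    rw [pow_one] at this
    rw [natCast_zsmul, this]
  have hb : (p : ℤ) ∣ b := by
    by_contra hb
    have hcop : IsCoprime b (p : ℤ) :=
      ((Nat.prime_iff_prime_int.mp hp.out).coprime_iff_not_dvd.mpr hb).symm
    obtain ⟨u, v, huv⟩ := hcop
    apply hg
    rw [AddSubgroup.mem_zmultiples_iff]
    refine ⟨-(u * a), ?_⟩
    have h1 : b • g 1 = -(a • f 1) := by rw [eq_neg_iff_add_eq_zero, add_comm]; exact hab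
    calc (-(u * a)) • f 1 = u • (-(a • f 1)) := by rw [neg_smul, mul_smul, smul_neg]
      _ = u • (b • g 1) := by rw [h1]
      _ = (u * b + v * p) • g 1 := by rw [add_smul, mul_smul, mul_smul, hpg, smul_zero, add_zero]
      _ = g 1 := by rw [huv, one_smul]
  refine ⟨?_, hb⟩
  obtain ⟨b', rfl⟩ := hb
  rw [mul_comm, mul_smul, hpg, smul_zero, add_zero] at hab
  by_contra ha
  have hcop : IsCoprime a (p : ℤ) :=
    ((Nat.prime_iff_prime_int.mp hp.out).coprime_iff_not_dvd.mpr ha).symm
  obtain ⟨u, v, huv⟩ := hcop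
  apply hf
  calc f 1 = (u * a + v * p) • f 1 := by rw [huv, one_smul]
    _ = 0 := by rw [add_smul, mul_smul, mul_smul, hab, hpf, smul_zero, smul_zero, add_zero]

/-- every `f` with `f 1 ≠ 0` is part of an independent pair. -/
theorem HasTwoRank.exists_indep_right (hA : HasTwoRank p A) {f : TMod p A} (hf : f 1 ≠ 0) :
    ∃ g : TMod p A, Indep f g := by
  have hfin := hA.finite 1
  -- the subgroup generated by `f 1` is not everything
  have hlt : ∃ y : A, p ^ 1 • y = 0 ∧ y ∉ AddSubgroup.zmultiples (f 1) := by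
    by_contra hcon
    push Not at hcon
    have hord : addOrderOf (f 1) = p := by
      apply addOrderOf_eq_prime
      · have := TMod.pow_smul_apply f 1
        rwa [pow_one] at this
      · exact hf
    have hfz : Finite (AddSubgroup.zmultiples (f 1)) :=
      Nat.finite_of_card_ne_zero (by rw [Nat.card_zmultiples, hord]; exact hp.out.pos.ne')
    have hle : Nat.card (Submodule.torsionBy ℤ A ((p ^ 1 : ℕ) : ℤ)) ≤
        Nat.card (AddSubgroup.zmultiples (f 1)) :=
      Nat.card_le_card_of_injective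
        (fun y : Submodule.torsionBy ℤ A ((p ^ 1 : ℕ) : ℤ) =>
          (⟨(y : A), hcon y (mem_torsionBy_nat.mp y.2)⟩ : AddSubgroup.zmultiples (f 1)))
        (fun y z hyz => by
          have h1 := congrArg Subtype.val hyz
          exact Subtype.ext h1)
    rw [hA 1, Nat.card_zmultiples, hord, pow_one, sq] at hle
    have := hp.out.one_lt
    nlinarith
  obtain ⟨y, hy, hy'⟩ := hlt
  obtain ⟨g, rfl⟩ := hA.exists_apply_eq hy
  exact ⟨g, indep_of_notMem hf hy'⟩

theorem HasTwoRank.exists_apply_one_ne_zero (hA : HasTwoRank p A) :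
    ∃ f : TMod p A, f 1 ≠ 0 := by
  by_contra hcon
  push Not at hcon
  have h1 : ∀ y : Submodule.torsionBy ℤ A ((p ^ 1 : ℕ) : ℤ), y = 0 := by
    intro y
    obtain ⟨f, hf⟩ := hA.exists_apply_eq (mem_torsionBy_nat.mp y.2)
    exact Subtype.ext (by rw [← hf, hcon f]; rfl)
  have hsub : Subsingleton (Submodule.torsionBy ℤ A ((p ^ 1 : ℕ) : ℤ)) :=
    ⟨fun a b => by rw [h1 a, h1 b]⟩
  have h2 := hA 1
  rw [Nat.card_unique, pow_one] at h2
  have := hp.out.one_lt
  nlinarith

theorem HasTwoRank.exists_indep (hA : HasTwoRank p A) : ∃ f g : TMod p A, Indep f g := by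
  obtain ⟨f, hf⟩ := hA.exists_apply_one_ne_zero
  obtain ⟨g, hg⟩ := hA.exists_indep_right hf
  exact ⟨f, g, hg⟩

theorem HasTwoRank.free (hA : HasTwoRank p A) : Module.Free ℤ_[p] (TMod p A) := by
  obtain ⟨f, g, h⟩ := hA.exists_indep
  exact Module.Free.of_basis (h.basis hA)

theorem HasTwoRank.finite_tmod (hA : HasTwoRank p A) : Module.Finite ℤ_[p] (TMod p A) := by
  obtain ⟨f, g, h⟩ := hA.exists_indep
  exact Module.Finite.of_basis (h.basis hA)

theorem HasTwoRank.finrank_eq (hA : HasTwoRank p A) : Module.finrank ℤ_[p] (TMod p A) = 2 := by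
  obtain ⟨f, g, h⟩ := hA.exists_indep
  rw [Module.finrank_eq_card_basis (h.basis hA), Fintype.card_fin]

end Count

end Fermat.Agent.Tate
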