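import Mathlib.AlgebraicGeometry.EllipticCurve.Affine.Point
import Mathlib.Tactic

/-!
# Formulas on the x-line of a Weierstrass curve

For points `P`, `Q` of a Weierstrass curve over a field (possibly singular curve, arbitrary
characteristic): formulas for `x(P+Q) + x(P-Q)`, `x(P+Q) * x(P-Q)` and `x(2P)`.
-/

set_option autoImplicit false

open WeierstrassCurve WeierstrassCurve.Affine

namespace Fermat.Agent.ECRed

variable {F : Type*} [Field F] [DecidableEq F] {W : Affine F}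

lemma addX_add_addX_neg {x₁ x₂ y₁ y₂ : F} (h₁ : W.Equation x₁ y₁) (h₂ : W.Equation x₂ y₂)
    (hx : x₁ ≠ x₂) :
    (W.addX x₁ x₂ (W.slope x₁ x₂ y₁ y₂) + W.addX x₁ x₂ (W.slope x₁ x₂ y₁ (W.negY x₂ y₂))) *
      (x₁ - x₂) ^ 2 = (x₁ + x₂) * (2 * x₁ * x₂ + W.b₄) + W.b₂ * x₁ * x₂ + W.b₆ := by
  rw [equation_iff] at h₁ h₂
  rw [slope_of_X_ne hx, slope_of_X_ne hx]
  have hx' : x₁ - x₂ ≠ 0 := sub_ne_zero.mpr hx
  simp only [addX, negY, b₂, b₄, b₆]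
  field_simp
  linear_combination 2 * h₁ + 2 * h₂

lemma addX_mul_addX_neg {x₁ x₂ y₁ y₂ : F} (h₁ : W.Equation x₁ y₁) (h₂ : W.Equation x₂ y₂)
    (hx : x₁ ≠ x₂) :
    (W.addX x₁ x₂ (W.slope x₁ x₂ y₁ y₂) * W.addX x₁ x₂ (W.slope x₁ x₂ y₁ (W.negY x₂ y₂))) *
      (x₁ - x₂) ^ 2 = x₁ ^ 2 * x₂ ^ 2 - W.b₄ * x₁ * x₂ - W.b₆ * (x₁ + x₂) - W.b₈ := by
  rw [equation_iff] at h₁ h₂
  have hx' : x₁ - x₂ ≠ 0 := sub_ne_zero.mpr hx
  rw [slope_of_X_ne hx, slope_of_X_ne hx]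
  obtain ⟨l, hl⟩ : ∃ l, l = (y₁ - y₂) / (x₁ - x₂) := ⟨_, rfl⟩
  obtain ⟨m, hm⟩ : ∃ m, m = (y₁ - W.negY x₂ y₂) / (x₁ - x₂) := ⟨_, rfl⟩
  rw [← hl, ← hm]
  have hl' : l * (x₁ - x₂) = (y₁ - y₂) := by rw [hl]; field_simp
  have hm' : m * (x₁ - x₂) = (y₁ - W.negY x₂ y₂) := by rw [hm]; field_simp
  simp only [negY] at hm'
  have hs : (l + m) * (x₁ - x₂) = 2 * y₁ + W.a₁ * x₂ + W.a₃ := by
    linear_combination hl' + hm'
  have ht : l * m * (x₁ - x₂) =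
      x₁ ^ 2 + x₁ * x₂ + x₂ ^ 2 + W.a₂ * (x₁ + x₂) + W.a₄ - W.a₁ * y₁ := by
    apply mul_right_cancel₀ hx'
    linear_combination m * (x₁ - x₂) * hl' + (y₁ - y₂) * hm' + h₁ - h₂
  clear hl hm
  simp only [addX, b₄, b₆, b₈]
  linear_combination (l * m * (x₁ - x₂) +
    (x₁ ^ 2 + x₁ * x₂ + x₂ ^ 2 + W.a₂ * (x₁ + x₂) + W.a₄ - W.a₁ * y₁) +
    W.a₁ * ((l + m) * (x₁ - x₂)) + W.a₁ ^ 2 * (x₁ - x₂) +
    2 * (W.a₂ + x₁ + x₂) * (x₁ - x₂)) * ht +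
    (W.a₁ * (x₁ ^ 2 + x₁ * x₂ + x₂ ^ 2 + W.a₂ * (x₁ + x₂) + W.a₄ - W.a₁ * y₁) -
    (W.a₂ + x₁ + x₂) * ((l + m) * (x₁ - x₂) + (2 * y₁ + W.a₁ * x₂ + W.a₃)) -
    W.a₁ * (W.a₂ + x₁ + x₂) * (x₁ - x₂)) * hs + (- W.a₁ ^ 2 - 4 * (W.a₂ + x₁ + x₂)) * h₁

omit [DecidableEq F] in
lemma sub_negY_sq {x y : F} (h : W.Equation x y) :
    (y - W.negY x y) ^ 2 = 4 * x ^ 3 + W.b₂ * x ^ 2 + 2 * W.b₄ * x + W.b₆ := by
  rw [equation_iff] at h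
  simp only [negY, b₂, b₄, b₆]
  linear_combination 4 * h

lemma addX_self {x y : F} (h : W.Equation x y) (hy : y ≠ W.negY x y) :
    W.addX x x (W.slope x x y y) * (4 * x ^ 3 + W.b₂ * x ^ 2 + 2 * W.b₄ * x + W.b₆) =
      x ^ 4 - W.b₄ * x ^ 2 - 2 * W.b₆ * x - W.b₈ := by
  rw [slope_of_Y_ne rfl hy, ← sub_negY_sq h]
  have hy' : y - W.negY x y ≠ 0 := sub_ne_zero.mpr hy
  obtain ⟨l, hl⟩ : ∃ l, l = (3 * x ^ 2 + 2 * W.a₂ * x + W.a₄ - W.a₁ * y) / (y - W.negY x y) :=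
    ⟨_, rfl⟩
  rw [← hl]
  have hl' : l * (y - W.negY x y) = 3 * x ^ 2 + 2 * W.a₂ * x + W.a₄ - W.a₁ * y := by
    rw [hl, div_mul_cancel₀ _ hy']
  clear hl hy'
  rw [equation_iff] at h
  simp only [addX, negY, b₄, b₆, b₈] at *
  linear_combination (l * (y - (-y - W.a₁ * x - W.a₃)) +
    (3 * x ^ 2 + 2 * W.a₂ * x + W.a₄ - W.a₁ * y) +
    W.a₁ * (y - (-y - W.a₁ * x - W.a₃))) * hl' + (-W.a₁ ^ 2 - 4 * W.a₂ - 8 * x) * h

lemma slope_mul_sub {x₁ x₂ y₁ y₂ : F} (h₁ : W.Equation x₁ y₁) (h₂ : W.Equation x₂ y₂)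
    (hxy : ¬(x₁ = x₂ ∧ y₁ = W.negY x₂ y₂)) :
    W.slope x₁ x₂ y₁ y₂ * (x₁ - x₂) = y₁ - y₂ := by
  by_cases hx : x₁ = x₂
  · have hy : y₁ ≠ W.negY x₂ y₂ := fun h => hxy ⟨hx, h⟩
    rw [Y_eq_of_Y_ne h₁ h₂ hx hy, hx, sub_self, sub_self, mul_zero]
  · rw [slope_of_X_ne hx, div_mul_cancel₀ _ (sub_ne_zero.mpr hx)]

lemma slope_mul_sub_negY {x₁ x₂ y₁ y₂ : F} (h₁ : W.Equation x₁ y₁) (h₂ : W.Equation x₂ y₂)
    (hxy : ¬(x₁ = x₂ ∧ y₁ = W.negY x₂ y₂)) :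
    W.slope x₁ x₂ y₁ y₂ * (y₁ - W.negY x₂ y₂) =
      x₁ ^ 2 + x₁ * x₂ + x₂ ^ 2 + W.a₂ * (x₁ + x₂) + W.a₄ - W.a₁ * y₁ := by
  by_cases hx : x₁ = x₂
  · have hy : y₁ ≠ W.negY x₂ y₂ := fun h => hxy ⟨hx, h⟩
    have hyy := Y_eq_of_Y_ne h₁ h₂ hx hy
    subst hx hyy
    rw [slope_of_Y_ne rfl hy, div_mul_cancel₀ _ (sub_ne_zero.mpr hy)]
    ring
  · have hx' : x₁ - x₂ ≠ 0 := sub_ne_zero.mpr hx
    rw [slope_of_X_ne hx]
    apply mul_right_cancel₀ hx'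
    rw [mul_right_comm, div_mul_cancel₀ _ hx']
    rw [equation_iff] at h₁ h₂
    simp only [negY]
    linear_combination h₁ - h₂

/-! ### Point versions -/

/-- The `x`-coordinate of a point (junk value `0` at the point at infinity). -/
def xc : W.Point → F
  | .zero => 0
  | .some x _ _ => x

/-- The `y`-coordinate of a point (junk value `0` at the point at infinity). -/
def yc : W.Point → F
  | .zero => 0
  | .some _ y _ => y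

omit [DecidableEq F] in
@[simp] lemma xc_some {x y : F} (h : W.Nonsingular x y) : xc (Point.some x y h) = x := rfl
omit [DecidableEq F] in
@[simp] lemma yc_some {x y : F} (h : W.Nonsingular x y) : yc (Point.some x y h) = y := rfl

omit [DecidableEq F] in
lemma exists_eq_some {P : W.Point} (hP : P ≠ 0) :
    ∃ h : W.Nonsingular (xc P) (yc P), P = Point.some (xc P) (yc P) h := by
  rcases P with _ | ⟨x, y, h⟩
  · exact absurd rfl hP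
  · exact ⟨h, rfl⟩

omit [DecidableEq F] in
lemma nonsingular_of_ne_zero {P : W.Point} (hP : P ≠ 0) : W.Nonsingular (xc P) (yc P) :=
  (exists_eq_some hP).1

omit [DecidableEq F] in
lemma equation_of_ne_zero {P : W.Point} (hP : P ≠ 0) : W.Equation (xc P) (yc P) :=
  (exists_eq_some hP).1.1

omit [DecidableEq F] in
@[simp] lemma xc_neg (P : W.Point) : xc (-P) = xc P := by
  rcases P with _ | ⟨x, y, h⟩ <;> rfl

omit [DecidableEq F] in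
lemma yc_neg {P : W.Point} (hP : P ≠ 0) : yc (-P) = W.negY (xc P) (yc P) := by
  rcases P with _ | ⟨x, y, h⟩
  · exact absurd rfl hP
  · rfl

omit [DecidableEq F] in
lemma eq_or_eq_neg_of_xc_eq {P Q : W.Point} (hP : P ≠ 0) (hQ : Q ≠ 0) (h : xc P = xc Q) :
    P = Q ∨ P = -Q := by
  rcases P with _ | ⟨x, y, hx⟩
  · exact absurd rfl hP
  rcases Q with _ | ⟨x', y', hx'⟩
  · exact absurd rfl hQ
  exact Point.X_eq_iff.mp h

omit [DecidableEq F] in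
lemma xc_eq_iff {P Q : W.Point} (hP : P ≠ 0) (hQ : Q ≠ 0) : xc P = xc Q ↔ P = Q ∨ P = -Q := by
  refine ⟨eq_or_eq_neg_of_xc_eq hP hQ, ?_⟩
  rintro (rfl | rfl)
  · rfl
  · simp

/-- Sum formula. -/
lemma xc_add_add_xc_sub {P Q : W.Point} (hP : P ≠ 0) (hQ : Q ≠ 0) (h : xc P ≠ xc Q) :
    (xc (P + Q) + xc (P - Q)) * (xc P - xc Q) ^ 2 =
      (xc P + xc Q) * (2 * xc P * xc Q + W.b₄) + W.b₂ * xc P * xc Q + W.b₆ := by
  rcases P with _ | ⟨x₁, y₁, h₁⟩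
  · exact absurd rfl hP
  rcases Q with _ | ⟨x₂, y₂, h₂⟩
  · exact absurd rfl hQ
  simp only [xc_some] at h ⊢
  rw [sub_eq_add_neg, Point.neg_some, Point.add_of_X_ne h, Point.add_of_X_ne h]
  exact addX_add_addX_neg h₁.1 h₂.1 h

/-- Product formula. -/
lemma xc_add_mul_xc_sub {P Q : W.Point} (hP : P ≠ 0) (hQ : Q ≠ 0) (h : xc P ≠ xc Q) :
    (xc (P + Q) * xc (P - Q)) * (xc P - xc Q) ^ 2 =
      xc P ^ 2 * xc Q ^ 2 - W.b₄ * xc P * xc Q - W.b₆ * (xc P + xc Q) - W.b₈ := by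
  rcases P with _ | ⟨x₁, y₁, h₁⟩
  · exact absurd rfl hP
  rcases Q with _ | ⟨x₂, y₂, h₂⟩
  · exact absurd rfl hQ
  simp only [xc_some] at h ⊢
  rw [sub_eq_add_neg, Point.neg_some, Point.add_of_X_ne h, Point.add_of_X_ne h]
  exact addX_mul_addX_neg h₁.1 h₂.1 h

lemma add_self_eq_zero_iff {x y : F} (h : W.Nonsingular x y) :
    Point.some x y h + Point.some x y h = 0 ↔ y = W.negY x y := by
  constructor
  · intro h0
    by_contra hy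
    rw [Point.add_self_of_Y_ne hy] at h0
    exact Point.some_ne_zero _ h0
  · intro hy
    exact Point.add_self_of_Y_eq hy

/-- Doubling formula. -/
lemma xc_double {P : W.Point} (h2P : P + P ≠ 0) :
    xc (P + P) * (4 * xc P ^ 3 + W.b₂ * xc P ^ 2 + 2 * W.b₄ * xc P + W.b₆) =
      xc P ^ 4 - W.b₄ * xc P ^ 2 - 2 * W.b₆ * xc P - W.b₈ := by
  rcases P with _ | ⟨x, y, h⟩
  · exact absurd (add_zero _) h2P
  have hy : y ≠ W.negY x y := fun hy => h2P ((add_self_eq_zero_iff h).mpr hy)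
  rw [Point.add_self_of_Y_ne hy]
  exact addX_self h.1 hy

lemma psi_ne_zero {P : W.Point} (hP : P ≠ 0) (h2P : P + P ≠ 0) :
    4 * xc P ^ 3 + W.b₂ * xc P ^ 2 + 2 * W.b₄ * xc P + W.b₆ ≠ 0 := by
  rcases P with _ | ⟨x, y, h⟩
  · exact absurd rfl hP
  have hy : y ≠ W.negY x y := fun hy => h2P ((add_self_eq_zero_iff h).mpr hy)
  simp only [xc_some]
  rw [← sub_negY_sq h.1]
  exact pow_ne_zero 2 (sub_ne_zero.mpr hy)

lemma psi_eq_zero {P : W.Point} (hP : P ≠ 0) (h2P : P + P = 0) :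
    4 * xc P ^ 3 + W.b₂ * xc P ^ 2 + 2 * W.b₄ * xc P + W.b₆ = 0 := by
  rcases P with _ | ⟨x, y, h⟩
  · exact absurd rfl hP
  have hy : y = W.negY x y := (add_self_eq_zero_iff h).mp h2P
  simp only [xc_some]
  rw [← sub_negY_sq h.1, sub_eq_zero.mpr hy]
  ring

/-! ### Translated versions: formulas for `x - e` -/

lemma shift_sum (e : F) {P Q : W.Point} (hP : P ≠ 0) (hQ : Q ≠ 0) (h : xc P ≠ xc Q) :
    ((xc (P + Q) - e) + (xc (P - Q) - e)) * (xc P - xc Q) ^ 2 =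
      ((xc P - e) + (xc Q - e)) *
        (2 * (xc P - e) * (xc Q - e) + (W.b₄ + e * W.b₂ + 6 * e ^ 2)) +
      (W.b₂ + 12 * e) * (xc P - e) * (xc Q - e) +
      (W.b₆ + 2 * e * W.b₄ + e ^ 2 * W.b₂ + 4 * e ^ 3) := by
  have hs := xc_add_add_xc_sub hP hQ h
  linear_combination hs

lemma shift_prod (e : F) {P Q : W.Point} (hP : P ≠ 0) (hQ : Q ≠ 0) (h : xc P ≠ xc Q) :
    ((xc (P + Q) - e) * (xc (P - Q) - e)) * (xc P - xc Q) ^ 2 =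
      (xc P - e) ^ 2 * (xc Q - e) ^ 2 -
      (W.b₄ + e * W.b₂ + 6 * e ^ 2) * (xc P - e) * (xc Q - e) -
      (W.b₆ + 2 * e * W.b₄ + e ^ 2 * W.b₂ + 4 * e ^ 3) * ((xc P - e) + (xc Q - e)) -
      (W.b₈ + 3 * e * W.b₆ + 3 * e ^ 2 * W.b₄ + e ^ 3 * W.b₂ + 3 * e ^ 4) := by
  have hs := xc_add_add_xc_sub hP hQ h
  have ht := xc_add_mul_xc_sub hP hQ h
  linear_combination ht - e * hs

lemma shift_double (e : F) {P : W.Point} (h2P : P + P ≠ 0) :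
    (xc (P + P) - e) * (4 * (xc P - e) ^ 3 + (W.b₂ + 12 * e) * (xc P - e) ^ 2 +
      2 * (W.b₄ + e * W.b₂ + 6 * e ^ 2) * (xc P - e) +
      (W.b₆ + 2 * e * W.b₄ + e ^ 2 * W.b₂ + 4 * e ^ 3)) =
      (xc P - e) ^ 4 - (W.b₄ + e * W.b₂ + 6 * e ^ 2) * (xc P - e) ^ 2 -
      2 * (W.b₆ + 2 * e * W.b₄ + e ^ 2 * W.b₂ + 4 * e ^ 3) * (xc P - e) -
      (W.b₈ + 3 * e * W.b₆ + 3 * e ^ 2 * W.b₄ + e ^ 3 * W.b₂ + 3 * e ^ 4) := by
  have hd := xc_double h2P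
  linear_combination hd

end Fermat.Agent.ECRed
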